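import Mathlib

/-!
# Iterated periodic primitives of a `q`-series (Eichler integrals), helper1222

For `c : ℕ → ℂ` with `c 0 = 0` such that `∑ c n * q^n` converges for every `z` in the upper
half plane (`q = exp (2 π i z / h)`), we define

`eichlerSeries h c j z = ∑' n, c n * (h / (2 π i n)) ^ j * q ^ n`

and prove that `eichlerSeries h c (j+1)` is a primitive of `eichlerSeries h c j` on the upper
half plane, is `h`-periodic, and decays exponentially as `im z → ∞`.
-/

set_option autoImplicit false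

noncomputable section

namespace Fermat.Agent.S22.helper1222

open Complex Filter Topology
open scoped Real

local notation "𝕢" => Function.Periodic.qParam

/-- The weight `h / (2 π i n)` (zero for `n = 0`). -/
def eichlerWeight (h : ℝ) (n : ℕ) : ℂ := (h : ℂ) / (2 * π * I * n)

/-- The `n`-th term of the `j`-fold primitive series. -/
def eichlerTerm (h : ℝ) (c : ℕ → ℂ) (j n : ℕ) (z : ℂ) : ℂ :=
  c n * eichlerWeight h n ^ j * 𝕢 h z ^ n

/-- The `j`-fold primitive series. -/
def eichlerSeries (h : ℝ) (c : ℕ → ℂ) (j : ℕ) (z : ℂ) : ℂ :=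
  ∑' n, eichlerTerm h c j n z

variable {h : ℝ} {c : ℕ → ℂ}

lemma eichlerWeight_zero (h : ℝ) : eichlerWeight h 0 = 0 := by
  simp [eichlerWeight]

lemma norm_eichlerWeight_le (hh : 0 < h) (n : ℕ) : ‖eichlerWeight h n‖ ≤ h / (2 * π) := by
  rcases Nat.eq_zero_or_pos n with rfl | hn
  · rw [eichlerWeight_zero, norm_zero]; positivity
  · have hn1 : (1 : ℝ) ≤ n := by exact_mod_cast hn
    have : ‖eichlerWeight h n‖ = h / (2 * π * n) := by
      simp [eichlerWeight, abs_of_pos hh, abs_of_pos Real.pi_pos]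
    rw [this]
    apply div_le_div_of_nonneg_left hh.le (by positivity)
    nlinarith [Real.pi_pos]

lemma eichlerWeight_mul (hh : 0 < h) {n : ℕ} (hn : n ≠ 0) :
    eichlerWeight h n * (2 * π * I * n / h) = 1 := by
  have h1 : (h : ℂ) ≠ 0 := by exact_mod_cast hh.ne'
  have h2 : (n : ℂ) ≠ 0 := by exact_mod_cast hn
  have h3 : (π : ℂ) ≠ 0 := by exact_mod_cast Real.pi_ne_zero
  unfold eichlerWeight
  field_simp

lemma qParam_pow_eq (h : ℝ) (n : ℕ) (z : ℂ) :
    𝕢 h z ^ n = Complex.exp (2 * π * I * n / h * z) := by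
  rw [Function.Periodic.qParam, ← Complex.exp_nat_mul]
  congr 1
  ring

lemma hasDerivAt_qParam_pow (h : ℝ) (n : ℕ) (z : ℂ) :
    HasDerivAt (fun w => 𝕢 h w ^ n) (2 * π * I * n / h * 𝕢 h z ^ n) z := by
  have h1 : (fun w => 𝕢 h w ^ n) = fun w => Complex.exp (2 * π * I * n / h * w) := by
    funext w; exact qParam_pow_eq h n w
  rw [h1, qParam_pow_eq]
  have h2 : HasDerivAt (fun w : ℂ => 2 * π * I * n / h * w) (2 * π * I * n / h) z := by
    simpa using (hasDerivAt_id z).const_mul (2 * π * I * n / h)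
  refine h2.cexp.congr_deriv ?_
  ring

lemma hasDerivAt_eichlerTerm (hh : 0 < h) (hc : c 0 = 0) (j n : ℕ) (z : ℂ) :
    HasDerivAt (eichlerTerm h c (j + 1) n) (eichlerTerm h c j n z) z := by
  unfold eichlerTerm
  rcases Nat.eq_zero_or_pos n with rfl | hn
  · simp [hc, eichlerWeight_zero]
    exact hasDerivAt_const z 0
  · have key := (hasDerivAt_qParam_pow h n z).const_mul (c n * eichlerWeight h n ^ (j + 1))
    refine key.congr_deriv ?_
    rw [pow_succ]
    have := eichlerWeight_mul hh hn.ne'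
    linear_combination (c n * eichlerWeight h n ^ j * 𝕢 h z ^ n) * this

lemma differentiable_eichlerTerm (h : ℝ) (c : ℕ → ℂ) (j n : ℕ) :
    Differentiable ℂ (eichlerTerm h c j n) := by
  unfold eichlerTerm
  exact ((Function.Periodic.differentiable_qParam (h := h)).pow n).const_mul _

lemma norm_qParam_le_of_le_im (hh : 0 < h) {δ : ℝ} {z : ℂ} (hz : δ ≤ z.im) :
    ‖𝕢 h z‖ ≤ Real.exp (-2 * π * δ / h) := by
  rw [Function.Periodic.norm_qParam]
  apply Real.exp_le_exp.mpr
  apply div_le_div_of_nonneg_right _ hh.le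
  nlinarith [Real.pi_pos]

/-- The summability hypothesis at one point `i δ` gives norm-summability of `c n * r ^ n`
with `r = exp (-2 π δ / h)`. -/
lemma summable_norm_coeff_mul_pow
    (hsum : ∀ z : ℂ, 0 < z.im → Summable fun n => c n * 𝕢 h z ^ n) {δ : ℝ} (hδ : 0 < δ) :
    Summable fun n => ‖c n‖ * Real.exp (-2 * π * δ / h) ^ n := by
  have h1 := (hsum (δ * I) (by simpa using hδ)).norm
  refine h1.congr fun n => ?_
  rw [norm_mul, norm_pow, Function.Periodic.norm_qParam]
  simp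

/-- Uniform bound on the terms on the half plane `δ ≤ im z`. -/
lemma norm_eichlerTerm_le (hh : 0 < h) (j n : ℕ) {δ : ℝ} {z : ℂ} (hz : δ ≤ z.im) :
    ‖eichlerTerm h c j n z‖ ≤
      (h / (2 * π)) ^ j * (‖c n‖ * Real.exp (-2 * π * δ / h) ^ n) := by
  unfold eichlerTerm
  rw [norm_mul, norm_mul, norm_pow, norm_pow]
  have h1 := pow_le_pow_left₀ (norm_nonneg _) (norm_eichlerWeight_le hh n) j
  have h2 := pow_le_pow_left₀ (norm_nonneg _) (norm_qParam_le_of_le_im hh hz) n
  have h3 : 0 ≤ (h / (2 * π)) ^ j := by positivity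
  calc ‖c n‖ * ‖eichlerWeight h n‖ ^ j * ‖𝕢 h z‖ ^ n
      ≤ ‖c n‖ * (h / (2 * π)) ^ j * Real.exp (-2 * π * δ / h) ^ n := by
        gcongr
    _ = _ := by ring

lemma summable_eichlerTerm (hh : 0 < h)
    (hsum : ∀ z : ℂ, 0 < z.im → Summable fun n => c n * 𝕢 h z ^ n) (j : ℕ) {z : ℂ}
    (hz : 0 < z.im) : Summable fun n => eichlerTerm h c j n z := by
  refine Summable.of_norm_bounded ((summable_norm_coeff_mul_pow hsum hz).mul_left _)
    fun n => norm_eichlerTerm_le hh j n le_rfl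

lemma hasSum_eichlerSeries (hh : 0 < h)
    (hsum : ∀ z : ℂ, 0 < z.im → Summable fun n => c n * 𝕢 h z ^ n) (j : ℕ) {z : ℂ}
    (hz : 0 < z.im) : HasSum (fun n => eichlerTerm h c j n z) (eichlerSeries h c j z) :=
  (summable_eichlerTerm hh hsum j hz).hasSum

lemma eichlerSeries_zero_eq (h : ℝ) (c : ℕ → ℂ) (z : ℂ) :
    eichlerSeries h c 0 z = ∑' n, c n * 𝕢 h z ^ n := by
  simp [eichlerSeries, eichlerTerm]

/-- **Main lemma**: `eichlerSeries h c (j+1)` is a primitive of `eichlerSeries h c j` on the upper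
half plane. -/
theorem hasDerivAt_eichlerSeries (hh : 0 < h) (hc : c 0 = 0)
    (hsum : ∀ z : ℂ, 0 < z.im → Summable fun n => c n * 𝕢 h z ^ n) (j : ℕ) {z : ℂ}
    (hz : 0 < z.im) :
    HasDerivAt (eichlerSeries h c (j + 1)) (eichlerSeries h c j z) z := by
  set δ := z.im / 2 with hδ
  have hδ0 : 0 < δ := by positivity
  set U : Set ℂ := {w | δ < w.im} with hU
  have hUo : IsOpen U := isOpen_lt continuous_const Complex.continuous_im
  have hzU : z ∈ U := by show δ < z.im; rw [hδ]; linarith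
  have hu : Summable fun n => (h / (2 * π)) ^ (j + 1) * (‖c n‖ * Real.exp (-2 * π * δ / h) ^ n) :=
    (summable_norm_coeff_mul_pow hsum hδ0).mul_left _
  have hle : ∀ (n : ℕ) (w : ℂ), w ∈ U → ‖eichlerTerm h c (j + 1) n w‖ ≤
      (h / (2 * π)) ^ (j + 1) * (‖c n‖ * Real.exp (-2 * π * δ / h) ^ n) :=
    fun n w hw => norm_eichlerTerm_le hh (j + 1) n (le_of_lt hw)
  have hd : ∀ n : ℕ, DifferentiableOn ℂ (eichlerTerm h c (j + 1) n) U :=
    fun n => (differentiable_eichlerTerm h c (j + 1) n).differentiableOn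
  have h1 := Complex.hasSum_deriv_of_summable_norm hu hd hUo hle hzU
  have h2 := Complex.differentiableOn_tsum_of_summable_norm hu hd hUo hle
  have h3 : (fun n => deriv (eichlerTerm h c (j + 1) n) z) = fun n => eichlerTerm h c j n z := by
    funext n
    exact (hasDerivAt_eichlerTerm hh hc j n z).deriv
  rw [h3] at h1
  have h4 : deriv (eichlerSeries h c (j + 1)) z = eichlerSeries h c j z :=
    h1.unique (hasSum_eichlerSeries hh hsum j hz)
  have h5 : DifferentiableAt ℂ (eichlerSeries h c (j + 1)) z :=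
    (h2 z hzU).differentiableAt (hUo.mem_nhds hzU)
  rw [← h4]
  exact h5.hasDerivAt

theorem differentiableAt_eichlerSeries (hh : 0 < h) (hc : c 0 = 0)
    (hsum : ∀ z : ℂ, 0 < z.im → Summable fun n => c n * 𝕢 h z ^ n) (j : ℕ) {z : ℂ}
    (hz : 0 < z.im) : DifferentiableAt ℂ (eichlerSeries h c (j + 1)) z :=
  (hasDerivAt_eichlerSeries hh hc hsum j hz).differentiableAt

theorem eichlerSeries_periodic (h : ℝ) (c : ℕ → ℂ) (j : ℕ) :
    Function.Periodic (eichlerSeries h c j) h := by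
  intro z
  have hq : 𝕢 h (z + h) = 𝕢 h z := by
    rcases eq_or_ne h 0 with rfl | hh
    · simp [Function.Periodic.qParam]
    · have h1 : (h : ℂ) ≠ 0 := by exact_mod_cast hh
      unfold Function.Periodic.qParam
      rw [show 2 * (π : ℂ) * I * (z + h) / h = 2 * π * I * z / h + 2 * π * I by field_simp]
      rw [Complex.exp_add, Complex.exp_two_pi_mul_I, mul_one]
  simp only [eichlerSeries, eichlerTerm, hq]

/-- Exponential decay: for `1 ≤ im z`, `‖eichlerSeries h c j z‖ ≤ K * exp (-2 π im z / h)`. -/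
theorem exists_norm_eichlerSeries_le (hh : 0 < h) (hc : c 0 = 0)
    (hsum : ∀ z : ℂ, 0 < z.im → Summable fun n => c n * 𝕢 h z ^ n) (j : ℕ) :
    ∃ K : ℝ, 0 ≤ K ∧ ∀ z : ℂ, 1 ≤ z.im →
      ‖eichlerSeries h c j z‖ ≤ K * Real.exp (-2 * π * z.im / h) := by
  obtain ⟨r, hr⟩ : ∃ r : ℝ, r = Real.exp (-2 * π * 1 / h) := ⟨_, rfl⟩
  have hr0 : 0 < r := hr ▸ Real.exp_pos _
  have hs := summable_norm_coeff_mul_pow hsum (δ := 1) one_pos
  rw [← hr] at hs
  -- shifted series
  have hs' : Summable fun n => ‖c (n + 1)‖ * r ^ n := by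
    have h1 := (summable_nat_add_iff 1).mpr hs
    have h2 := h1.mul_left r⁻¹
    refine h2.congr fun n => ?_
    rw [pow_succ]
    field_simp
  refine ⟨(h / (2 * π)) ^ j * ∑' n, ‖c (n + 1)‖ * r ^ n, by positivity, fun z hz => ?_⟩
  have hz0 : 0 < z.im := lt_of_lt_of_le one_pos hz
  have hq : ‖𝕢 h z‖ ≤ r := hr ▸ norm_qParam_le_of_le_im hh hz
  have hsumz := summable_eichlerTerm hh hsum j hz0
  have h0 : eichlerTerm h c j 0 z = 0 := by simp [eichlerTerm, hc]
  have h1 : eichlerSeries h c j z = ∑' n, eichlerTerm h c j (n + 1) z := by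
    unfold eichlerSeries
    rw [hsumz.tsum_eq_zero_add, h0, zero_add]
  rw [h1]
  have hb : ∀ n, ‖eichlerTerm h c j (n + 1) z‖ ≤
      (h / (2 * π)) ^ j * (‖c (n + 1)‖ * r ^ n) * ‖𝕢 h z‖ := by
    intro n
    unfold eichlerTerm
    rw [norm_mul, norm_mul, norm_pow, norm_pow, pow_succ]
    have e1 := pow_le_pow_left₀ (norm_nonneg _) (norm_eichlerWeight_le hh (n + 1)) j
    have e2 := pow_le_pow_left₀ (norm_nonneg _) hq n
    calc ‖c (n + 1)‖ * ‖eichlerWeight h (n + 1)‖ ^ j * (‖𝕢 h z‖ ^ n * ‖𝕢 h z‖)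
        ≤ ‖c (n + 1)‖ * (h / (2 * π)) ^ j * (r ^ n * ‖𝕢 h z‖) := by gcongr
      _ = _ := by ring
  have hsb : Summable fun n => (h / (2 * π)) ^ j * (‖c (n + 1)‖ * r ^ n) * ‖𝕢 h z‖ :=
    (hs'.mul_left _).mul_right _
  have h2 := tsum_of_norm_bounded hsb.hasSum hb
  rw [tsum_mul_right, tsum_mul_left] at h2
  calc ‖∑' n, eichlerTerm h c j (n + 1) z‖
      ≤ ((h / (2 * π)) ^ j * ∑' n, ‖c (n + 1)‖ * r ^ n) * ‖𝕢 h z‖ := h2
    _ = _ := by rw [Function.Periodic.norm_qParam]

/-- The primitive series tend to zero at `i∞` (uniformly in the real part). -/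
theorem tendsto_eichlerSeries_zero (hh : 0 < h) (hc : c 0 = 0)
    (hsum : ∀ z : ℂ, 0 < z.im → Summable fun n => c n * 𝕢 h z ^ n) (j : ℕ) :
    Tendsto (eichlerSeries h c j) (comap Complex.im atTop) (𝓝 0) := by
  obtain ⟨K, hK0, hK⟩ := exists_norm_eichlerSeries_le hh hc hsum j
  rw [tendsto_zero_iff_norm_tendsto_zero]
  have h1 : Tendsto (fun z : ℂ => K * Real.exp (-2 * π * z.im / h)) (comap Complex.im atTop)
      (𝓝 0) := by
    have h2 : Tendsto (fun y : ℝ => K * Real.exp (-2 * π * y / h)) atTop (𝓝 (K * 0)) := by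
      apply Tendsto.const_mul
      apply Real.tendsto_exp_atBot.comp
      have : (fun y : ℝ => -2 * π * y / h) = fun y => (-(2 * π / h)) * y := by
        funext y; ring
      rw [this]
      exact Tendsto.const_mul_atTop_of_neg (by simp; positivity) tendsto_id
    rw [mul_zero] at h2
    exact h2.comp tendsto_comap
  refine tendsto_of_tendsto_of_tendsto_of_le_of_le' tendsto_const_nhds h1
    (Eventually.of_forall fun z => norm_nonneg _) ?_
  have : {z : ℂ | 1 ≤ z.im} ∈ comap Complex.im atTop :=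
    preimage_mem_comap (Ici_mem_atTop 1)
  filter_upwards [this] with z hz using hK z hz

/-! ### Linearity in the coefficient sequence -/

lemma eichlerSeries_add (hh : 0 < h) {c c' : ℕ → ℂ}
    (hsum : ∀ z : ℂ, 0 < z.im → Summable fun n => c n * 𝕢 h z ^ n)
    (hsum' : ∀ z : ℂ, 0 < z.im → Summable fun n => c' n * 𝕢 h z ^ n) (j : ℕ) {z : ℂ}
    (hz : 0 < z.im) :
    eichlerSeries h (c + c') j z = eichlerSeries h c j z + eichlerSeries h c' j z := by
  have h1 := (hasSum_eichlerSeries hh hsum j hz).add (hasSum_eichlerSeries hh hsum' j hz)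
  rw [← h1.tsum_eq]
  unfold eichlerSeries
  congr 1
  funext n
  simp only [eichlerTerm, Pi.add_apply]
  ring

lemma eichlerSeries_smul (h : ℝ) (a : ℂ) (c : ℕ → ℂ) (j : ℕ) (z : ℂ) :
    eichlerSeries h (a • c) j z = a * eichlerSeries h c j z := by
  unfold eichlerSeries
  rw [← tsum_mul_left]
  congr 1
  funext n
  simp only [eichlerTerm, Pi.smul_apply, smul_eq_mul]
  ring

/-! ### Uniqueness of primitives vanishing along the imaginary axis -/

/-- A function which is differentiable with zero derivative on the upper half plane and tends to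
`0` along the imaginary axis vanishes on the upper half plane. -/
theorem eq_zero_of_deriv_zero_of_tendsto {G : ℂ → ℂ}
    (hG : ∀ z : ℂ, 0 < z.im → HasDerivAt G 0 z)
    (hlim : Tendsto (fun y : ℝ => G (y * I)) atTop (𝓝 0)) {z : ℂ} (hz : 0 < z.im) : G z = 0 := by
  have hconv : Convex ℝ {w : ℂ | 0 < w.im} := by
    intro a ha b hb s t hs ht hst
    have ha' : 0 < a.im := ha
    have hb' : 0 < b.im := hb
    show 0 < (s • a + t • b).im
    simp only [Complex.add_im, Complex.real_smul, Complex.mul_im, Complex.ofReal_re,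
      Complex.ofReal_im, zero_mul, add_zero]
    rcases eq_or_lt_of_le hs with rfl | hs'
    · have : t = 1 := by linarith
      subst this; simpa using hb'
    · have := mul_pos hs' ha'
      have := mul_nonneg ht hb'.le
      linarith
  have hdiff : DifferentiableOn ℂ G {w : ℂ | 0 < w.im} :=
    fun w hw => (hG w hw).differentiableAt.differentiableWithinAt
  have hopen : IsOpen {w : ℂ | 0 < w.im} := isOpen_lt continuous_const Complex.continuous_im
  have hconst : ∀ w : ℂ, 0 < w.im → G w = G z := by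
    intro w hw
    have hfd : ∀ x ∈ {w : ℂ | 0 < w.im}, fderivWithin ℂ G {w : ℂ | 0 < w.im} x = 0 := by
      intro x hx
      rw [fderivWithin_of_isOpen hopen hx]
      have := (hG x hx).hasFDerivAt.fderiv
      rw [this]
      ext
      simp
    exact hconv.is_const_of_fderivWithin_eq_zero (𝕜 := ℂ) hdiff hfd hw hz
  have h2 : Tendsto (fun y : ℝ => G (y * I)) atTop (𝓝 (G z)) := by
    refine tendsto_const_nhds.congr' ?_
    filter_upwards [eventually_gt_atTop (0 : ℝ)] with y hy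
    exact (hconst (y * I) (by simpa using hy)).symm
  exact tendsto_nhds_unique h2 hlim

/-- Two primitives on the upper half plane of the same function, both tending to `0` along the
imaginary axis, agree on the upper half plane. -/
theorem eq_of_hasDerivAt_of_tendsto {G₁ G₂ g : ℂ → ℂ}
    (hG₁ : ∀ z : ℂ, 0 < z.im → HasDerivAt G₁ (g z) z)
    (hG₂ : ∀ z : ℂ, 0 < z.im → HasDerivAt G₂ (g z) z)
    (hlim₁ : Tendsto (fun y : ℝ => G₁ (y * I)) atTop (𝓝 0))
    (hlim₂ : Tendsto (fun y : ℝ => G₂ (y * I)) atTop (𝓝 0)) {z : ℂ} (hz : 0 < z.im) :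
    G₁ z = G₂ z := by
  have h := eq_zero_of_deriv_zero_of_tendsto (G := fun w => G₁ w - G₂ w)
    (fun w hw => by
      have h3 := (hG₁ w hw).sub (hG₂ w hw)
      rw [sub_self] at h3
      exact h3)
    (by simpa using hlim₁.sub hlim₂) hz
  exact sub_eq_zero.mp h

/-- The restriction of a function tending to `0` at `im → ∞` to the imaginary axis tends to `0`. -/
lemma tendsto_imAxis_of_tendsto_comap_im {G : ℂ → ℂ}
    (hG : Tendsto G (comap Complex.im atTop) (𝓝 0)) :
    Tendsto (fun y : ℝ => G (y * I)) atTop (𝓝 0) := by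
  refine hG.comp ?_
  rw [tendsto_comap_iff]
  have : (Complex.im ∘ fun y : ℝ => (y : ℂ) * I) = id := by
    funext y; simp
  rw [this]
  exact tendsto_id

/-! ### Specialisation to cusp forms -/

section CuspForms

open UpperHalfPlane ModularForm
open scoped MatrixGroups

variable {F : Type*} [FunLike F ℍ ℂ] {Γ : Subgroup (GL (Fin 2) ℝ)} {k : ℤ}

/-- The `q`-expansion coefficients (w.r.t. the period `h`) as a sequence. -/
def qCoeffSeq (h : ℝ) (f : ℍ → ℂ) (n : ℕ) : ℂ := (qExpansion h f).coeff n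

/-- The `j`-fold Eichler integral of `f` (normalised to vanish at `i∞`), as a function on `ℂ`
(only meaningful on the upper half plane). -/
def eichlerOf (h : ℝ) (f : ℍ → ℂ) (j : ℕ) (z : ℂ) : ℂ := eichlerSeries h (qCoeffSeq h f) j z

lemma hasSum_qCoeffSeq [ModularFormClass F Γ k] (f : F) (hh : 0 < h)
    (hΓ : h ∈ Γ.strictPeriods) (τ : ℍ) :
    HasSum (fun n => qCoeffSeq h f n * 𝕢 h τ ^ n) (f τ) := by
  have : Fact (IsCusp OnePoint.infty Γ) := ⟨Γ.isCusp_of_mem_strictPeriods hh hΓ⟩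
  exact ModularForm.hasSum_qExpansion f hh hΓ τ

lemma summable_qCoeffSeq [ModularFormClass F Γ k] (f : F) (hh : 0 < h)
    (hΓ : h ∈ Γ.strictPeriods) (z : ℂ) (hz : 0 < z.im) :
    Summable fun n => qCoeffSeq h f n * 𝕢 h z ^ n :=
  (hasSum_qCoeffSeq f hh hΓ ⟨z, hz⟩).summable

lemma qCoeffSeq_zero [CuspFormClass F Γ k] (f : F) (hh : 0 < h)
    (hΓ : h ∈ Γ.strictPeriods) : qCoeffSeq h f 0 = 0 :=
  CuspFormClass.qExpansion_coeff_zero f hh hΓ

theorem eichlerOf_zero [ModularFormClass F Γ k] (f : F) (hh : 0 < h)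
    (hΓ : h ∈ Γ.strictPeriods) {z : ℂ} (hz : 0 < z.im) :
    eichlerOf h f 0 z = f ⟨z, hz⟩ := by
  rw [eichlerOf, eichlerSeries_zero_eq]
  exact (hasSum_qCoeffSeq f hh hΓ ⟨z, hz⟩).tsum_eq

theorem hasDerivAt_eichlerOf [CuspFormClass F Γ k] (f : F) (hh : 0 < h)
    (hΓ : h ∈ Γ.strictPeriods) (j : ℕ) {z : ℂ} (hz : 0 < z.im) :
    HasDerivAt (eichlerOf h f (j + 1)) (eichlerOf h f j z) z :=
  hasDerivAt_eichlerSeries hh (qCoeffSeq_zero f hh hΓ) (summable_qCoeffSeq f hh hΓ) j hz

theorem eichlerOf_periodic (h : ℝ) (f : ℍ → ℂ) (j : ℕ) :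
    Function.Periodic (eichlerOf h f j) h :=
  eichlerSeries_periodic h _ j

theorem tendsto_eichlerOf_zero [CuspFormClass F Γ k] (f : F) (hh : 0 < h)
    (hΓ : h ∈ Γ.strictPeriods) (j : ℕ) :
    Tendsto (eichlerOf h f j) (comap Complex.im atTop) (𝓝 0) :=
  tendsto_eichlerSeries_zero hh (qCoeffSeq_zero f hh hΓ) (summable_qCoeffSeq f hh hΓ) j

theorem exists_norm_eichlerOf_le [CuspFormClass F Γ k] (f : F) (hh : 0 < h)
    (hΓ : h ∈ Γ.strictPeriods) (j : ℕ) :
    ∃ K : ℝ, 0 ≤ K ∧ ∀ z : ℂ, 1 ≤ z.im →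
      ‖eichlerOf h f j z‖ ≤ K * Real.exp (-2 * π * z.im / h) :=
  exists_norm_eichlerSeries_le hh (qCoeffSeq_zero f hh hΓ) (summable_qCoeffSeq f hh hΓ) j

theorem eichlerOf_add (f g : CuspForm Γ k) (hh : 0 < h) (hΓ : h ∈ Γ.strictPeriods) (j : ℕ)
    {z : ℂ} (hz : 0 < z.im) :
    eichlerOf h (⇑(f + g)) j z = eichlerOf h f j z + eichlerOf h g j z := by
  have h1 : qCoeffSeq h (⇑(f + g)) = qCoeffSeq h f + qCoeffSeq h g := by
    funext n
    simp only [qCoeffSeq, Pi.add_apply, FunLike.coe_add]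
    rw [ModularForm.qExpansion_add hh hΓ f g, map_add]
  rw [eichlerOf, h1]
  exact eichlerSeries_add hh (summable_qCoeffSeq f hh hΓ) (summable_qCoeffSeq g hh hΓ) j hz

theorem eichlerOf_smul [Γ.HasDetOne] (a : ℂ) (f : CuspForm Γ k) (hh : 0 < h)
    (hΓ : h ∈ Γ.strictPeriods) (j : ℕ) (z : ℂ) :
    eichlerOf h (⇑(a • f)) j z = a * eichlerOf h f j z := by
  have h1 : qCoeffSeq h (⇑(a • f)) = a • qCoeffSeq h f := by
    funext n
    simp only [qCoeffSeq, Pi.smul_apply, smul_eq_mul]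
    rw [show (⇑(a • f) : ℍ → ℂ) = a • ⇑f from rfl, ModularForm.qExpansion_smul hh hΓ a f]
    simp
  rw [eichlerOf, h1]
  exact eichlerSeries_smul h a _ j z

end CuspForms

end Fermat.Agent.S22.helper1222

end
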