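import Mathlib
import Fermat.Prelude.Def_CuspForm_HeckeAlgebra

set_option autoImplicit false

open UpperHalfPlane hiding I
open Real Complex
open scoped Manifold MatrixGroups ModularForm Topology
open Derivative

namespace Fermat.Agent.S22.helper322

noncomputable section

/-- Iterating the normalized derivative preserves holomorphy. -/
theorem mdiff_iterate_D {F : ℍ → ℂ} (hF : MDiff F) (n : ℕ) : MDiff (D^[n] F) := by
  induction n with
  | zero => simpa using hF
  | succ n ih =>
    rw [Function.iterate_succ_apply']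
    exact normalizedDerivOfComplex_mdifferentiable ih

/-- Slash action formula for positive determinant. -/
theorem slash_apply_of_det_pos {k : ℤ} (F : ℍ → ℂ) {g : GL (Fin 2) ℝ} (hg : 0 < g.val.det) (z : ℍ) :
    (F ∣[k] g) z = F (g • z) * (g.val.det : ℂ) ^ (k - 1) * denom g z ^ (-k) := by
  have hdet : g.det.val = g.val.det := Matrix.GeneralLinearGroup.val_det_apply g
  have hσ (x) : σ g x = x := by
    simp [σ, hg]
  rw [ModularForm.slash_apply, hσ, hdet, abs_of_pos hg]

/-- `D` of the function `z ↦ denom g z`. -/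
theorem D_denom (g : GL (Fin 2) ℝ) :
    D (fun z : ℍ ↦ denom g z) = fun _ ↦ (2 * π * I)⁻¹ * (g 1 0 : ℂ) := by
  ext z
  have h := hasDerivAt_denom_zpow g 1 z
  simp only [normalizedDerivOfComplex]
  have h2 : ((fun z : ℍ ↦ denom g z) ∘ ofComplex) =ᶠ[𝓝 (z : ℂ)] fun w ↦ denom g w ^ (1 : ℤ) := by
    filter_upwards [isOpen_upperHalfPlaneSet.mem_nhds z.im_pos] with w hw
    simp [Function.comp_apply, ofComplex_apply_of_im_pos hw]
  rw [h2.deriv_eq, h.deriv]
  simp

/-- `D` of a constant multiple. -/
theorem D_const_mul (c : ℂ) {F : ℍ → ℂ} (hF : MDiff F) :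
    D (fun z ↦ c * F z) = fun z ↦ c * D F z := by
  have h0 : (fun z ↦ c * F z) = c • F := rfl
  rw [h0, normalizedDerivOfComplex_smul c F hF]
  rfl

/-- Leibniz rule for multiplication by a function `L` whose normalized derivative is constant. -/
theorem iterate_D_mul_of_D_const {L H : ℍ → ℂ} (hL : MDiff L) (hH : MDiff H) (c : ℂ)
    (hDL : D L = fun _ ↦ c) (n : ℕ) :
    D^[n + 1] (L * H) = L * D^[n + 1] H + fun z ↦ ((n + 1 : ℕ) : ℂ) * c * D^[n] H z := by
  induction n with
  | zero =>
    simp only [zero_add, Function.iterate_one, Function.iterate_zero, id_eq, Nat.cast_one, one_mul]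
    rw [normalizedDerivOfComplex_mul L H hL hH, hDL]
    ext z
    simp [Pi.add_apply, Pi.mul_apply]
    ring
  | succ n ih =>
    rw [Function.iterate_succ_apply', ih]
    have h1 : MDiff (D^[n + 1] H) := mdiff_iterate_D hH (n + 1)
    have h2 : MDiff (D^[n] H) := mdiff_iterate_D hH n
    have h3 : MDiff (L * D^[n + 1] H) := hL.mul h1
    have h4 : MDiff (fun z ↦ ((n + 1 : ℕ) : ℂ) * c * D^[n] H z) := by
      have := (mdifferentiable_const (c := ((n + 1 : ℕ) : ℂ) * c) :
        MDiff (fun _ : ℍ ↦ ((n + 1 : ℕ) : ℂ) * c)).mul h2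
      exact this
    rw [normalizedDerivOfComplex_add _ _ h3 h4, normalizedDerivOfComplex_mul L _ hL h1, hDL,
      D_const_mul _ h2]
    ext z
    simp only [Pi.add_apply, Pi.mul_apply, Function.iterate_succ_apply']
    push_cast
    ring

/-- **Bol's identity**, in the form: the `n`-th normalized derivative of a weight `1 - n` slash is the
weight `n + 1` slash of the `n`-th normalized derivative, up to a power of the determinant. -/
theorem bol_identity {g : GL (Fin 2) ℝ} (hg : 0 < g.val.det) (n : ℕ) {F : ℍ → ℂ} (hF : MDiff F) :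
    D^[n] (F ∣[(1 : ℤ) - n] g) = fun z ↦ ((g.val.det : ℂ)⁻¹) ^ n * (D^[n] F ∣[(n : ℤ) + 1] g) z := by
  have hdetℂ : (g.val.det : ℂ) ≠ 0 := Complex.ofReal_ne_zero.mpr hg.ne'
  induction n with
  | zero =>
    ext z
    simp
  | succ n ih =>
    -- `F ∣[-n] g = det⁻¹ • (denom * F ∣[1 - n] g)`
    set L : ℍ → ℂ := fun z ↦ denom g z with hLdef
    set H : ℍ → ℂ := F ∣[(1 : ℤ) - n] g with hHdef
    have hL : MDiff L := mdifferentiable_denom g
    have hH : MDiff H := hF.slash _ g
    have hLH : MDiff (L * H) := hL.mul hH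
    have key : (F ∣[(1 : ℤ) - (n + 1 : ℕ)] g) = fun z ↦ (g.val.det : ℂ)⁻¹ * (L * H) z := by
      ext z
      have hz := denom_ne_zero g z
      simp only [hLdef, hHdef, Pi.mul_apply]
      rw [slash_apply_of_det_pos F hg, slash_apply_of_det_pos F hg]
      have e1 : ((1 : ℤ) - (n + 1 : ℕ) - 1) = ((1 : ℤ) - n - 1) - 1 := by push_cast; ring
      have e2 : (-((1 : ℤ) - (n + 1 : ℕ))) = (-((1 : ℤ) - n)) + 1 := by push_cast; ring
      rw [e1, e2, zpow_sub_one₀ hdetℂ, zpow_add_one₀ hz]
      ring
    have hDn : ∀ m : ℕ, D^[m] (fun z ↦ (g.val.det : ℂ)⁻¹ * (L * H) z) =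
        fun z ↦ (g.val.det : ℂ)⁻¹ * D^[m] (L * H) z := by
      intro m
      induction m with
      | zero => rfl
      | succ m ihm =>
        rw [Function.iterate_succ_apply', ihm, D_const_mul _ (mdiff_iterate_D hLH m)]
        ext z
        rw [Function.iterate_succ_apply']
    rw [key, hDn, iterate_D_mul_of_D_const hL hH _ (D_denom g) n]
    have hK : MDiff (D^[n] F ∣[(n : ℤ) + 1] g) := (mdiff_iterate_D hF n).slash _ g
    have h1 : D^[n + 1] H = fun z ↦ ((g.val.det : ℂ)⁻¹) ^ n *
        ((g.val.det : ℂ)⁻¹ * (D^[n + 1] F ∣[(n : ℤ) + 1 + 2] g) z -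
          ((n : ℤ) + 1 : ℤ) * (2 * π * I)⁻¹ * (g 1 0 / denom g z) * (D^[n] F ∣[(n : ℤ) + 1] g) z) := by
      rw [Function.iterate_succ_apply', ih, D_const_mul _ hK,
        normalizedDerivOfComplex_slash (mdiff_iterate_D hF n) hg]
      ext z
      rw [Function.iterate_succ_apply']
    rw [h1, ih]
    ext z
    have hz := denom_ne_zero g z
    simp only [Pi.add_apply, Pi.mul_apply, hLdef]
    rw [slash_apply_of_det_pos _ hg, slash_apply_of_det_pos _ hg, slash_apply_of_det_pos _ hg]
    have e1 : ((n : ℤ) + 1 + 2 - 1) = ((n : ℤ) + 1 - 1) + 1 + 1 := by ring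
    have e2 : (-((n : ℤ) + 1 + 2)) = (-((n : ℤ) + 1)) - 1 - 1 := by ring
    have e3 : (((n + 1 : ℕ) : ℤ) + 1 - 1) = ((n : ℤ) + 1 - 1) + 1 := by push_cast; ring
    have e4 : (-(((n + 1 : ℕ) : ℤ) + 1)) = (-((n : ℤ) + 1)) - 1 := by push_cast; ring
    rw [e1, e2, e3, e4, zpow_add_one₀ hdetℂ, zpow_add_one₀ hdetℂ, zpow_sub_one₀ hz, zpow_sub_one₀ hz]
    push_cast
    simp only [inv_pow, pow_succ]
    field_simp
    ring

/-! ### Linearity of iterated `D` -/

theorem iterate_D_add {F G : ℍ → ℂ} (hF : MDiff F) (hG : MDiff G) (n : ℕ) :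
    D^[n] (F + G) = D^[n] F + D^[n] G := by
  induction n with
  | zero => rfl
  | succ n ih =>
    rw [Function.iterate_succ_apply', ih,
      normalizedDerivOfComplex_add _ _ (mdiff_iterate_D hF n) (mdiff_iterate_D hG n),
      Function.iterate_succ_apply', Function.iterate_succ_apply']

theorem iterate_D_sub {F G : ℍ → ℂ} (hF : MDiff F) (hG : MDiff G) (n : ℕ) :
    D^[n] (F - G) = D^[n] F - D^[n] G := by
  induction n with
  | zero => rfl
  | succ n ih =>
    rw [Function.iterate_succ_apply', ih,
      normalizedDerivOfComplex_sub _ _ (mdiff_iterate_D hF n) (mdiff_iterate_D hG n),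
      Function.iterate_succ_apply', Function.iterate_succ_apply']

theorem iterate_D_smul (c : ℂ) {F : ℍ → ℂ} (hF : MDiff F) (n : ℕ) :
    D^[n] (c • F) = c • D^[n] F := by
  induction n with
  | zero => rfl
  | succ n ih =>
    rw [Function.iterate_succ_apply', ih,
      normalizedDerivOfComplex_smul _ _ (mdiff_iterate_D hF n), Function.iterate_succ_apply']

theorem iterate_D_zero (n : ℕ) : D^[n] (0 : ℍ → ℂ) = 0 := by
  induction n with
  | zero => rfl
  | succ n ih =>
    rw [Function.iterate_succ_apply', ih]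
    exact normalizedDerivOfComplex_const 0

/-! ### Polynomial functions on the upper half plane -/

/-- The function on `ℍ` attached to a polynomial. -/
def polyFun (P : Polynomial ℂ) : ℍ → ℂ := fun z ↦ P.eval (z : ℂ)

theorem polyFun_apply (P : Polynomial ℂ) (z : ℍ) : polyFun P z = P.eval (z : ℂ) := rfl

theorem mdiff_polyFun (P : Polynomial ℂ) : MDiff (polyFun P) := by
  rw [UpperHalfPlane.mdifferentiable_iff]
  have h : DifferentiableOn ℂ (fun w : ℂ ↦ P.eval w) {z | 0 < z.im} :=
    P.differentiable.differentiableOn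
  refine h.congr ?_
  intro w hw
  simp [polyFun, Function.comp_apply, ofComplex_apply_of_im_pos hw]

/-- `D` of a polynomial function. -/
theorem D_polyFun (P : Polynomial ℂ) :
    D (polyFun P) = polyFun (Polynomial.C ((2 * π * I)⁻¹) * Polynomial.derivative P) := by
  ext z
  have h2 : (polyFun P ∘ ofComplex) =ᶠ[𝓝 (z : ℂ)] fun w ↦ P.eval w := by
    filter_upwards [isOpen_upperHalfPlaneSet.mem_nhds z.im_pos] with w hw
    simp [polyFun, Function.comp_apply, ofComplex_apply_of_im_pos hw]
  simp only [normalizedDerivOfComplex]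
  rw [h2.deriv_eq, Polynomial.deriv]
  simp [polyFun, Polynomial.eval_mul, Polynomial.eval_C]

/-- A holomorphic function on `ℍ` with vanishing derivative is constant. -/
theorem exists_const_of_D_eq_zero {H : ℍ → ℂ} (hH : MDiff H) (h : D H = 0) :
    ∃ c : ℂ, ∀ z : ℍ, H z = c := by
  refine ⟨H UpperHalfPlane.I, fun z ↦ ?_⟩
  have hs : IsOpen {z : ℂ | 0 < z.im} := isOpen_upperHalfPlaneSet
  have hs' : IsPreconnected {z : ℂ | 0 < z.im} := (convex_halfSpace_im_gt 0).isPreconnected
  have hd : DifferentiableOn ℂ (H ∘ ofComplex) {z : ℂ | 0 < z.im} :=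
    UpperHalfPlane.mdifferentiable_iff.mp hH
  have hd' : Set.EqOn (deriv (H ∘ ofComplex)) 0 {z : ℂ | 0 < z.im} := by
    intro w hw
    have h1 : (2 * π * I : ℂ)⁻¹ * deriv (H ∘ ofComplex) w = 0 := congrFun h ⟨w, hw⟩
    have hpi : (2 * π * I : ℂ) ≠ 0 := by
      simp [Real.pi_ne_zero, Complex.I_ne_zero]
    exact (mul_eq_zero.mp h1).resolve_left (inv_ne_zero hpi)
  have := hs.is_const_of_deriv_eq_zero hs' hd hd' z.im_pos UpperHalfPlane.I.im_pos
  simp only [Function.comp_apply, ofComplex_apply] at this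
  exact this

/-- Polynomials of degree `< n` have an antiderivative of degree `< n + 1`. -/
theorem exists_antiderivative (n : ℕ) (Q : Polynomial ℂ) (hQ : Q.degree < n) :
    ∃ R : Polynomial ℂ, Polynomial.derivative R = Q ∧ R.degree < (n + 1 : ℕ) := by
  classical
  refine ⟨∑ i ∈ Finset.range n, Polynomial.monomial (i + 1) (Q.coeff i / ((i : ℂ) + 1)), ?_, ?_⟩
  · rw [Polynomial.derivative_sum]
    ext j
    rw [Polynomial.finsetSum_coeff]
    have h1 : ∀ i ∈ Finset.range n,
        (Polynomial.derivative (Polynomial.monomial (i + 1) (Q.coeff i / ((i : ℂ) + 1)))).coeff j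
          = if i = j then Q.coeff i else 0 := by
      intro i _
      rw [Polynomial.derivative_monomial, Polynomial.coeff_monomial]
      have hne : ((i : ℂ) + 1) ≠ 0 := by exact_mod_cast Nat.succ_ne_zero i
      simp only [Nat.add_sub_cancel, Nat.cast_add, Nat.cast_one]
      split_ifs
      · field_simp
      · rfl
    rw [Finset.sum_congr rfl h1, Finset.sum_ite_eq' (Finset.range n) j]
    split_ifs with hj
    · rfl
    · rw [Finset.mem_range, not_lt] at hj
      symm
      exact Polynomial.coeff_eq_zero_of_degree_lt (lt_of_lt_of_le hQ (by exact_mod_cast hj))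
  · rw [← Polynomial.mem_degreeLT]
    refine Submodule.sum_mem _ fun i hi ↦ ?_
    rw [Polynomial.mem_degreeLT]
    refine lt_of_le_of_lt (Polynomial.degree_monomial_le _ _) ?_
    rw [Finset.mem_range] at hi
    exact_mod_cast Nat.succ_lt_succ hi

/-- **Polynomial lemma**: a holomorphic function on `ℍ` whose `n`-th derivative vanishes is a
polynomial of degree `< n`. -/
theorem exists_polynomial_of_iterate_D_eq_zero (n : ℕ) {G : ℍ → ℂ} (hG : MDiff G)
    (h : D^[n] G = 0) : ∃ P : Polynomial ℂ, P.degree < n ∧ G = polyFun P := by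
  induction n generalizing G with
  | zero =>
    refine ⟨0, ?_, ?_⟩
    · simp
    · rw [Function.iterate_zero, id_eq] at h
      rw [h]
      ext z
      simp [polyFun]
  | succ n ih =>
    rw [Function.iterate_succ_apply] at h
    obtain ⟨Q, hQdeg, hQ⟩ := ih (normalizedDerivOfComplex_mdifferentiable hG) h
    obtain ⟨R, hRder, hRdeg⟩ := exists_antiderivative n Q hQdeg
    set R' : Polynomial ℂ := Polynomial.C (2 * π * I) * R with hR'
    have hpi : (2 * π * I : ℂ) ≠ 0 := by
      simp [Real.pi_ne_zero, Complex.I_ne_zero]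
    have hD : D (G - polyFun R') = 0 := by
      rw [normalizedDerivOfComplex_sub _ _ hG (mdiff_polyFun R'), hQ, D_polyFun, hR',
        Polynomial.derivative_C_mul, hRder, ← mul_assoc, ← Polynomial.C_mul, inv_mul_cancel₀ hpi,
        Polynomial.C_1, one_mul, sub_self]
    obtain ⟨c, hc⟩ := exists_const_of_D_eq_zero (hG.sub (mdiff_polyFun R')) hD
    refine ⟨R' + Polynomial.C c, ?_, ?_⟩
    · refine lt_of_le_of_lt (Polynomial.degree_add_le _ _) (max_lt ?_ ?_)
      · rw [hR', Polynomial.degree_C_mul hpi]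
        exact hRdeg
      · refine lt_of_le_of_lt Polynomial.degree_C_le ?_
        exact_mod_cast Nat.succ_pos n
    · ext z
      have := hc z
      simp only [Pi.sub_apply, polyFun] at this
      simp only [polyFun, Polynomial.eval_add, Polynomial.eval_C]
      rw [← this]
      ring

/-- The iterated derivative of a polynomial function. -/
theorem iterate_D_polyFun (P : Polynomial ℂ) (n : ℕ) :
    D^[n] (polyFun P) =
      polyFun (Polynomial.C (((2 * π * I)⁻¹) ^ n) * Polynomial.derivative^[n] P) := by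
  induction n with
  | zero => simp
  | succ n ih =>
    rw [Function.iterate_succ_apply', ih, D_polyFun, Polynomial.derivative_C_mul, ← mul_assoc,
      ← Polynomial.C_mul, Function.iterate_succ_apply', pow_succ']

/-- The `n`-th derivative of a polynomial function of degree `< n` vanishes. -/
theorem iterate_D_polyFun_eq_zero {P : Polynomial ℂ} {n : ℕ} (hP : P.degree < n) :
    D^[n] (polyFun P) = 0 := by
  rw [iterate_D_polyFun]
  have : Polynomial.derivative^[n] P = 0 := by
    by_cases hP0 : P = 0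
    · rw [hP0]
      exact Polynomial.iterate_derivative_zero
    · refine Polynomial.iterate_derivative_eq_zero ?_
      exact (Polynomial.natDegree_lt_iff_degree_lt hP0).mpr hP
  rw [this, mul_zero]
  ext z
  simp [polyFun]

/-- A polynomial vanishing on `ℍ` is zero. -/
theorem eq_zero_of_polyFun_eq_zero {P : Polynomial ℂ} (h : polyFun P = 0) : P = 0 := by
  refine Polynomial.eq_zero_of_infinite_isRoot P ?_
  have hinf : (Set.range fun n : ℕ ↦ ((n : ℂ) + Complex.I)).Infinite := by
    refine Set.infinite_range_of_injective fun a b hab ↦ ?_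
    simpa using hab
  refine hinf.mono ?_
  rintro _ ⟨n, rfl⟩
  have him : 0 < ((n : ℂ) + Complex.I).im := by simp
  have := congrFun h ⟨_, him⟩
  simpa [polyFun] using this

theorem polyFun_injective : Function.Injective polyFun := by
  intro P Q h
  have : polyFun (P - Q) = 0 := by
    ext z
    have := congrFun h z
    simp only [polyFun] at this
    simp [polyFun, this]
  exact sub_eq_zero.mp (eq_zero_of_polyFun_eq_zero this)

/-! ### The Eichler cocycle is polynomial -/

/-- If `F` is an `n`-fold primitive (w.r.t. `D`) of a function `f` that is invariant under the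
weight `n + 1` slash action of `g` (of determinant one), then `F ∣[1 - n] g - F` is a polynomial of
degree `< n`. -/
theorem exists_polynomial_slash_sub {n : ℕ} {F f : ℍ → ℂ} (hF : MDiff F) (hFf : D^[n] F = f)
    {g : GL (Fin 2) ℝ} (hg : g.val.det = 1) (hf : f ∣[(n : ℤ) + 1] g = f) :
    ∃ P : Polynomial ℂ, P.degree < n ∧ F ∣[(1 : ℤ) - n] g - F = polyFun P := by
  have hg' : 0 < g.val.det := by rw [hg]; exact one_pos
  refine exists_polynomial_of_iterate_D_eq_zero n ((hF.slash _ g).sub hF) ?_
  rw [iterate_D_sub (hF.slash _ g) hF, bol_identity hg' n hF, hFf, hf]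
  ext z
  simp [hg]

end

end Fermat.Agent.S22.helper322
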