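import Mathlib
import Fermat.Prelude.Def_CuspForm_HeckeAlgebra
import Fermat.Prelude.Thm_Subgroup_IsArithmetic_exists_nat_mem_strictPeriods_conj
import Fermat.Agent.S22.helper1222_EichlerSeries
import Fermat.Agent.S22.helper322_Bol

/-!
# S22: the separation field of `EichlerData` (helper1266)

If `F` is a holomorphic `(w+1)`-fold `D`-primitive of a weight `w + 2` cusp form `f` on an
arithmetic group `Γ`, and `F` is invariant under the weight `-w` slash action of `Γ`, then `f = 0`.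

Main statements:
* `isBoundedAtImInfty_slash_of_invariant` : every `SL(2, ℤ)`-translate of such an `F` is bounded
  at `i∞`;
* `eq_zero_of_invariant_primitive` : the separation statement for arithmetic `Γ`;
* `sep_core` : the same for `Γ₀(N)` with the invariance hypothesis quantified over `SL(2, ℤ)`.
-/

set_option autoImplicit false

open UpperHalfPlane hiding I
open Real Complex
open scoped Manifold MatrixGroups ModularForm Topology Pointwise
open Derivative

namespace Fermat.Agent.S22.helper1266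

open Fermat.Agent.S22.helper1222 Fermat.Agent.S22.helper322

noncomputable section

/-- The chain of iterated primitives (decaying at `i∞`) of an `h`-periodic function, on `ℍ`. -/
def chain (h : ℝ) (g : ℍ → ℂ) (j : ℕ) : ℍ → ℂ := fun z => eichlerOf h g j (z : ℂ)

section Chain

variable {F : Type*} [FunLike F ℍ ℂ] {Γ : Subgroup (GL (Fin 2) ℝ)} {k : ℤ} {h : ℝ}

theorem chain_zero [ModularFormClass F Γ k] (f : F) (hh : 0 < h) (hΓ : h ∈ Γ.strictPeriods) :
    chain h (⇑f) 0 = ⇑f := by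
  funext z
  exact eichlerOf_zero f hh hΓ z.im_pos

theorem chain_comp_ofComplex_eventuallyEq (g : ℍ → ℂ) (j : ℕ) (z : ℍ) :
    (chain h g j ∘ ofComplex) =ᶠ[𝓝 (z : ℂ)] eichlerOf h g j := by
  filter_upwards [isOpen_upperHalfPlaneSet.mem_nhds z.im_pos] with w hw
  simp [chain, Function.comp_apply, ofComplex_apply_of_im_pos hw]

theorem mdiff_chain [CuspFormClass F Γ k] (f : F) (hh : 0 < h) (hΓ : h ∈ Γ.strictPeriods)
    (j : ℕ) : MDiff (chain h (⇑f) j) := by
  rcases j with _ | j
  · rw [chain_zero f hh hΓ]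
    exact ModularFormClass.holo f
  · rw [UpperHalfPlane.mdifferentiable_iff]
    have h1 : DifferentiableOn ℂ (eichlerOf h (⇑f) (j + 1)) {z : ℂ | 0 < z.im} := fun w hw =>
      (hasDerivAt_eichlerOf f hh hΓ j hw).differentiableAt.differentiableWithinAt
    refine h1.congr ?_
    intro w hw
    simp [chain, Function.comp_apply, ofComplex_apply_of_im_pos hw]

theorem D_chain [CuspFormClass F Γ k] (f : F) (hh : 0 < h) (hΓ : h ∈ Γ.strictPeriods) (j : ℕ) :
    D (chain h (⇑f) (j + 1)) = ((2 * π * I : ℂ)⁻¹) • chain h (⇑f) j := by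
  funext z
  simp only [normalizedDerivOfComplex, Pi.smul_apply, smul_eq_mul]
  rw [(chain_comp_ofComplex_eventuallyEq (h := h) (⇑f) (j + 1) z).deriv_eq,
    (hasDerivAt_eichlerOf f hh hΓ j z.im_pos).deriv]
  rfl

theorem iterate_D_chain [CuspFormClass F Γ k] (f : F) (hh : 0 < h) (hΓ : h ∈ Γ.strictPeriods)
    (n j : ℕ) :
    D^[n] (chain h (⇑f) (j + n)) = (((2 * π * I : ℂ)⁻¹) ^ n) • chain h (⇑f) j := by
  induction n generalizing j with
  | zero => simp
  | succ n ih =>
    rw [Function.iterate_succ_apply, ← add_assoc, D_chain f hh hΓ (j + n),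
      iterate_D_smul _ (mdiff_chain f hh hΓ (j + n)), ih, smul_smul, pow_succ']

theorem exists_norm_chain_le [CuspFormClass F Γ k] (f : F) (hh : 0 < h)
    (hΓ : h ∈ Γ.strictPeriods) (j : ℕ) :
    ∃ K : ℝ, ∀ z : ℍ, 1 ≤ z.im → ‖chain h (⇑f) j z‖ ≤ K := by
  obtain ⟨K, hK0, hK⟩ := exists_norm_eichlerOf_le f hh hΓ j
  refine ⟨K, fun z hz => ?_⟩
  refine (hK (z : ℂ) hz).trans ?_
  have h1 : Real.exp (-2 * π * (z : ℂ).im / h) ≤ 1 := by
    rw [Real.exp_le_one_iff]
    have h2 : (0 : ℝ) < (z : ℂ).im := z.im_pos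
    have h3 : 0 ≤ 2 * π * (z : ℂ).im / h := by positivity
    have h4 : -2 * π * (z : ℂ).im / h = -(2 * π * (z : ℂ).im / h) := by ring
    rw [h4]
    linarith
  calc K * Real.exp (-2 * π * (z : ℂ).im / h) ≤ K * 1 := mul_le_mul_of_nonneg_left h1 hK0
    _ = K := mul_one K

end Chain

/-- A polynomial function on `ℍ` which is invariant under a nonzero real translation is constant. -/
theorem polyFun_const_of_periodic {P : Polynomial ℂ} {M : ℝ} (hM : 0 < M)
    (hper : ∀ z : ℍ, polyFun P ((M : ℝ) +ᵥ z) = polyFun P z) :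
    ∀ z : ℍ, polyFun P z = P.eval (I : ℂ) := by
  have hpt : ∀ n : ℕ, P.eval ((n : ℂ) * M + I) = P.eval I := by
    intro n
    induction n with
    | zero => simp
    | succ n ih =>
      have him : 0 < ((n : ℂ) * M + I).im := by simp
      have := hper ⟨_, him⟩
      simp only [polyFun, UpperHalfPlane.coe_vadd] at this
      rw [← ih, ← this]
      congr 1
      push_cast
      ring
  have hzero : P - Polynomial.C (P.eval I) = 0 := by
    refine Polynomial.eq_zero_of_infinite_isRoot _ ?_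
    have hinf : (Set.range fun n : ℕ ↦ ((n : ℂ) * M + I)).Infinite := by
      refine Set.infinite_range_of_injective fun a b hab ↦ ?_
      have hM' : (M : ℂ) ≠ 0 := by exact_mod_cast hM.ne'
      have : (a : ℂ) * M = b * M := by simpa using hab
      exact_mod_cast mul_right_cancel₀ hM' this
    refine hinf.mono ?_
    rintro _ ⟨n, rfl⟩
    simp [Polynomial.IsRoot, hpt n]
  intro z
  have := congrArg (fun Q : Polynomial ℂ => Q.eval (z : ℂ)) hzero
  simp only [Polynomial.eval_sub, Polynomial.eval_C, Polynomial.eval_zero] at this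
  simpa [polyFun] using sub_eq_zero.mp this

section Main

variable {Γ : Subgroup (GL (Fin 2) ℝ)} [Γ.IsArithmetic] {k m : ℤ} {w : ℕ}

/-- **Boundedness at all cusps.** If `F` is a holomorphic `(w+1)`-fold `D`-primitive of a cusp form
`f` of weight `w + 2` on `Γ` and `F` is invariant under the weight `-w` action of `Γ`, then every
`SL(2, ℤ)`-translate of `F` is bounded at `i∞`. -/
theorem isBoundedAtImInfty_slash_of_invariant (hk : k = (w : ℤ) + 2) (hm : m = -(w : ℤ))
    (f : CuspForm Γ k) (F : ℍ → ℂ) (hF : MDiff F) (hD : D^[w + 1] F = ⇑f)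
    (hinv : ∀ γ ∈ Γ, F ∣[m] γ = F) (σ : SL(2, ℤ)) :
    IsBoundedAtImInfty (F ∣[m] σ) := by
  -- notation
  set σG : GL (Fin 2) ℝ := Matrix.SpecialLinearGroup.mapGL ℝ σ with hσG
  have hdet : σG.val.det = 1 := by
    have h1 := Matrix.SpecialLinearGroup.det_coe (Matrix.SpecialLinearGroup.map (Int.castRingHom ℝ) σ)
    simpa [hσG] using h1
  have hdet' : 0 < σG.val.det := by rw [hdet]; exact one_pos
  -- the translated forms
  let Fs : SlashInvariantForm Γ m := ⟨F, hinv⟩
  let Fσ := SlashInvariantForm.translate Fs σG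
  let fσ := CuspForm.translate f σG
  have hFσ : (⇑Fσ : ℍ → ℂ) = F ∣[m] σG := rfl
  have hfσ : (⇑fσ : ℍ → ℂ) = ⇑f ∣[k] σG := rfl
  -- a common period
  obtain ⟨M, hM, hper⟩ := Subgroup.IsArithmetic.exists_nat_mem_strictPeriods_conj Γ
  have hMpos : (0 : ℝ) < (M : ℝ) := by exact_mod_cast hM
  have hΓ' : (M : ℝ) ∈ (ConjAct.toConjAct σG⁻¹ • Γ).strictPeriods := by
    have := hper σ⁻¹
    rwa [map_inv] at this
  -- the difference is killed by `D^[w+1]`
  have e1 : m = (1 : ℤ) - ((w + 1 : ℕ) : ℤ) := by rw [hm]; push_cast; ring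
  have e2 : k = ((w + 1 : ℕ) : ℤ) + 1 := by rw [hk]; push_cast; ring
  have hmd1 : MDiff (F ∣[m] σG) := hF.slash _ σG
  have hmd2 : MDiff (chain M (⇑fσ) (w + 1)) := mdiff_chain fσ hMpos hΓ' (w + 1)
  have hmd3 : MDiff (((2 * π * I : ℂ) ^ (w + 1)) • chain M (⇑fσ) (w + 1)) := by
    have hc : MDiff (fun _ : ℍ ↦ ((2 * π * I : ℂ) ^ (w + 1))) := mdifferentiable_const
    exact hc.mul hmd2
  have hpi : (2 * π * I : ℂ) ≠ 0 := by
    simp [Real.pi_ne_zero, Complex.I_ne_zero]
  have hslash : ∀ g : ℍ → ℂ, g ∣[k] σG = g ∣[((w + 1 : ℕ) : ℤ) + 1] σG := fun g => by rw [e2]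
  have hD1 : D^[w + 1] (F ∣[m] σG) = ⇑f ∣[k] σG := by
    rw [e1, bol_identity hdet' (w + 1) hF, hD, hdet, hslash]
    funext z
    simp
  have hD2 : D^[w + 1] (((2 * π * I : ℂ) ^ (w + 1)) • chain M (⇑fσ) (w + 1)) = ⇑f ∣[k] σG := by
    rw [iterate_D_smul _ hmd2]
    have := iterate_D_chain fσ hMpos hΓ' (w + 1) 0
    rw [zero_add] at this
    rw [this, chain_zero fσ hMpos hΓ', smul_smul, ← mul_pow, mul_inv_cancel₀ hpi, one_pow,
      one_smul, hfσ]
  have hD3 : D^[w + 1] (F ∣[m] σG - ((2 * π * I : ℂ) ^ (w + 1)) • chain M (⇑fσ) (w + 1)) = 0 := by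
    rw [iterate_D_sub hmd1 hmd3, hD1, hD2, sub_self]
  obtain ⟨P, -, hP⟩ := exists_polynomial_of_iterate_D_eq_zero (w + 1) (hmd1.sub hmd3) hD3
  -- periodicity
  have hper1 : ∀ z : ℍ, (F ∣[m] σG) ((M : ℝ) +ᵥ z) = (F ∣[m] σG) z := by
    intro z
    have h1 := SlashInvariantFormClass.periodic_comp_ofComplex Fσ hΓ' (z : ℂ)
    have h2 : ((z : ℂ) + ((M : ℝ) : ℂ)) = (((M : ℝ) +ᵥ z : ℍ) : ℂ) := by
      rw [UpperHalfPlane.coe_vadd]; ring
    rw [Function.comp_apply, Function.comp_apply, h2, ofComplex_apply, ofComplex_apply, hFσ] at h1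
    exact h1
  have hper2 : ∀ z : ℍ, chain M (⇑fσ) (w + 1) ((M : ℝ) +ᵥ z) = chain M (⇑fσ) (w + 1) z := by
    intro z
    have h1 := eichlerOf_periodic (M : ℝ) (⇑fσ) (w + 1) (z : ℂ)
    have h2 : ((z : ℂ) + ((M : ℝ) : ℂ)) = (((M : ℝ) +ᵥ z : ℍ) : ℂ) := by
      rw [UpperHalfPlane.coe_vadd]; ring
    rw [h2] at h1
    exact h1
  have hperP : ∀ z : ℍ, polyFun P ((M : ℝ) +ᵥ z) = polyFun P z := by
    intro z
    rw [← hP]
    simp only [Pi.sub_apply, Pi.smul_apply, hper1 z, hper2 z]
  have hconst := polyFun_const_of_periodic hMpos hperP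
  -- conclusion
  obtain ⟨K, hK⟩ := exists_norm_chain_le fσ hMpos hΓ' (w + 1)
  rw [isBoundedAtImInfty_iff]
  refine ⟨‖P.eval (I : ℂ)‖ + ‖(2 * π * I : ℂ) ^ (w + 1)‖ * K, 1, fun z hz => ?_⟩
  have h3 : (F ∣[m] σG) z = P.eval (I : ℂ) + (2 * π * I : ℂ) ^ (w + 1) * chain M (⇑fσ) (w + 1) z := by
    have := congrFun hP z
    simp only [Pi.sub_apply, Pi.smul_apply, smul_eq_mul, hconst z] at this
    rw [← this]; ring
  have h4 : (F ∣[m] σ) z = (F ∣[m] σG) z := rfl
  rw [h4, h3]
  refine (norm_add_le _ _).trans ?_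
  rw [norm_mul]
  exact add_le_add le_rfl (mul_le_mul_of_nonneg_left (hK z hz) (norm_nonneg _))

/-- **Separation.** If `F` is a holomorphic `(w+1)`-fold `D`-primitive of a cusp form `f` of weight
`w + 2` on an arithmetic group `Γ` and `F` is invariant under the weight `-w` action of `Γ`, then
`f = 0`. -/
theorem eq_zero_of_invariant_primitive (hk : k = (w : ℤ) + 2) (hm : m = -(w : ℤ))
    (f : CuspForm Γ k) (F : ℍ → ℂ) (hF : MDiff F) (hD : D^[w + 1] F = ⇑f)
    (hinv : ∀ γ ∈ Γ, F ∣[m] γ = F) : f = 0 := by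
  -- `F` is a modular form of weight `m`
  let Fm : ModularForm Γ m :=
    { toFun := F
      slash_action_eq' := hinv
      holo' := hF
      bdd_at_cusps' := fun {c} hc => by
        rw [Subgroup.IsArithmetic.isCusp_iff_isCusp_SL2Z] at hc
        rw [OnePoint.isBoundedAt_iff_forall_SL2Z hc]
        intro γ _
        exact isBoundedAtImInfty_slash_of_invariant hk hm f F hF hD hinv γ }
  have hFm : (⇑Fm : ℍ → ℂ) = F := rfl
  -- hence `D^[w+1] F = 0`
  have hzero : D^[w + 1] F = 0 := by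
    rcases Nat.eq_zero_or_pos w with hw | hw
    · subst hw
      have hm0 : m = 0 := by simpa using hm
      subst hm0
      obtain ⟨c, hc⟩ := ModularForm.eq_const_of_weight_zero Fm
      rw [hFm] at hc
      rw [hc]
      simp only [zero_add, Function.iterate_one]
      exact normalizedDerivOfComplex_const c
    · have hneg : m < 0 := by rw [hm]; simpa using hw
      have h0 := ModularForm.isZero_of_neg_weight hneg Fm
      have hF0 : F = 0 := by
        rw [← hFm, h0]; rfl
      rw [hF0]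
      exact iterate_D_zero (w + 1)
  apply DFunLike.coe_injective
  rw [← hD, hzero]
  rfl

end Main

/-- **The separation field of `EichlerData`** (in the form wanted by helper262): for a cusp form `f`
of weight `w + 2` on `Γ₀(N)` and a holomorphic `F` with `D^[w+1] F = f` that is invariant under the
weight `-w` action of `Γ₀(N)`, we have `f = 0`. -/
theorem sep_core {N : ℕ} [NeZero N] {k : ℤ} {w : ℕ} (hk : k = (w : ℤ) + 2)
    (f : CuspForm (CongruenceSubgroup.Gamma0 N) k) (F : ℍ → ℂ) (hF : MDiff F)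
    (hD : D^[w + 1] F = ⇑f)
    (hinv : ∀ γ : SL(2, ℤ), γ ∈ CongruenceSubgroup.Gamma0 N → F ∣[(-(w : ℤ))] γ = F) : f = 0 := by
  refine eq_zero_of_invariant_primitive hk rfl f F hF hD ?_
  rintro _ ⟨γ, hγ, rfl⟩
  exact hinv γ hγ

end

end Fermat.Agent.S22.helper1266
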