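import Mathlib

/-!
# Abstract finiteness lemma (dual lattice form)

If a finitely generated `ℤ`-submodule `Λ` of the dual of a complex vector space `V` separates
the points of `V` and is stable under precomposition with every element of a set `𝒢` of
endomorphisms of `V`, then the `ℤ`-algebra generated by `𝒢` is a finitely generated `ℤ`-module.
-/

namespace Fermat.Agent.S22.helper262

theorem comp_mem_of_mem_adjoin {V : Type*} [AddCommGroup V] [Module ℂ V]
    (Λ : Submodule ℤ (V →ₗ[ℂ] ℂ)) (𝒢 : Set (Module.End ℂ V))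
    (hstab : ∀ T ∈ 𝒢, ∀ φ ∈ Λ, φ ∘ₗ T ∈ Λ)
    {a : Module.End ℂ V} (ha : a ∈ Algebra.adjoin ℤ 𝒢) :
    ∀ φ ∈ Λ, φ ∘ₗ a ∈ Λ := by
  induction ha using Algebra.adjoin_induction with
  | mem T hT => exact hstab T hT
  | algebraMap n =>
    intro φ hφ
    have : φ ∘ₗ (algebraMap ℤ (Module.End ℂ V) n) = n • φ := by
      ext v
      simp
    rw [this]
    exact Λ.smul_mem n hφ
  | add a b _ _ iha ihb =>
    intro φ hφ
    rw [LinearMap.comp_add]
    exact Λ.add_mem (iha φ hφ) (ihb φ hφ)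
  | mul a b _ _ iha ihb =>
    intro φ hφ
    have : φ ∘ₗ (a * b) = (φ ∘ₗ a) ∘ₗ b := rfl
    rw [this]
    exact ihb _ (iha φ hφ)

theorem finite_adjoin_of_dual_lattice {V : Type*} [AddCommGroup V] [Module ℂ V]
    (Λ : Submodule ℤ (V →ₗ[ℂ] ℂ)) (hfg : Λ.FG)
    (hsep : ∀ v : V, (∀ φ ∈ Λ, φ v = 0) → v = 0)
    (𝒢 : Set (Module.End ℂ V)) (hstab : ∀ T ∈ 𝒢, ∀ φ ∈ Λ, φ ∘ₗ T ∈ Λ) :
    Module.Finite ℤ (Algebra.adjoin ℤ 𝒢) := by
  classical
  obtain ⟨s, hs⟩ := hfg
  have hsΛ : ∀ φ ∈ s, φ ∈ Λ := fun φ hφ => hs ▸ Submodule.subset_span hφ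
  have : Module.Finite ℤ Λ := Module.Finite.iff_fg.mpr ⟨s, hs⟩
  let ψ : (Algebra.adjoin ℤ 𝒢) →ₗ[ℤ] (s → Λ) :=
    { toFun := fun a φ => ⟨(φ : V →ₗ[ℂ] ℂ) ∘ₗ (a : Module.End ℂ V),
        comp_mem_of_mem_adjoin Λ 𝒢 hstab a.2 _ (hsΛ _ φ.2)⟩
      map_add' := by
        intro a b
        funext φ
        apply Subtype.ext
        simp [LinearMap.comp_add]
      map_smul' := by
        intro n a
        funext φ
        apply Subtype.ext
        ext v
        simp }
  have hinj : Function.Injective ψ := by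
    rw [injective_iff_map_eq_zero]
    intro a ha
    have h1 : ∀ φ ∈ s, (φ : V →ₗ[ℂ] ℂ) ∘ₗ (a : Module.End ℂ V) = 0 := by
      intro φ hφ
      have := congrArg (fun F => ((F ⟨φ, hφ⟩ : Λ) : V →ₗ[ℂ] ℂ)) ha
      simpa [ψ] using this
    have h2 : ∀ φ ∈ Λ, (φ : V →ₗ[ℂ] ℂ) ∘ₗ (a : Module.End ℂ V) = 0 := by
      intro φ hφ
      rw [← hs] at hφ
      induction hφ using Submodule.span_induction with
      | mem x hx => exact h1 x hx
      | zero => simp
      | add x y _ _ hx hy => rw [LinearMap.add_comp, hx, hy, add_zero]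
      | smul n x _ hx =>
        ext v
        have := congrArg (fun F : V →ₗ[ℂ] ℂ => F v) hx
        simp only [LinearMap.comp_apply, LinearMap.zero_apply] at this
        simp [this]
    apply Subtype.ext
    ext v
    exact hsep _ fun φ hφ => by
      have := congrArg (fun F : V →ₗ[ℂ] ℂ => F v) (h2 φ hφ)
      simpa using this
  exact Module.Finite.of_injective ψ hinj

end Fermat.Agent.S22.helper262
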