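import Mathlib
import Fermat.Prelude.Def_CuspForm_HeckeAlgebra
import Fermat.Prelude.Sol.S_ModularForm_heckeT_slash_eq_self_of_mem_Gamma0
import Fermat.Agent.S22.helper262_DualLattice

namespace Fermat.Agent.S22.helper262

open UpperHalfPlane CongruenceSubgroup Polynomial
open scoped MatrixGroups ModularForm

noncomputable section

/-- The integral weight-`w` substitution action on polynomials:
`P ↦ ∑ i ≤ w, P_i (aX+b)^i (cX+d)^(w-i)`. -/
def polyAct (w : ℕ) (a b c d : ℤ) (P : ℂ[X]) : ℂ[X] :=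
  ∑ i ∈ Finset.range (w + 1),
    C (P.coeff i) * ((C (a : ℂ) * X + C (b : ℂ)) ^ i * (C (c : ℂ) * X + C (d : ℂ)) ^ (w - i))

/-- The integer matrix entries of `polyAct`. -/
def polyActCoeff (w : ℕ) (a b c d : ℤ) (j i : ℕ) : ℤ :=
  (((C a * X + C b) ^ i * (C c * X + C d) ^ (w - i) : ℤ[X])).coeff j

lemma polyAct_coeff (w : ℕ) (a b c d : ℤ) (P : ℂ[X]) (j : ℕ) :
    (polyAct w a b c d P).coeff j =
      ∑ i ∈ Finset.range (w + 1), (polyActCoeff w a b c d j i : ℂ) * P.coeff i := by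
  unfold polyAct polyActCoeff
  rw [Polynomial.finsetSum_coeff]
  refine Finset.sum_congr rfl fun i _ => ?_
  have : ((C (a : ℂ) * X + C (b : ℂ)) ^ i * (C (c : ℂ) * X + C (d : ℂ)) ^ (w - i) : ℂ[X]) =
      Polynomial.map (Int.castRingHom ℂ) ((C a * X + C b) ^ i * (C c * X + C d) ^ (w - i) : ℤ[X]) := by
    simp
  rw [this, Polynomial.coeff_C_mul, Polynomial.coeff_map, mul_comm]
  simp

lemma polyAct_eval (w : ℕ) (a b c d : ℤ) (P : ℂ[X]) (hP : P.natDegree ≤ w) (z : ℂ)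
    (hz : (c : ℂ) * z + d ≠ 0) :
    (polyAct w a b c d P).eval z =
      ((c : ℂ) * z + d) ^ w * P.eval (((a : ℂ) * z + b) / ((c : ℂ) * z + d)) := by
  unfold polyAct
  rw [Polynomial.eval_finsetSum, Polynomial.eval_eq_sum_range' (Nat.lt_succ_of_le hP),
    Finset.mul_sum]
  refine Finset.sum_congr rfl fun i hi => ?_
  have hi' : i ≤ w := Nat.lt_succ_iff.mp (Finset.mem_range.mp hi)
  simp only [eval_mul, eval_C, eval_pow, eval_add, eval_X]
  have : ((c : ℂ) * z + d) ^ w = ((c : ℂ) * z + d) ^ i * ((c : ℂ) * z + d) ^ (w - i) := by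
    rw [← pow_add, Nat.add_sub_cancel' hi']
  have h0 : ((c : ℂ) * z + d) ^ i ≠ 0 := pow_ne_zero _ hz
  rw [this, div_pow]
  generalize ((c : ℂ) * z + d) ^ i = u at h0 ⊢
  field_simp

lemma polyAct_add (w : ℕ) (a b c d : ℤ) (P Q : ℂ[X]) :
    polyAct w a b c d (P + Q) = polyAct w a b c d P + polyAct w a b c d Q := by
  unfold polyAct
  rw [← Finset.sum_add_distrib]
  refine Finset.sum_congr rfl fun i _ => ?_
  rw [coeff_add, C_add, add_mul]


/-- The analytic input ("Eichler integral") for the finiteness of the Hecke algebra. -/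
structure EichlerData (N : ℕ) [NeZero N] (k : ℤ) (w : ℕ) where
  /-- the Eichler integral -/
  E : CuspForm (Gamma0 N) k →ₗ[ℂ] (ℍ → ℂ)
  poly : ∀ (f : CuspForm (Gamma0 N) k) (γ : SL(2, ℤ)), γ ∈ Gamma0 N →
    ∃ P : ℂ[X], P.natDegree ≤ w ∧
      ∀ z : ℍ, (E f ∣[(-(w : ℤ))] γ) z - E f z = P.eval (z : ℂ)
  sep : ∀ f : CuspForm (Gamma0 N) k,
    (∀ γ : SL(2, ℤ), γ ∈ Gamma0 N → E f ∣[(-(w : ℤ))] γ = E f) → f = 0
  heckeT : ∀ {p : ℕ} (hp : p.Prime) (hpN : ¬ p ∣ N) (f : CuspForm (Gamma0 N) k),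
    E (CuspForm.heckeTLin k hp hpN f) =
      (p : ℂ) ^ (w + 1) • ModularForm.heckeT (-(w : ℤ)) p (E f)
  heckeU : ∀ {p : ℕ} (_hp : p.Prime) (hpN : p ∣ N) (f : CuspForm (Gamma0 N) k),
    E (CuspForm.heckeULin k hpN f) =
      (p : ℂ) ^ (w + 1) • ModularForm.heckeU (-(w : ℤ)) p (E f)

variable {N : ℕ} [NeZero N] {k : ℤ} {w : ℕ} (D : EichlerData N k w)

/-- The cocycle polynomial `E f ∣ γ - E f`. -/
def cpoly (f : CuspForm (Gamma0 N) k) (γ : SL(2, ℤ)) : ℂ[X] :=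
  open Classical in
  if h : γ ∈ Gamma0 N then Classical.choose (D.poly f γ h) else 0

lemma cpoly_natDegree (f : CuspForm (Gamma0 N) k) (γ : SL(2, ℤ)) :
    (cpoly D f γ).natDegree ≤ w := by
  unfold cpoly
  split_ifs with h
  · exact (Classical.choose_spec (D.poly f γ h)).1
  · simp

lemma cpoly_eval (f : CuspForm (Gamma0 N) k) {γ : SL(2, ℤ)} (hγ : γ ∈ Gamma0 N) (z : ℍ) :
    (D.E f ∣[(-(w : ℤ))] γ) z - D.E f z = (cpoly D f γ).eval (z : ℂ) := by
  unfold cpoly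
  rw [dif_pos hγ]
  exact (Classical.choose_spec (D.poly f γ hγ)).2 z

lemma infinite_upper : Set.Infinite {x : ℂ | 0 < x.im} := by
  refine Set.infinite_of_injective_forall_mem (f := fun n : ℕ => ((n : ℂ) + 1) * Complex.I) ?_ ?_
  · intro m n h
    have := congrArg Complex.im h
    simpa using this
  · intro n
    simp
    positivity

lemma poly_eq_of_upper {P Q : ℂ[X]} (h : ∀ z : ℍ, P.eval (z : ℂ) = Q.eval (z : ℂ)) : P = Q := by
  refine Polynomial.eq_of_infinite_eval_eq P Q (infinite_upper.mono ?_)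
  intro x hx
  exact h ⟨x, hx⟩

lemma cpoly_unique (f : CuspForm (Gamma0 N) k) {γ : SL(2, ℤ)} (hγ : γ ∈ Gamma0 N) (Q : ℂ[X])
    (hQ : ∀ z : ℍ, (D.E f ∣[(-(w : ℤ))] γ) z - D.E f z = Q.eval (z : ℂ)) :
    cpoly D f γ = Q :=
  poly_eq_of_upper fun z => by rw [← cpoly_eval D f hγ z, hQ z]

lemma cpoly_add (f g : CuspForm (Gamma0 N) k) (γ : SL(2, ℤ)) :
    cpoly D (f + g) γ = cpoly D f γ + cpoly D g γ := by
  by_cases hγ : γ ∈ Gamma0 N
  · refine cpoly_unique D (f + g) hγ _ fun z => ?_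
    rw [eval_add, ← cpoly_eval D f hγ z, ← cpoly_eval D g hγ z, map_add, SlashAction.add_slash]
    simp only [Pi.add_apply]
    ring
  · simp [cpoly, hγ]

lemma cpoly_smul (c : ℂ) (f : CuspForm (Gamma0 N) k) (γ : SL(2, ℤ)) :
    cpoly D (c • f) γ = c • cpoly D f γ := by
  by_cases hγ : γ ∈ Gamma0 N
  · refine cpoly_unique D (c • f) hγ _ fun z => ?_
    rw [eval_smul, ← cpoly_eval D f hγ z, map_smul, ModularForm.SL_smul_slash]
    simp only [Pi.smul_apply, smul_eq_mul]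
    ring
  · simp [cpoly, hγ]

/-- The coefficient functionals of the cocycle. -/
def coeffFun (γ : SL(2, ℤ)) (i : ℕ) : CuspForm (Gamma0 N) k →ₗ[ℂ] ℂ where
  toFun f := (cpoly D f γ).coeff i
  map_add' f g := by rw [cpoly_add, coeff_add]
  map_smul' c f := by rw [cpoly_smul, coeff_smul]; rfl

@[simp] lemma coeffFun_apply (γ : SL(2, ℤ)) (i : ℕ) (f : CuspForm (Gamma0 N) k) :
    coeffFun D γ i f = (cpoly D f γ).coeff i := rfl

/-- The period lattice. -/
def lattice : Submodule ℤ (CuspForm (Gamma0 N) k →ₗ[ℂ] ℂ) :=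
  Submodule.span ℤ {φ | ∃ γ ∈ Gamma0 N, ∃ i : ℕ, φ = coeffFun D γ i}

lemma coeffFun_mem_lattice {γ : SL(2, ℤ)} (hγ : γ ∈ Gamma0 N) (i : ℕ) :
    coeffFun D γ i ∈ lattice D :=
  Submodule.subset_span ⟨γ, hγ, i, rfl⟩

/-- Evaluation of the slash of a polynomial function. -/
lemma slash_poly_apply (P : ℂ[X]) (hP : P.natDegree ≤ w) (γ : SL(2, ℤ)) (z : ℍ) :
    ((fun τ : ℍ => P.eval (τ : ℂ)) ∣[(-(w : ℤ))] γ) z =
      (polyAct w (γ 0 0) (γ 0 1) (γ 1 0) (γ 1 1) P).eval (z : ℂ) := by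
  have hd : ((γ 1 0 : ℤ) : ℂ) * (z : ℂ) + ((γ 1 1 : ℤ) : ℂ) ≠ 0 := by
    have := UpperHalfPlane.denom_ne_zero (γ : GL (Fin 2) ℝ) z
    simpa [UpperHalfPlane.denom] using this
  rw [ModularForm.SL_slash_apply, polyAct_eval w _ _ _ _ P hP _ hd,
    UpperHalfPlane.coe_specialLinearGroup_apply]
  simp [UpperHalfPlane.denom, mul_comm]

lemma cpoly_mul (f : CuspForm (Gamma0 N) k) {γ₁ γ₂ : SL(2, ℤ)} (h₁ : γ₁ ∈ Gamma0 N)
    (h₂ : γ₂ ∈ Gamma0 N) :
    cpoly D f (γ₁ * γ₂) =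
      polyAct w (γ₂ 0 0) (γ₂ 0 1) (γ₂ 1 0) (γ₂ 1 1) (cpoly D f γ₁) + cpoly D f γ₂ := by
  refine cpoly_unique D f (mul_mem h₁ h₂) _ fun z => ?_
  have key : D.E f ∣[(-(w : ℤ))] γ₁ = D.E f + fun τ : ℍ => (cpoly D f γ₁).eval (τ : ℂ) := by
    funext τ
    have := cpoly_eval D f h₁ τ
    simp only [Pi.add_apply]
    linear_combination this
  rw [SlashAction.slash_mul, key, SlashAction.add_slash, eval_add,
    ← slash_poly_apply (cpoly D f γ₁) (cpoly_natDegree D f γ₁) γ₂ z, ← cpoly_eval D f h₂ z]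
  simp only [Pi.add_apply]
  ring


lemma cpoly_one (f : CuspForm (Gamma0 N) k) : cpoly D f 1 = 0 := by
  refine cpoly_unique D f (one_mem _) 0 fun z => ?_
  simp [SlashAction.slash_one]

lemma coeffFun_one (j : ℕ) : coeffFun D 1 j = 0 := by
  ext f
  simp [cpoly_one]

lemma coeffFun_mul {γ₁ γ₂ : SL(2, ℤ)} (h₁ : γ₁ ∈ Gamma0 N) (h₂ : γ₂ ∈ Gamma0 N) (j : ℕ) :
    coeffFun D (γ₁ * γ₂) j =
      ∑ i ∈ Finset.range (w + 1),
        polyActCoeff w (γ₂ 0 0) (γ₂ 0 1) (γ₂ 1 0) (γ₂ 1 1) j i • coeffFun D γ₁ i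
      + coeffFun D γ₂ j := by
  ext f
  simp only [coeffFun_apply, cpoly_mul D f h₁ h₂, coeff_add, polyAct_coeff, LinearMap.add_apply,
    LinearMap.coe_sum, Finset.sum_apply, LinearMap.smul_apply, zsmul_eq_mul]

lemma coeffFun_inv {γ : SL(2, ℤ)} (h : γ ∈ Gamma0 N) (j : ℕ) :
    coeffFun D γ⁻¹ j =
      - ∑ i ∈ Finset.range (w + 1),
        polyActCoeff w (γ⁻¹ 0 0) (γ⁻¹ 0 1) (γ⁻¹ 1 0) (γ⁻¹ 1 1) j i • coeffFun D γ i := by
  have := coeffFun_mul D h (inv_mem h) j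
  rw [mul_inv_cancel, coeffFun_one] at this
  exact eq_neg_of_add_eq_zero_right this.symm

instance : Group.FG SL(2, ℤ) := by
  rw [Group.fg_iff]
  exact ⟨{ModularGroup.S, ModularGroup.T}, by
    simpa using SpecialLinearGroup.SL2Z_generators⟩

lemma lattice_fg : (lattice D).FG := by
  classical
  obtain ⟨S, hS⟩ := (Group.fg_iff_subgroup_fg (Gamma0 N)).mp inferInstance
  let T : Finset (CuspForm (Gamma0 N) k →ₗ[ℂ] ℂ) :=
    (S ×ˢ Finset.range (w + 1)).image fun x => coeffFun D x.1 x.2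
  have hSmem : ∀ g ∈ S, g ∈ Gamma0 N := fun g hg => hS ▸ Subgroup.subset_closure hg
  have hT : ∀ g ∈ S, ∀ i, coeffFun D g i ∈ Submodule.span ℤ (T : Set _) := by
    intro g hg i
    by_cases hi : i < w + 1
    · exact Submodule.subset_span (Finset.mem_coe.mpr (Finset.mem_image.mpr
        ⟨(g, i), Finset.mem_product.mpr ⟨hg, Finset.mem_range.mpr hi⟩, rfl⟩))
    · have : coeffFun D g i = 0 := by
        ext f
        simp only [coeffFun_apply, LinearMap.zero_apply]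
        exact coeff_eq_zero_of_natDegree_lt
          (lt_of_le_of_lt (cpoly_natDegree D f g) (by omega))
      rw [this]
      exact Submodule.zero_mem _
  have key : ∀ γ ∈ Gamma0 N, ∀ i, coeffFun D γ i ∈ Submodule.span ℤ (T : Set _) := by
    intro γ hγ
    rw [← hS] at hγ
    induction hγ using Subgroup.closure_induction with
    | mem g hg => exact hT g hg
    | one => intro i; rw [coeffFun_one]; exact Submodule.zero_mem _
    | mul x y hx hy ihx ihy =>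
      intro i
      rw [coeffFun_mul D (hS ▸ hx) (hS ▸ hy) i]
      exact Submodule.add_mem _ (Submodule.sum_mem _ fun j _ =>
        Submodule.smul_mem _ _ (ihx j)) (ihy i)
    | inv x hx ihx =>
      intro i
      rw [coeffFun_inv D (hS ▸ hx) i]
      exact Submodule.neg_mem _ (Submodule.sum_mem _ fun j _ =>
        Submodule.smul_mem _ _ (ihx j))
  refine ⟨T, le_antisymm ?_ ?_⟩
  · refine Submodule.span_le.mpr ?_
    intro φ hφ
    obtain ⟨x, hx, rfl⟩ := Finset.mem_image.mp (Finset.mem_coe.mp hφ)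
    exact coeffFun_mem_lattice D (hSmem _ (Finset.mem_product.mp hx).1) _
  · refine Submodule.span_le.mpr ?_
    rintro φ ⟨γ, hγ, i, rfl⟩
    exact key γ hγ i

lemma lattice_sep (f : CuspForm (Gamma0 N) k) (h : ∀ φ ∈ lattice D, φ f = 0) : f = 0 := by
  refine D.sep f fun γ hγ => ?_
  have h0 : cpoly D f γ = 0 := by
    ext i
    simpa using h _ (coeffFun_mem_lattice D hγ i)
  funext z
  have := cpoly_eval D f hγ z
  rw [h0, eval_zero] at this
  exact sub_eq_zero.mp this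


open P2MW.S_ModularForm_heckeT_slash_eq_self_of_mem_Gamma0.ModularForm.HeckeSlashInvariance

/-- The integral polynomial action attached to a Hecke coset representative. -/
def repAct (w p : ℕ) (x : OnePoint (ZMod p)) (P : ℂ[X]) : ℂ[X] :=
  x.elim (polyAct w p 0 0 1 P) (fun j => polyAct w 1 j.val 0 p P)

/-- The integer matrix entries of `repAct`. -/
def repActCoeff (w p : ℕ) (x : OnePoint (ZMod p)) (j i : ℕ) : ℤ :=
  x.elim (polyActCoeff w p 0 0 1 j i) (fun y => polyActCoeff w 1 y.val 0 p j i)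

lemma repAct_coeff (w p : ℕ) (x : OnePoint (ZMod p)) (P : ℂ[X]) (j : ℕ) :
    (repAct w p x P).coeff j =
      ∑ i ∈ Finset.range (w + 1), (repActCoeff w p x j i : ℂ) * P.coeff i := by
  induction x using OnePoint.rec with
  | infty => exact polyAct_coeff w p 0 0 1 P j
  | coe y => exact polyAct_coeff w 1 y.val 0 p P j

lemma repAct_eval {p : ℕ} (hp : p ≠ 0) (x : OnePoint (ZMod p)) (P : ℂ[X])
    (hP : P.natDegree ≤ w) (z : ℍ) :
    (p : ℂ) ^ (w + 1) * ((fun τ : ℍ => P.eval (τ : ℂ)) ∣[(-(w : ℤ))] heckeRep p x) z =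
      (repAct w p x P).eval (z : ℂ) := by
  have hp' : (p : ℂ) ≠ 0 := by exact_mod_cast hp
  induction x using OnePoint.rec with
  | infty =>
    show _ = (polyAct w p 0 0 1 P).eval (z : ℂ)
    rw [heckeRep_infty, ModularForm.slash_heckeDiagMatrix_apply _ hp,
      ModularForm.coe_heckeDiagMatrix_smul hp, polyAct_eval w _ _ _ _ P hP _ (by simp)]
    rw [show (-(w : ℤ) - 1) = -((w + 1 : ℕ) : ℤ) by push_cast; ring, zpow_neg, zpow_natCast,
      ← mul_assoc, mul_inv_cancel₀ (pow_ne_zero _ hp')]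
    simp
  | coe y =>
    show _ = (polyAct w 1 y.val 0 p P).eval (z : ℂ)
    rw [heckeRep_coe, ModularForm.slash_heckeMatrix_apply _ hp,
      ModularForm.coe_heckeMatrix_smul hp,
      polyAct_eval w _ _ _ _ P hP _ (by simpa using hp')]
    rw [pow_succ, mul_assoc, ← mul_assoc (p : ℂ), mul_inv_cancel₀ hp']
    simp


open Matrix.SpecialLinearGroup in
lemma cpoly_heckeT {p : ℕ} (hp : p.Prime) (hpN : ¬ p ∣ N) {γ : SL(2, ℤ)} (hγ : γ ∈ Gamma0 N) :
    haveI : Fact p.Prime := ⟨hp⟩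
    ∃ g' : OnePoint (ZMod p) → SL(2, ℤ), (∀ x, g' x ∈ Gamma0 N) ∧
      ∀ f : CuspForm (Gamma0 N) k, cpoly D (CuspForm.heckeTLin k hp hpN f) γ =
        ∑ x : OnePoint (ZMod p), repAct w p (redMatrix p γ • x) (cpoly D f (g' x)) := by
  have : Fact p.Prime := ⟨hp⟩
  have : NeZero p := ⟨hp.ne_zero⟩
  have hγ' : (N : ℤ) ∣ γ 1 0 :=
    (ZMod.intCast_zmod_eq_zero_iff_dvd _ _).mp (Gamma0_mem.mp hγ)
  choose g' hg'N hg' using fun x => heckeRep_mul hpN γ hγ' x
  have hg'mem : ∀ x, g' x ∈ Gamma0 N := fun x =>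
    Gamma0_mem.mpr ((ZMod.intCast_zmod_eq_zero_iff_dvd _ _).mpr (hg'N x))
  refine ⟨g', hg'mem, fun f => ?_⟩
  refine cpoly_unique D _ hγ _ fun z => ?_
  set F := D.E f with hF
  have hT : D.E (CuspForm.heckeTLin k hp hpN f) =
      (p : ℂ) ^ (w + 1) • ∑ x : OnePoint (ZMod p), F ∣[(-(w : ℤ))] heckeRep p x := by
    rw [D.heckeT hp hpN f, heckeT_eq_sum_onePoint]
  have hslash : (∑ x : OnePoint (ZMod p), F ∣[(-(w : ℤ))] heckeRep p x) ∣[(-(w : ℤ))] γ
      = ∑ x : OnePoint (ZMod p), F ∣[(-(w : ℤ))] heckeRep p x +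
        ∑ x : OnePoint (ZMod p), (fun τ : ℍ => (cpoly D f (g' x)).eval (τ : ℂ)) ∣[(-(w : ℤ))]
          heckeRep p (redMatrix p γ • x) := by
    rw [ModularForm.SL_slash, SlashAction.sum_slash]
    have : ∀ x, (F ∣[(-(w : ℤ))] heckeRep p x) ∣[(-(w : ℤ))] (mapGL ℝ γ) =
        F ∣[(-(w : ℤ))] heckeRep p (redMatrix p γ • x) +
          (fun τ : ℍ => (cpoly D f (g' x)).eval (τ : ℂ)) ∣[(-(w : ℤ))]
            heckeRep p (redMatrix p γ • x) := by
      intro x
      rw [← SlashAction.slash_mul, hg' x, SlashAction.slash_mul, ← SlashAction.add_slash]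
      congr 1
      funext τ
      have := cpoly_eval D f (hg'mem x) τ
      simp only [Pi.add_apply]
      rw [← this]
      show (F ∣[(-(w : ℤ))] (g' x)) τ = _
      ring
    calc ∑ x : OnePoint (ZMod p), (F ∣[(-(w : ℤ))] heckeRep p x) ∣[(-(w : ℤ))] (mapGL ℝ γ)
        = ∑ x : OnePoint (ZMod p), (F ∣[(-(w : ℤ))] heckeRep p (redMatrix p γ • x) +
          (fun τ : ℍ => (cpoly D f (g' x)).eval (τ : ℂ)) ∣[(-(w : ℤ))]
            heckeRep p (redMatrix p γ • x)) := Finset.sum_congr rfl fun x _ => this x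
      _ = _ := by
        rw [Finset.sum_add_distrib]
        congr 1
        exact Equiv.sum_comp (MulAction.toPerm (redMatrix p γ))
          (fun x => F ∣[(-(w : ℤ))] heckeRep p x)
  rw [hT, ModularForm.SL_smul_slash, hslash]
  simp only [Pi.smul_apply, Pi.add_apply, smul_eq_mul, Finset.sum_apply, eval_finsetSum]
  rw [mul_add, add_sub_cancel_left, Finset.mul_sum]
  refine Finset.sum_congr rfl fun x _ => ?_
  exact repAct_eval hp.ne_zero _ _ (cpoly_natDegree D f _) z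

lemma coeffFun_comp_heckeT {p : ℕ} (hp : p.Prime) (hpN : ¬ p ∣ N) {γ : SL(2, ℤ)}
    (hγ : γ ∈ Gamma0 N) (j : ℕ) :
    coeffFun D γ j ∘ₗ CuspForm.heckeTLin k hp hpN ∈ lattice D := by
  have : Fact p.Prime := ⟨hp⟩
  obtain ⟨g', hg'mem, h⟩ := cpoly_heckeT D hp hpN hγ
  have : coeffFun D γ j ∘ₗ CuspForm.heckeTLin k hp hpN =
      ∑ x : OnePoint (ZMod p), ∑ i ∈ Finset.range (w + 1),
        repActCoeff w p (redMatrix p γ • x) j i • coeffFun D (g' x) i := by
    ext f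
    simp only [LinearMap.comp_apply, coeffFun_apply, h f, finsetSum_coeff, repAct_coeff,
      LinearMap.coe_sum, Finset.sum_apply, LinearMap.smul_apply, zsmul_eq_mul]
  rw [this]
  exact Submodule.sum_mem _ fun x _ => Submodule.sum_mem _ fun i _ =>
    Submodule.smul_mem _ _ (coeffFun_mem_lattice D (hg'mem x) i)


lemma heckeMatrix_act_eval {p : ℕ} (hp : p ≠ 0) (j : ℕ) (P : ℂ[X])
    (hP : P.natDegree ≤ w) (z : ℍ) :
    (p : ℂ) ^ (w + 1) *
        ((fun τ : ℍ => P.eval (τ : ℂ)) ∣[(-(w : ℤ))] ModularForm.heckeMatrix p j) z =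
      (polyAct w 1 j 0 p P).eval (z : ℂ) := by
  have hp' : (p : ℂ) ≠ 0 := by exact_mod_cast hp
  rw [ModularForm.slash_heckeMatrix_apply _ hp, ModularForm.coe_heckeMatrix_smul hp,
    polyAct_eval w _ _ _ _ P hP _ (by simpa using hp')]
  rw [pow_succ, mul_assoc, ← mul_assoc (p : ℂ), mul_inv_cancel₀ hp']
  simp

open Matrix.SpecialLinearGroup in
lemma cpoly_heckeU {p : ℕ} (hp : p.Prime) (hpN : p ∣ N) {γ : SL(2, ℤ)} (hγ : γ ∈ Gamma0 N) :
    haveI : NeZero p := ⟨hp.ne_zero⟩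
    ∃ (σ : ZMod p → ZMod p) (g' : ZMod p → SL(2, ℤ)), (∀ x, g' x ∈ Gamma0 N) ∧
      ∀ f : CuspForm (Gamma0 N) k, cpoly D (CuspForm.heckeULin k hpN f) γ =
        ∑ x : ZMod p, polyAct w 1 (σ x).val 0 p (cpoly D f (g' x)) := by
  have : NeZero p := ⟨hp.ne_zero⟩
  have hγN : ((γ 1 0 : ℤ) : ZMod N) = 0 := Gamma0_mem.mp hγ
  have hγ' : (N : ℤ) ∣ γ 1 0 := (ZMod.intCast_zmod_eq_zero_iff_dvd _ _).mp hγN
  have hc : (p : ℤ) ∣ γ 1 0 := (Int.natCast_dvd_natCast.mpr hpN).trans hγ'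
  have hc0 : ((γ 1 0 : ℤ) : ZMod p) = 0 := (ZMod.intCast_zmod_eq_zero_iff_dvd _ _).mpr hc
  choose g' hg'N hg' using fun x => heckeMatrix_mul_of_dvd γ hc x
  have hg'mem : ∀ x, g' x ∈ Gamma0 N := fun x => by
    rw [Gamma0_mem, hg'N x]
    push_cast
    rw [hγN, mul_zero]
  refine ⟨affinePerm γ hc0, g', hg'mem, fun f => ?_⟩
  refine cpoly_unique D _ hγ _ fun z => ?_
  set F := D.E f with hF
  have hT : D.E (CuspForm.heckeULin k hpN f) =
      (p : ℂ) ^ (w + 1) • ∑ x : ZMod p, F ∣[(-(w : ℤ))] ModularForm.heckeMatrix p x.val := by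
    rw [D.heckeU hp hpN f, heckeU_eq_sum_zmod]
  have hslash : (∑ x : ZMod p, F ∣[(-(w : ℤ))] ModularForm.heckeMatrix p x.val) ∣[(-(w : ℤ))] γ
      = ∑ x : ZMod p, F ∣[(-(w : ℤ))] ModularForm.heckeMatrix p x.val +
        ∑ x : ZMod p, (fun τ : ℍ => (cpoly D f (g' x)).eval (τ : ℂ)) ∣[(-(w : ℤ))]
          ModularForm.heckeMatrix p (affinePerm γ hc0 x).val := by
    rw [ModularForm.SL_slash, SlashAction.sum_slash]
    have : ∀ x : ZMod p,
        (F ∣[(-(w : ℤ))] ModularForm.heckeMatrix p x.val) ∣[(-(w : ℤ))] (mapGL ℝ γ) =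
        F ∣[(-(w : ℤ))] ModularForm.heckeMatrix p (affinePerm γ hc0 x).val +
          (fun τ : ℍ => (cpoly D f (g' x)).eval (τ : ℂ)) ∣[(-(w : ℤ))]
            ModularForm.heckeMatrix p (affinePerm γ hc0 x).val := by
      intro x
      rw [← SlashAction.slash_mul, hg' x, SlashAction.slash_mul, ← SlashAction.add_slash]
      congr 1
      funext τ
      have := cpoly_eval D f (hg'mem x) τ
      simp only [Pi.add_apply]
      rw [← this]
      show (F ∣[(-(w : ℤ))] (g' x)) τ = _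
      ring
    calc ∑ x : ZMod p,
          (F ∣[(-(w : ℤ))] ModularForm.heckeMatrix p x.val) ∣[(-(w : ℤ))] (mapGL ℝ γ)
        = ∑ x : ZMod p, (F ∣[(-(w : ℤ))] ModularForm.heckeMatrix p (affinePerm γ hc0 x).val +
          (fun τ : ℍ => (cpoly D f (g' x)).eval (τ : ℂ)) ∣[(-(w : ℤ))]
            ModularForm.heckeMatrix p (affinePerm γ hc0 x).val) :=
          Finset.sum_congr rfl fun x _ => this x
      _ = _ := by
        rw [Finset.sum_add_distrib]
        congr 1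
        exact Equiv.sum_comp (affinePerm γ hc0)
          (fun x => F ∣[(-(w : ℤ))] ModularForm.heckeMatrix p x.val)
  rw [hT, ModularForm.SL_smul_slash, hslash]
  simp only [Pi.smul_apply, Pi.add_apply, smul_eq_mul, Finset.sum_apply, eval_finsetSum]
  rw [mul_add, add_sub_cancel_left, Finset.mul_sum]
  refine Finset.sum_congr rfl fun x _ => ?_
  exact heckeMatrix_act_eval hp.ne_zero _ _ (cpoly_natDegree D f _) z

lemma coeffFun_comp_heckeU {p : ℕ} (hp : p.Prime) (hpN : p ∣ N) {γ : SL(2, ℤ)}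
    (hγ : γ ∈ Gamma0 N) (j : ℕ) :
    coeffFun D γ j ∘ₗ CuspForm.heckeULin k hpN ∈ lattice D := by
  have : NeZero p := ⟨hp.ne_zero⟩
  obtain ⟨σ, g', hg'mem, h⟩ := cpoly_heckeU D hp hpN hγ
  have : coeffFun D γ j ∘ₗ CuspForm.heckeULin k hpN =
      ∑ x : ZMod p, ∑ i ∈ Finset.range (w + 1),
        polyActCoeff w 1 (σ x).val 0 p j i • coeffFun D (g' x) i := by
    ext f
    simp only [LinearMap.comp_apply, coeffFun_apply, h f, finsetSum_coeff, polyAct_coeff,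
      LinearMap.coe_sum, Finset.sum_apply, LinearMap.smul_apply, zsmul_eq_mul]
  rw [this]
  exact Submodule.sum_mem _ fun x _ => Submodule.sum_mem _ fun i _ =>
    Submodule.smul_mem _ _ (coeffFun_mem_lattice D (hg'mem x) i)


lemma lattice_comp_mem {T : Module.End ℂ (CuspForm (Gamma0 N) k)}
    (hT : ∀ γ ∈ Gamma0 N, ∀ j : ℕ, coeffFun D γ j ∘ₗ T ∈ lattice D) :
    ∀ φ ∈ lattice D, φ ∘ₗ T ∈ lattice D := by
  intro φ hφ
  induction hφ using Submodule.span_induction with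
  | mem x hx =>
    obtain ⟨γ, hγ, i, rfl⟩ := hx
    exact hT γ hγ i
  | zero => simp
  | add x y _ _ hx hy =>
    rw [LinearMap.add_comp]
    exact Submodule.add_mem _ hx hy
  | smul n x _ hx =>
    have : (n • x) ∘ₗ T = n • (x ∘ₗ T) := by
      ext v
      simp
    rw [this]
    exact Submodule.smul_mem _ _ hx

include D in
/-- **Main algebraic reduction**: the analytic input `EichlerData` implies that the Hecke algebra
is a finitely generated `ℤ`-module. -/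
theorem finite_heckeAlgebra_of_eichlerData (S : Set ℕ) :
    Module.Finite ℤ (CuspForm.heckeAlgebra N k S) := by
  refine finite_adjoin_of_dual_lattice (lattice D) (lattice_fg D) (lattice_sep D)
    (CuspForm.heckeGenerators N k S) ?_
  rintro T (⟨ℓ, hℓ, hℓN, -, rfl⟩ | ⟨q, hqN, hq, -, rfl⟩)
  · exact lattice_comp_mem D fun γ hγ j => coeffFun_comp_heckeT D hℓ hℓN hγ j
  · exact lattice_comp_mem D fun γ hγ j => coeffFun_comp_heckeU D hq hqN hγ j

end

end Fermat.Agent.S22.helper262
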