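import Mathlib
import Fermat.Prelude.Def_CuspForm_HeckeAlgebra
import Fermat.Prelude.Thm_UpperHalfPlane_qCoeff_heckeT
import Fermat.Prelude.Thm_UpperHalfPlane_qCoeff_heckeU
import Fermat.Prelude.Thm_UpperHalfPlane_eq_of_forall_qCoeff_eq
import Fermat.Prelude.Thm_CongruenceSubgroup_one_mem_strictPeriods_Gamma0
import Fermat.Prelude.Thm_ModularForm_periodic_heckeT_comp_ofComplex
import Fermat.Prelude.Thm_ModularForm_periodic_heckeU_comp_ofComplex
import Fermat.Prelude.Thm_ModularForm_isBoundedAtImInfty_heckeT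
import Fermat.Prelude.Thm_ModularForm_isBoundedAtImInfty_heckeU
import Fermat.Prelude.Thm_ModularForm_mdifferentiable_heckeT
import Fermat.Prelude.Thm_ModularForm_mdifferentiable_heckeU
import Fermat.Agent.Lib.helper229_HeckeLattice
import Fermat.Agent.S22.helper322_Bol
import Fermat.Agent.S22.helper1222_EichlerSeries
import Fermat.Agent.S22.helper262_CocycleLattice

/-!
# Instantiating `EichlerData` (helper262)

The Eichler integral `E f = ∑ a_n n^{-(w+1)} q^n` of a cusp form of weight `w + 2`.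
-/

set_option autoImplicit false
set_option linter.unusedSectionVars false
set_option linter.unusedVariables false

namespace Fermat.Agent.S22.helper262

open UpperHalfPlane hiding I
open Real Complex CongruenceSubgroup ModularFormClass Filter Topology
open scoped Manifold MatrixGroups ModularForm
open Derivative
open Fermat.Agent.S22.helper1222 Fermat.Agent.S22.helper322 Fermat.Agent.Lib.helper229

noncomputable section

/-! ### Functions on `ℍ` coming from functions on `ℂ` -/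

lemma mdiff_of_hasDerivAt {G G' : ℂ → ℂ} (h : ∀ z : ℂ, 0 < z.im → HasDerivAt G (G' z) z) :
    MDiff (fun z : ℍ => G (z : ℂ)) := by
  rw [UpperHalfPlane.mdifferentiable_iff]
  have h1 : DifferentiableOn ℂ G {z : ℂ | 0 < z.im} :=
    fun z hz => (h z hz).differentiableAt.differentiableWithinAt
  refine h1.congr fun z hz => ?_
  simp [Function.comp_apply, ofComplex_apply_of_im_pos hz]

lemma D_of_hasDerivAt {G G' : ℂ → ℂ} (h : ∀ z : ℂ, 0 < z.im → HasDerivAt G (G' z) z) :
    D (fun z : ℍ => G (z : ℂ)) = fun z : ℍ => (2 * π * I)⁻¹ * G' (z : ℂ) := by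
  funext z
  have h2 : ((fun z : ℍ => G (z : ℂ)) ∘ ofComplex) =ᶠ[𝓝 (z : ℂ)] G := by
    filter_upwards [isOpen_upperHalfPlaneSet.mem_nhds z.im_pos] with x hx
    simp [Function.comp_apply, ofComplex_apply_of_im_pos hx]
  show (2 * π * I)⁻¹ * deriv ((fun z : ℍ => G (z : ℂ)) ∘ ofComplex) (z : ℂ) = _
  rw [h2.deriv_eq, (h z z.im_pos).deriv]


/-- Periodicity on `ℍ` implies periodicity of the composite with `ofComplex`. -/
lemma periodic_comp_ofComplex_of_coe {G : ℂ → ℂ} {h : ℝ} (hG : Function.Periodic G h) :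
    Function.Periodic ((fun z : ℍ => G (z : ℂ)) ∘ ofComplex) h := by
  intro z
  simp only [Function.comp_apply]
  by_cases hz : 0 < z.im
  · have hz' : 0 < (z + h).im := by simpa using hz
    rw [ofComplex_apply_of_im_pos hz, ofComplex_apply_of_im_pos hz']
    exact hG z
  · have hz0 : z.im ≤ 0 := not_lt.mp hz
    have hz' : (z + h).im ≤ 0 := by simpa using hz0
    rw [ofComplex_apply_eq_of_im_nonpos hz' hz0]

variable {N : ℕ} [NeZero N] {k : ℤ}

/-- The chain of iterated decaying primitives of a cusp form, as functions on `ℍ`. -/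
def chainFun (f : CuspForm (Gamma0 N) k) (j : ℕ) : ℍ → ℂ := fun z => eichlerOf 1 f j (z : ℂ)

lemma chainFun_zero (f : CuspForm (Gamma0 N) k) : chainFun f 0 = f := by
  funext z
  exact eichlerOf_zero f one_pos (one_mem_strictPeriods_Gamma0 N) z.im_pos

lemma mdiff_chainFun (f : CuspForm (Gamma0 N) k) (j : ℕ) : MDiff (chainFun f j) := by
  cases j with
  | zero => rw [chainFun_zero]; exact ModularFormClass.holo f
  | succ j =>
    exact mdiff_of_hasDerivAt fun z hz =>
      hasDerivAt_eichlerOf f one_pos (one_mem_strictPeriods_Gamma0 N) j hz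

lemma D_chainFun_succ (f : CuspForm (Gamma0 N) k) (j : ℕ) :
    D (chainFun f (j + 1)) = (2 * π * I)⁻¹ • chainFun f j :=
  D_of_hasDerivAt fun z hz =>
    hasDerivAt_eichlerOf f one_pos (one_mem_strictPeriods_Gamma0 N) j hz

lemma iterate_D_chainFun (f : CuspForm (Gamma0 N) k) (n : ℕ) :
    D^[n] (chainFun f n) = ((2 * π * I)⁻¹) ^ n • (f : ℍ → ℂ) := by
  induction n with
  | zero => simp [chainFun_zero]
  | succ n ih =>
    rw [Function.iterate_succ_apply, D_chainFun_succ, iterate_D_smul _ (mdiff_chainFun f n), ih,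
      smul_smul, pow_succ, mul_comm]

/-- The Eichler integral of a cusp form: `E f = ∑ a_n n^{-(w+1)} q^n`. -/
def eichlerFun (w : ℕ) (f : CuspForm (Gamma0 N) k) : ℍ → ℂ :=
  (2 * π * I) ^ (w + 1) • chainFun f (w + 1)

lemma two_pi_I_ne_zero' : (2 * π * I : ℂ) ≠ 0 := by
  simp [Real.pi_ne_zero]

lemma mdiff_eichlerFun (w : ℕ) (f : CuspForm (Gamma0 N) k) : MDiff (eichlerFun w f) :=
  (mdiff_chainFun f (w + 1)).const_smul _

lemma iterate_D_eichlerFun (w : ℕ) (f : CuspForm (Gamma0 N) k) :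
    D^[w + 1] (eichlerFun w f) = f := by
  rw [eichlerFun, iterate_D_smul _ (mdiff_chainFun f (w + 1)), iterate_D_chainFun, smul_smul,
    ← mul_pow, mul_inv_cancel₀ two_pi_I_ne_zero', one_pow, one_smul]

/-- The Eichler integral as a linear map. -/
def eichlerLin (N : ℕ) [NeZero N] (k : ℤ) (w : ℕ) : CuspForm (Gamma0 N) k →ₗ[ℂ] (ℍ → ℂ) where
  toFun := eichlerFun w
  map_add' f g := by
    funext z
    simp only [eichlerFun, chainFun, Pi.smul_apply, Pi.add_apply, smul_eq_mul]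
    rw [eichlerOf_add f g one_pos (one_mem_strictPeriods_Gamma0 N) (w + 1) z.im_pos, mul_add]
  map_smul' c f := by
    funext z
    simp only [eichlerFun, chainFun, Pi.smul_apply, smul_eq_mul, RingHom.id_apply]
    rw [eichlerOf_smul c f one_pos (one_mem_strictPeriods_Gamma0 N) (w + 1) (z : ℂ)]
    ring

@[simp] lemma eichlerLin_apply (w : ℕ) (f : CuspForm (Gamma0 N) k) :
    eichlerLin N k w f = eichlerFun w f := rfl


/-- The `poly` field: the Eichler cocycle takes polynomial values. -/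
lemma eichlerFun_poly {w : ℕ} (hk : k = (w : ℤ) + 2) (f : CuspForm (Gamma0 N) k)
    (γ : SL(2, ℤ)) (hγ : γ ∈ Gamma0 N) :
    ∃ P : Polynomial ℂ, P.natDegree ≤ w ∧
      ∀ z : ℍ, (eichlerFun w f ∣[(-(w : ℤ))] γ) z - eichlerFun w f z = P.eval (z : ℂ) := by
  have hdet : (Matrix.SpecialLinearGroup.mapGL ℝ γ : GL (Fin 2) ℝ).val.det = 1 := by
    simpa using (Matrix.SpecialLinearGroup.map (Int.castRingHom ℝ) γ).det_coe
  have hinv : (f : ℍ → ℂ) ∣[((w + 1 : ℕ) : ℤ) + 1] (Matrix.SpecialLinearGroup.mapGL ℝ γ) = f := by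
    have h1 : ((w + 1 : ℕ) : ℤ) + 1 = k := by rw [hk]; push_cast; ring
    rw [h1]
    exact SlashInvariantFormClass.slash_action_eq f _ (Subgroup.mem_map_of_mem _ hγ)
  obtain ⟨P, hP, hPeq⟩ := exists_polynomial_slash_sub (mdiff_eichlerFun w f)
    (iterate_D_eichlerFun w f) hdet hinv
  refine ⟨P, ?_, fun z => ?_⟩
  · by_cases hP0 : P = 0
    · simp [hP0]
    · have := (Polynomial.natDegree_lt_iff_degree_lt hP0).mpr hP
      omega
  · have h2 : (1 : ℤ) - ((w + 1 : ℕ) : ℤ) = -(w : ℤ) := by push_cast; ring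
    rw [h2] at hPeq
    have := congrFun hPeq z
    simp only [Pi.sub_apply, polyFun] at this
    exact this


/-! ### `q`-expansion of the Eichler integral -/

local notation "𝕢" => Function.Periodic.qParam

lemma eichlerFun_periodic (w : ℕ) (f : CuspForm (Gamma0 N) k) :
    Function.Periodic (eichlerFun w f ∘ ofComplex) 1 := by
  have h1 : Function.Periodic (fun z : ℂ => (2 * π * I) ^ (w + 1) * eichlerOf 1 f (w + 1) z)
      ((1 : ℝ) : ℂ) := by
    intro z
    simp only
    rw [eichlerOf_periodic 1 f (w + 1) z]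
  have h2 := periodic_comp_ofComplex_of_coe h1
  simpa [eichlerFun, chainFun] using h2

lemma eichlerFun_hasSum (w : ℕ) (f : CuspForm (Gamma0 N) k) (τ : ℍ) :
    HasSum (fun m : ℕ => (qCoeff f m / (m : ℂ) ^ (w + 1)) • 𝕢 1 τ ^ m) (eichlerFun w f τ) := by
  have hΓ := one_mem_strictPeriods_Gamma0 N
  have h1 := (hasSum_eichlerSeries one_pos (summable_qCoeffSeq f one_pos hΓ) (w + 1)
    τ.im_pos).mul_left ((2 * π * I) ^ (w + 1))
  have h2 : (fun m : ℕ => (qCoeff f m / (m : ℂ) ^ (w + 1)) • 𝕢 1 (τ : ℂ) ^ m) =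
      fun m : ℕ => (2 * π * I) ^ (w + 1) * eichlerTerm 1 (qCoeffSeq 1 f) (w + 1) m (τ : ℂ) := by
    funext m
    simp only [eichlerTerm, eichlerWeight, qCoeffSeq, qCoeff, smul_eq_mul, Complex.ofReal_one]
    rcases Nat.eq_zero_or_pos m with rfl | hm
    · simp
    · have hm' : (m : ℂ) ≠ 0 := by exact_mod_cast hm.ne'
      have hpi := two_pi_I_ne_zero'
      rw [div_pow, mul_pow (2 * π * I) (m : ℂ)]
      field_simp
      simp
  rw [h2]
  exact h1

lemma eichlerFun_bdd (w : ℕ) (f : CuspForm (Gamma0 N) k) :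
    IsBoundedAtImInfty (eichlerFun w f) :=
  isBoundedAtImInfty_of_hasSum_qExpansion one_pos (eichlerFun_hasSum w f)

/-- Uniqueness of `q`-expansion coefficients for plain functions on `ℍ`. -/
lemma qExpansion_coeff_unique_fun {F : ℍ → ℂ} {h : ℝ} {c : ℕ → ℂ} (hh : 0 < h)
    (hfanalytic : AnalyticAt ℂ (cuspFunction h F) 0)
    (hf : ∀ τ : ℍ, HasSum (fun m ↦ c m • 𝕢 h τ ^ m) (F τ)) (m : ℕ) :
    c m = (qExpansion h F).coeff m := by
  have h1 := (hasFPowerSeriesOnBall_cuspFunction hh hfanalytic hf).hasFPowerSeriesAt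
  have h2 := hfanalytic.hasFPowerSeriesAt
  have h3 := congr_arg (FormalMultilinearSeries.coeff · m) (h1.eq_formalMultilinearSeries h2)
  simp only [FormalMultilinearSeries.coeff_ofScalars] at h3
  rw [h3, qExpansion_coeff, div_eq_inv_mul]

lemma eichlerFun_analytic (w : ℕ) (f : CuspForm (Gamma0 N) k) :
    AnalyticAt ℂ (cuspFunction 1 (eichlerFun w f)) 0 :=
  UpperHalfPlane.analyticAt_cuspFunction_zero one_pos (eichlerFun_periodic w f)
    (mdiff_eichlerFun w f) (eichlerFun_bdd w f)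

lemma eichlerFun_qCoeff (w : ℕ) (f : CuspForm (Gamma0 N) k) (m : ℕ) :
    qCoeff (eichlerFun w f) m = qCoeff f m / (m : ℂ) ^ (w + 1) :=
  (qExpansion_coeff_unique_fun one_pos (eichlerFun_analytic w f) (eichlerFun_hasSum w f) m).symm


/-! ### Hecke compatibility -/

lemma hecke_coeff_identity (a : ℕ → ℂ) (w : ℕ) {p : ℕ} (hp : p ≠ 0) (n : ℕ) :
    (a (n * p) + if p ∣ n then (p : ℂ) ^ (((w : ℤ) + 2) - 1) * a (n / p) else 0) /
        (n : ℂ) ^ (w + 1) =
      (p : ℂ) ^ (w + 1) * (a (n * p) / ((n * p : ℕ) : ℂ) ^ (w + 1) +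
        if p ∣ n then (p : ℂ) ^ (-(w : ℤ) - 1) * (a (n / p) / ((n / p : ℕ) : ℂ) ^ (w + 1))
        else 0) := by
  have hp' : (p : ℂ) ≠ 0 := by exact_mod_cast hp
  have e1 : ((w : ℤ) + 2 - 1) = ((w + 1 : ℕ) : ℤ) := by push_cast; ring
  have e2 : (-(w : ℤ) - 1) = -((w + 1 : ℕ) : ℤ) := by push_cast; ring
  rw [e1, e2, zpow_neg, zpow_natCast]
  rcases Nat.eq_zero_or_pos n with rfl | hn
  · simp
  · have hn' : (n : ℂ) ≠ 0 := by exact_mod_cast hn.ne'
    split_ifs with hdiv
    · obtain ⟨m, rfl⟩ := hdiv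
      have hm : m ≠ 0 := by rintro rfl; simp at hn
      have hm' : (m : ℂ) ≠ 0 := by exact_mod_cast hm
      rw [Nat.mul_div_cancel_left m (Nat.pos_of_ne_zero hp)]
      push_cast
      field_simp
      ring
    · push_cast
      field_simp
      ring

lemma smul_nice {F : ℍ → ℂ} (c : ℂ) (hper : Function.Periodic (F ∘ ofComplex) 1)
    (hhol : MDiff F) (hbdd : IsBoundedAtImInfty F) :
    Function.Periodic ((c • F) ∘ ofComplex) 1 ∧ MDiff (c • F) ∧ IsBoundedAtImInfty (c • F) ∧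
      ∀ n, qCoeff (c • F) n = c * qCoeff F n := by
  refine ⟨?_, hhol.const_smul c, hbdd.const_smul_left c, fun n => ?_⟩
  · intro z
    have := hper z
    simp only [Function.comp_apply, Pi.smul_apply] at this ⊢
    rw [this]
  · unfold qCoeff
    rw [UpperHalfPlane.qExpansion_smul
      (UpperHalfPlane.analyticAt_cuspFunction_zero one_pos hper hhol hbdd)]
    simp

lemma eichlerFun_heckeT {w : ℕ} (hk : k = (w : ℤ) + 2) {p : ℕ} (hp : p.Prime) (hpN : ¬ p ∣ N)
    (f : CuspForm (Gamma0 N) k) :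
    eichlerFun w (CuspForm.heckeTLin k hp hpN f) =
      (p : ℂ) ^ (w + 1) • ModularForm.heckeT (-(w : ℤ)) p (eichlerFun w f) := by
  subst hk
  have hE := eichlerFun_periodic w f
  have hM := mdiff_eichlerFun w f
  have hB := eichlerFun_bdd w f
  obtain ⟨h1, h2, h3, h4⟩ := smul_nice ((p : ℂ) ^ (w + 1))
    (ModularForm.periodic_heckeT_comp_ofComplex hE (-(w : ℤ)) p)
    (ModularForm.mdifferentiable_heckeT hM (-(w : ℤ)) p)
    (ModularForm.isBoundedAtImInfty_heckeT hB (-(w : ℤ)) p)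
  refine UpperHalfPlane.eq_of_forall_qCoeff_eq (eichlerFun_periodic w _) (mdiff_eichlerFun w _)
    (eichlerFun_bdd w _) h1 h2 h3 fun n => ?_
  rw [h4, eichlerFun_qCoeff, qCoeff_heckeTLin hp hpN f n,
    UpperHalfPlane.qCoeff_heckeT hE hM hB _ hp.ne_zero n, ModularForm.coeffHeckeT_apply]
  simp only [eichlerFun_qCoeff]
  exact hecke_coeff_identity (fun m => qCoeff f m) w hp.ne_zero n

lemma eichlerFun_heckeU {w : ℕ} {p : ℕ} (hp : p.Prime) (hpN : p ∣ N)
    (f : CuspForm (Gamma0 N) k) :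
    eichlerFun w (CuspForm.heckeULin k hpN f) =
      (p : ℂ) ^ (w + 1) • ModularForm.heckeU (-(w : ℤ)) p (eichlerFun w f) := by
  have hE := eichlerFun_periodic w f
  have hM := mdiff_eichlerFun w f
  have hB := eichlerFun_bdd w f
  obtain ⟨h1, h2, h3, h4⟩ := smul_nice ((p : ℂ) ^ (w + 1))
    (ModularForm.periodic_heckeU_comp_ofComplex hE (-(w : ℤ)) p)
    (ModularForm.mdifferentiable_heckeU hM (-(w : ℤ)) p)
    (ModularForm.isBoundedAtImInfty_heckeU hB (-(w : ℤ)) p)
  refine UpperHalfPlane.eq_of_forall_qCoeff_eq (eichlerFun_periodic w _) (mdiff_eichlerFun w _)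
    (eichlerFun_bdd w _) h1 h2 h3 fun n => ?_
  rw [h4, eichlerFun_qCoeff, qCoeff_heckeULin hp.ne_zero hpN f n,
    UpperHalfPlane.qCoeff_heckeU hE hM hB _ hp.ne_zero n, ModularForm.coeffHeckeU_apply,
    eichlerFun_qCoeff]
  have hp' : (p : ℂ) ≠ 0 := by exact_mod_cast hp.ne_zero
  rcases Nat.eq_zero_or_pos n with rfl | hn
  · simp
  · have hn' : (n : ℂ) ≠ 0 := by exact_mod_cast hn.ne'
    push_cast
    field_simp
    ring

end

end Fermat.Agent.S22.helper262
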