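import Mathlib
import Fermat.Prelude.Def_CuspForm_HeckeAlgebra
import Fermat.Prelude.Thm_ModularForm_sturm_bound_Gamma0
import Fermat.Prelude.Thm_CongruenceSubgroup_one_mem_strictPeriods_Gamma0
import Fermat.Agent.S22.helper262_CocycleLattice

/-!
# S22: trivial weights and the final glue

* `cuspForm_eq_zero_of_nonpos` : `S_k(Γ₀(N)) = 0` for `k ≤ 0`.
* `cuspForm_eq_zero_of_odd` : `S_k(Γ₀(N)) = 0` for odd `k`.
* `finite_heckeAlgebra_of_forall_eq_zero` : if the space of cusp forms is zero, the Hecke algebra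
  is a finite `ℤ`-module.
* `finite_heckeAlgebra_of_eichlerData` : the statement of S22 from the existence of
  `helper262.EichlerData N (w + 2) w` for every `w : ℕ`.
-/

namespace Fermat.Agent.S22.helper283

open UpperHalfPlane CongruenceSubgroup
open scoped MatrixGroups ModularForm

/-- Cusp forms of weight `k ≤ 0` on `Γ₀(N)` vanish. -/
theorem cuspForm_eq_zero_of_nonpos {N : ℕ} [NeZero N] {k : ℤ} (hk : k ≤ 0)
    (f : CuspForm (Gamma0 N) k) : f = 0 := by
  have hmf : (ModularFormClass.modularForm f : ModularForm (Gamma0 N) k) = 0 := by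
    refine ModularForm.sturm_bound_Gamma0 N _ fun n hn ↦ ?_
    have h0 : (k * ((Gamma0 N).index : ℤ)).toNat = 0 :=
      Int.toNat_of_nonpos (mul_nonpos_of_nonpos_of_nonneg hk (Int.natCast_nonneg _))
    have hn0 : n = 0 := by
      rw [h0] at hn
      simpa using hn
    subst hn0
    exact CuspFormClass.qExpansion_coeff_zero (f := f) one_pos
      (CongruenceSubgroup.one_mem_strictPeriods_Gamma0 N)
  have hcoe : (⇑f : ℍ → ℂ) = 0 := by
    have := congrArg (fun F : ModularForm (Gamma0 N) k ↦ (⇑F : ℍ → ℂ)) hmf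
    simpa using this
  exact DFunLike.coe_injective (hcoe.trans FunLike.coe_zero.symm)

lemma neg_one_mem_Gamma0_GL (N : ℕ) :
    (-1 : GL (Fin 2) ℝ) ∈ ((Gamma0 N : Subgroup SL(2, ℤ)) : Subgroup (GL (Fin 2) ℝ)) := by
  refine ⟨-1, ?_, ?_⟩
  · show (-1 : SL(2, ℤ)) ∈ Gamma0 N
    rw [Gamma0_mem]
    simp
  · ext i j
    fin_cases i <;> fin_cases j <;> simp [Matrix.SpecialLinearGroup.mapGL]

/-- Cusp forms of odd weight on `Γ₀(N)` vanish. -/
theorem cuspForm_eq_zero_of_odd {N : ℕ} [NeZero N] {k : ℤ} (hk : Odd k)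
    (f : CuspForm (Gamma0 N) k) : f = 0 := by
  have hmf : (ModularFormClass.modularForm f : ModularForm (Gamma0 N) k) = 0 :=
    ModularForm.eq_zero_of_neg_one_mem (neg_one_mem_Gamma0_GL N) hk _
  have hcoe : (⇑f : ℍ → ℂ) = 0 := by
    have := congrArg (fun F : ModularForm (Gamma0 N) k ↦ (⇑F : ℍ → ℂ)) hmf
    simpa using this
  exact DFunLike.coe_injective (hcoe.trans FunLike.coe_zero.symm)

/-- If the space of cusp forms is zero then the Hecke algebra is a finite `ℤ`-module. -/
theorem finite_heckeAlgebra_of_forall_eq_zero {N : ℕ} [NeZero N] {k : ℤ}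
    (h : ∀ f : CuspForm (Gamma0 N) k, f = 0) (S : Set ℕ) :
    Module.Finite ℤ (CuspForm.heckeAlgebra N k S) := by
  have h1 : Subsingleton (CuspForm (Gamma0 N) k) :=
    ⟨fun a b => (h a).trans (h b).symm⟩
  have h2 : Subsingleton (Module.End ℂ (CuspForm (Gamma0 N) k)) :=
    ⟨fun a b => LinearMap.ext fun x => Subsingleton.elim _ _⟩
  have h3 : Subsingleton (CuspForm.heckeAlgebra N k S) :=
    ⟨fun a b => Subtype.ext (Subsingleton.elim _ _)⟩
  exact Module.Finite.of_finite

/-- **S22 from the analytic input**: if for every `w : ℕ` there is an `EichlerData N (w + 2) w`,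
then every Hecke algebra `CuspForm.heckeAlgebra N k S` is a finite `ℤ`-module. -/
theorem finite_heckeAlgebra_of_eichlerData {N : ℕ} [NeZero N]
    (H : ∀ w : ℕ, Nonempty (Fermat.Agent.S22.helper262.EichlerData N ((w : ℤ) + 2) w))
    (k : ℤ) (S : Set ℕ) :
    Module.Finite ℤ (CuspForm.heckeAlgebra N k S) := by
  rcases lt_or_ge k 2 with hk | hk
  · refine finite_heckeAlgebra_of_forall_eq_zero (fun f => ?_) S
    rcases le_or_gt k 0 with h0 | h0
    · exact cuspForm_eq_zero_of_nonpos h0 f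
    · have h1 : k = 1 := by omega
      subst h1
      exact cuspForm_eq_zero_of_odd odd_one f
  · obtain ⟨w, rfl⟩ : ∃ w : ℕ, k = (w : ℤ) + 2 := ⟨(k - 2).toNat, by omega⟩
    obtain ⟨D⟩ := H w
    exact Fermat.Agent.S22.helper262.finite_heckeAlgebra_of_eichlerData D S

end Fermat.Agent.S22.helper283
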