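import Mathlib
import Fermat.Prelude.Def_CuspForm_HeckeAlgebra
import Fermat.Prelude.Thm_CongruenceSubgroup_one_mem_strictPeriods_Gamma0
import Fermat.Prelude.Thm_Subgroup_IsArithmetic_exists_nat_mem_strictPeriods_conj
import Fermat.Agent.S22.helper1222_EichlerSeries
import Fermat.Agent.S22.helper322_Bol

/-!
# Eichler integrals on the upper half plane: Hecke compatibility and separation (helper1222)

`eichH h f n` is the `n`-fold primitive (w.r.t. Mathlib's normalised derivative `D`) of a cusp form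
`f`, vanishing at `i∞`.
-/

set_option autoImplicit false

noncomputable section

namespace Fermat.Agent.S22.helper1222

open Complex Filter Topology ModularForm Derivative
open UpperHalfPlane hiding I
open scoped Real MatrixGroups Manifold

open Fermat.Agent.S22.helper322

variable {F : Type*} [FunLike F ℍ ℂ] {Γ : Subgroup (GL (Fin 2) ℝ)} {k : ℤ} {h : ℝ}

/-- The normalised `j`-fold Eichler integral on `ℍ`: `D (eichH h f (j+1)) = eichH h f j` and
`eichH h f 0 = f`. -/
def eichH (h : ℝ) (f : ℍ → ℂ) (j : ℕ) : ℍ → ℂ :=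
  fun τ => (2 * π * I) ^ j * eichlerOf h f j τ

lemma two_pi_I_ne_zero' : (2 * (π : ℂ) * I) ≠ 0 := by
  simp [Real.pi_ne_zero]

lemma eichH_comp_ofComplex_eventuallyEq (h : ℝ) (f : ℍ → ℂ) (j : ℕ) (τ : ℍ) :
    (eichH h f j ∘ ofComplex) =ᶠ[𝓝 (τ : ℂ)] fun w => (2 * π * I) ^ j * eichlerOf h f j w := by
  filter_upwards [isOpen_upperHalfPlaneSet.mem_nhds τ.im_pos] with w hw
  simp [eichH, Function.comp_apply, ofComplex_apply_of_im_pos hw]

theorem eichH_zero [ModularFormClass F Γ k] (f : F) (hh : 0 < h) (hΓ : h ∈ Γ.strictPeriods) :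
    eichH h f 0 = f := by
  funext τ
  simp only [eichH, pow_zero, one_mul]
  exact eichlerOf_zero f hh hΓ τ.im_pos

theorem D_eichH [CuspFormClass F Γ k] (f : F) (hh : 0 < h) (hΓ : h ∈ Γ.strictPeriods) (j : ℕ) :
    D (eichH h f (j + 1)) = eichH h f j := by
  funext τ
  have h1 := (hasDerivAt_eichlerOf f hh hΓ j τ.im_pos).const_mul ((2 * π * I) ^ (j + 1))
  have h2 := eichH_comp_ofComplex_eventuallyEq h f (j + 1) τ
  simp only [normalizedDerivOfComplex]
  rw [h2.deriv_eq, h1.deriv]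
  simp only [eichH]
  have := two_pi_I_ne_zero'
  field_simp
  ring

theorem mdiff_eichH [CuspFormClass F Γ k] (f : F) (hh : 0 < h) (hΓ : h ∈ Γ.strictPeriods)
    (j : ℕ) : MDiff (eichH h f j) := by
  rcases j with _ | j
  · rw [eichH_zero f hh hΓ]
    exact CuspFormClass.holo f
  · intro τ
    rw [UpperHalfPlane.mdifferentiableAt_iff]
    have h1 := (hasDerivAt_eichlerOf f hh hΓ j τ.im_pos).const_mul ((2 * π * I) ^ (j + 1))
    exact (h1.differentiableAt).congr_of_eventuallyEq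
      (eichH_comp_ofComplex_eventuallyEq h f (j + 1) τ)

theorem iterate_D_eichH [CuspFormClass F Γ k] (f : F) (hh : 0 < h) (hΓ : h ∈ Γ.strictPeriods)
    (n : ℕ) : D^[n] (eichH h f n) = f := by
  induction n with
  | zero => simpa using eichH_zero f hh hΓ
  | succ n ih => rw [Function.iterate_succ_apply, D_eichH f hh hΓ, ih]

theorem isZeroAtImInfty_eichH [CuspFormClass F Γ k] (f : F) (hh : 0 < h)
    (hΓ : h ∈ Γ.strictPeriods) (j : ℕ) : IsZeroAtImInfty (eichH h f j) := by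
  have h1 := (tendsto_eichlerOf_zero f hh hΓ j).comp tendsto_coe_atImInfty
  have h2 := h1.const_mul ((2 * π * I) ^ j)
  rw [mul_zero] at h2
  exact h2

theorem eichH_add (f g : CuspForm Γ k) (hh : 0 < h) (hΓ : h ∈ Γ.strictPeriods) (j : ℕ) :
    eichH h (⇑(f + g)) j = eichH h f j + eichH h g j := by
  funext τ
  simp only [eichH, Pi.add_apply, eichlerOf_add f g hh hΓ j τ.im_pos]
  ring

theorem eichH_smul [Γ.HasDetOne] (a : ℂ) (f : CuspForm Γ k) (hh : 0 < h)
    (hΓ : h ∈ Γ.strictPeriods) (j : ℕ) :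
    eichH h (⇑(a • f)) j = a • eichH h f j := by
  funext τ
  simp only [eichH, Pi.smul_apply, smul_eq_mul, eichlerOf_smul a f hh hΓ j]
  ring

/-- `eichH` is periodic with period `h`. -/
theorem eichH_vadd (h : ℝ) (f : ℍ → ℂ) (j : ℕ) (τ : ℍ) :
    eichH h f j (h +ᵥ τ) = eichH h f j τ := by
  simp only [eichH]
  congr 1
  have := eichlerOf_periodic h f j (τ : ℂ)
  rw [← this]
  congr 1
  simp [add_comm]

/-! ### Uniqueness: a holomorphic function killed by `D^[n]` and vanishing at `i∞` is zero -/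

lemma polynomial_eq_zero_of_tendsto_imAxis {P : Polynomial ℂ}
    (hP : Tendsto (fun y : ℝ => P.eval ((y : ℂ) * I)) atTop (𝓝 0)) : P = 0 := by
  by_cases hdeg : 0 < P.degree
  · exfalso
    have h1 : Tendsto (fun y : ℝ => ‖(y : ℂ) * I‖) atTop atTop := by
      have : (fun y : ℝ => ‖(y : ℂ) * I‖) = fun y : ℝ => |y| := by
        funext y; simp
      rw [this]
      exact tendsto_abs_atTop_atTop
    have h2 := P.tendsto_norm_atTop hdeg h1
    have h3 := tendsto_zero_iff_norm_tendsto_zero.mp hP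
    exact not_tendsto_atTop_of_tendsto_nhds h3 h2
  · have hC : P = Polynomial.C (P.coeff 0) := Polynomial.eq_C_of_degree_le_zero (not_lt.mp hdeg)
    rw [hC] at hP
    simp only [Polynomial.eval_C] at hP
    have h0 : P.coeff 0 = 0 := tendsto_nhds_unique tendsto_const_nhds hP
    rw [hC, h0, Polynomial.C_0]

lemma tendsto_ofComplex_imAxis :
    Tendsto (fun y : ℝ => ofComplex ((y : ℂ) * I)) atTop atImInfty := by
  refine tendsto_comap_im_ofComplex.comp ?_
  rw [tendsto_comap_iff]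
  have : (Complex.im ∘ fun y : ℝ => (y : ℂ) * I) = id := by
    funext y; simp
  rw [this]
  exact tendsto_id

lemma polyFun_eq_zero_of_isZeroAtImInfty {P : Polynomial ℂ}
    (h0 : IsZeroAtImInfty (polyFun P)) : P = 0 := by
  apply polynomial_eq_zero_of_tendsto_imAxis
  have h1 : Tendsto (fun y : ℝ => polyFun P (ofComplex ((y : ℂ) * I))) atTop (𝓝 0) :=
    Tendsto.comp h0 tendsto_ofComplex_imAxis
  refine h1.congr' ?_
  filter_upwards [eventually_gt_atTop (0 : ℝ)] with y hy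
  have hy' : 0 < ((y : ℂ) * I).im := by simpa using hy
  rw [polyFun_apply, ofComplex_apply_of_im_pos hy']

theorem eq_zero_of_iterate_D_eq_zero_of_isZeroAtImInfty (n : ℕ) {G : ℍ → ℂ} (hG : MDiff G)
    (hD : D^[n] G = 0) (h0 : IsZeroAtImInfty G) : G = 0 := by
  obtain ⟨P, -, rfl⟩ := exists_polynomial_of_iterate_D_eq_zero n hG hD
  have hP : P = 0 := polyFun_eq_zero_of_isZeroAtImInfty h0
  subst hP
  funext z
  simp [polyFun_apply]

/-! ### Hecke compatibility -/

section Hecke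

variable {p : ℕ}

lemma heckeMatrix_val_det (hp : p ≠ 0) (j : ℕ) : (heckeMatrix p j).val.det = (p : ℝ) := by
  rw [← Matrix.GeneralLinearGroup.val_det_apply]
  exact det_heckeMatrix hp j

lemma heckeDiagMatrix_val_det (hp : p ≠ 0) : (heckeDiagMatrix p).val.det = (p : ℝ) := by
  rw [← Matrix.GeneralLinearGroup.val_det_apply]
  exact det_heckeDiagMatrix hp

lemma mdiff_sum {ι : Type*} (s : Finset ι) (G : ι → ℍ → ℂ) (hG : ∀ i ∈ s, MDiff (G i)) :
    MDiff (∑ i ∈ s, G i) := by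
  classical
  induction s using Finset.induction_on with
  | empty =>
    simp only [Finset.sum_empty]
    exact mdifferentiable_const (c := (0 : ℂ))
  | insert a s ha ih =>
    rw [Finset.sum_insert ha]
    exact (hG a (Finset.mem_insert_self a s)).add
      (ih fun i hi => hG i (Finset.mem_insert_of_mem hi))

lemma iterate_D_sum {ι : Type*} (s : Finset ι) (G : ι → ℍ → ℂ) (hG : ∀ i ∈ s, MDiff (G i))
    (n : ℕ) : D^[n] (∑ i ∈ s, G i) = ∑ i ∈ s, D^[n] (G i) := by
  classical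
  induction s using Finset.induction_on with
  | empty => simp [iterate_D_zero]
  | insert a s ha ih =>
    rw [Finset.sum_insert ha, Finset.sum_insert ha,
      iterate_D_add (hG a (Finset.mem_insert_self a s))
        (mdiff_sum s G fun i hi => hG i (Finset.mem_insert_of_mem hi)),
      ih fun i hi => hG i (Finset.mem_insert_of_mem hi)]

lemma iterate_D_slash_heckeMatrix (hp : p ≠ 0) (j n : ℕ) {G : ℍ → ℂ} (hG : MDiff G) :
    D^[n] (G ∣[(1 : ℤ) - n] heckeMatrix p j) =
      ((p : ℂ)⁻¹) ^ n • (D^[n] G ∣[(n : ℤ) + 1] heckeMatrix p j) := by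
  have hdet : 0 < (heckeMatrix p j).val.det := by
    rw [heckeMatrix_val_det hp]; exact_mod_cast Nat.pos_of_ne_zero hp
  rw [bol_identity hdet n hG, heckeMatrix_val_det hp]
  funext z
  simp

lemma iterate_D_slash_heckeDiagMatrix (hp : p ≠ 0) (n : ℕ) {G : ℍ → ℂ} (hG : MDiff G) :
    D^[n] (G ∣[(1 : ℤ) - n] heckeDiagMatrix p) =
      ((p : ℂ)⁻¹) ^ n • (D^[n] G ∣[(n : ℤ) + 1] heckeDiagMatrix p) := by
  have hdet : 0 < (heckeDiagMatrix p).val.det := by
    rw [heckeDiagMatrix_val_det hp]; exact_mod_cast Nat.pos_of_ne_zero hp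
  rw [bol_identity hdet n hG, heckeDiagMatrix_val_det hp]
  funext z
  simp

lemma iterate_D_heckeU (hp : p ≠ 0) (n : ℕ) {G : ℍ → ℂ} (hG : MDiff G) :
    D^[n] (heckeU ((1 : ℤ) - n) p G) = ((p : ℂ)⁻¹) ^ n • heckeU ((n : ℤ) + 1) p (D^[n] G) := by
  rw [heckeU_def, heckeU_def, iterate_D_sum _ _ (fun j _ => hG.slash _ _), Finset.smul_sum]
  exact Finset.sum_congr rfl fun j _ => iterate_D_slash_heckeMatrix hp j n hG

lemma iterate_D_heckeT (hp : p ≠ 0) (n : ℕ) {G : ℍ → ℂ} (hG : MDiff G) :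
    D^[n] (heckeT ((1 : ℤ) - n) p G) = ((p : ℂ)⁻¹) ^ n • heckeT ((n : ℤ) + 1) p (D^[n] G) := by
  rw [heckeT_eq_heckeU_add, heckeT_eq_heckeU_add,
    iterate_D_add (mdifferentiable_heckeU hG _ _) (hG.slash _ _), iterate_D_heckeU hp n hG,
    iterate_D_slash_heckeDiagMatrix hp n hG, smul_add]

lemma isZeroAtImInfty_sum {ι : Type*} (s : Finset ι) (G : ι → ℍ → ℂ)
    (hG : ∀ i ∈ s, IsZeroAtImInfty (G i)) : IsZeroAtImInfty (∑ i ∈ s, G i) := by
  classical
  induction s using Finset.induction_on with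
  | empty =>
    simp only [Finset.sum_empty]
    exact tendsto_const_nhds
  | insert a s ha ih =>
    rw [Finset.sum_insert ha]
    have h1 : Tendsto (G a) atImInfty (𝓝 0) := hG a (Finset.mem_insert_self a s)
    have h2 : Tendsto (∑ i ∈ s, G i) atImInfty (𝓝 0) :=
      ih fun i hi => hG i (Finset.mem_insert_of_mem hi)
    have h3 := h1.add h2
    rw [add_zero] at h3
    exact h3

lemma isZeroAtImInfty_heckeU' (hp : p ≠ 0) (k : ℤ) {G : ℍ → ℂ} (hG : IsZeroAtImInfty G) :
    IsZeroAtImInfty (heckeU k p G) := by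
  rw [heckeU_def]
  refine isZeroAtImInfty_sum _ _ fun j _ => IsZeroAtImInfty.slash k ?_ hG
  simp [val_heckeMatrix hp]

lemma isZeroAtImInfty_heckeT' (hp : p ≠ 0) (k : ℤ) {G : ℍ → ℂ} (hG : IsZeroAtImInfty G) :
    IsZeroAtImInfty (heckeT k p G) := by
  rw [heckeT_eq_heckeU_add]
  have h1 : Tendsto (heckeU k p G) atImInfty (𝓝 0) := isZeroAtImInfty_heckeU' hp k hG
  have h2 : Tendsto (G ∣[k] heckeDiagMatrix p) atImInfty (𝓝 0) :=
    IsZeroAtImInfty.slash k (by simp [val_heckeDiagMatrix hp]) hG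
  have h3 := h1.add h2
  rw [add_zero] at h3
  exact h3

lemma isZeroAtImInfty_smul (a : ℂ) {G : ℍ → ℂ} (hG : IsZeroAtImInfty G) :
    IsZeroAtImInfty (a • G) := by
  have h1 : Tendsto G atImInfty (𝓝 0) := hG
  have h2 := h1.const_mul a
  rw [mul_zero] at h2
  exact h2

lemma isZeroAtImInfty_sub {G₁ G₂ : ℍ → ℂ} (h₁ : IsZeroAtImInfty G₁) (h₂ : IsZeroAtImInfty G₂) :
    IsZeroAtImInfty (G₁ - G₂) := by
  have h1 : Tendsto G₁ atImInfty (𝓝 0) := h₁
  have h2 : Tendsto G₂ atImInfty (𝓝 0) := h₂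
  have h3 := h1.sub h2
  rw [sub_zero] at h3
  exact h3

/-- Abstract Hecke compatibility of decaying `D^[n]`-primitives (operator `T_p`). -/
theorem eq_smul_heckeT_of_iterate_D (hp : p ≠ 0) (n : ℕ) {E E' f : ℍ → ℂ}
    (hE : MDiff E) (hE' : MDiff E') (h0 : IsZeroAtImInfty E) (h0' : IsZeroAtImInfty E')
    (hD : D^[n] E = f) (hD' : D^[n] E' = heckeT ((n : ℤ) + 1) p f) :
    E' = (p : ℂ) ^ n • heckeT ((1 : ℤ) - n) p E := by
  have hpC : (p : ℂ) ≠ 0 := by exact_mod_cast hp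
  have hT : MDiff (heckeT ((1 : ℤ) - n) p E) := mdifferentiable_heckeT hE _ _
  have hR : MDiff ((p : ℂ) ^ n • heckeT ((1 : ℤ) - n) p E) := hT.const_smul _
  rw [← sub_eq_zero]
  apply eq_zero_of_iterate_D_eq_zero_of_isZeroAtImInfty n (hE'.sub hR)
  · rw [iterate_D_sub hE' hR, iterate_D_smul _ hT, iterate_D_heckeT hp n hE, hD, hD', smul_smul,
      ← mul_pow, mul_inv_cancel₀ hpC, one_pow, one_smul, sub_self]
  · exact isZeroAtImInfty_sub h0' (isZeroAtImInfty_smul _ (isZeroAtImInfty_heckeT' hp _ h0))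

/-- Abstract Hecke compatibility of decaying `D^[n]`-primitives (operator `U_p`). -/
theorem eq_smul_heckeU_of_iterate_D (hp : p ≠ 0) (n : ℕ) {E E' f : ℍ → ℂ}
    (hE : MDiff E) (hE' : MDiff E') (h0 : IsZeroAtImInfty E) (h0' : IsZeroAtImInfty E')
    (hD : D^[n] E = f) (hD' : D^[n] E' = heckeU ((n : ℤ) + 1) p f) :
    E' = (p : ℂ) ^ n • heckeU ((1 : ℤ) - n) p E := by
  have hpC : (p : ℂ) ≠ 0 := by exact_mod_cast hp
  have hT : MDiff (heckeU ((1 : ℤ) - n) p E) := mdifferentiable_heckeU hE _ _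
  have hR : MDiff ((p : ℂ) ^ n • heckeU ((1 : ℤ) - n) p E) := hT.const_smul _
  rw [← sub_eq_zero]
  apply eq_zero_of_iterate_D_eq_zero_of_isZeroAtImInfty n (hE'.sub hR)
  · rw [iterate_D_sub hE' hR, iterate_D_smul _ hT, iterate_D_heckeU hp n hE, hD, hD', smul_smul,
      ← mul_pow, mul_inv_cancel₀ hpC, one_pow, one_smul, sub_self]
  · exact isZeroAtImInfty_sub h0' (isZeroAtImInfty_smul _ (isZeroAtImInfty_heckeU' hp _ h0))

open CongruenceSubgroup in
/-- **Hecke compatibility** of the Eichler integral, `T_p` (`p ∤ N`), weight `k = n + 1`. -/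
theorem eichH_heckeTLin {N : ℕ} {k : ℤ} (n : ℕ) (hk : k = (n : ℤ) + 1)
    (hp : p.Prime) (hpN : ¬ p ∣ N) (f : CuspForm (Gamma0 N) k) :
    eichH 1 (⇑(CuspForm.heckeTLin k hp hpN f)) n =
      (p : ℂ) ^ n • heckeT ((1 : ℤ) - n) p (eichH 1 (⇑f) n) := by
  subst hk
  have hΓ := one_mem_strictPeriods_Gamma0 N
  exact eq_smul_heckeT_of_iterate_D hp.ne_zero n (mdiff_eichH f one_pos hΓ n)
    (mdiff_eichH _ one_pos hΓ n) (isZeroAtImInfty_eichH f one_pos hΓ n)
    (isZeroAtImInfty_eichH _ one_pos hΓ n) (iterate_D_eichH f one_pos hΓ n)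
    ((iterate_D_eichH _ one_pos hΓ n).trans (CuspForm.coe_heckeTLin_apply _ hp hpN f))

open CongruenceSubgroup in
/-- **Hecke compatibility** of the Eichler integral, `U_p` (`p ∣ N`), weight `k = n + 1`. -/
theorem eichH_heckeULin {N : ℕ} [NeZero N] {k : ℤ} (n : ℕ) (hk : k = (n : ℤ) + 1)
    (hp : p ≠ 0) (hpN : p ∣ N) (f : CuspForm (Gamma0 N) k) :
    eichH 1 (⇑(CuspForm.heckeULin k hpN f)) n =
      (p : ℂ) ^ n • heckeU ((1 : ℤ) - n) p (eichH 1 (⇑f) n) := by
  subst hk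
  have hΓ := one_mem_strictPeriods_Gamma0 N
  exact eq_smul_heckeU_of_iterate_D hp n (mdiff_eichH f one_pos hΓ n)
    (mdiff_eichH _ one_pos hΓ n) (isZeroAtImInfty_eichH f one_pos hΓ n)
    (isZeroAtImInfty_eichH _ one_pos hΓ n) (iterate_D_eichH f one_pos hΓ n)
    ((iterate_D_eichH _ one_pos hΓ n).trans (CuspForm.coe_heckeULin_apply _ hpN f))

end Hecke

/-! ### Separation: an invariant Eichler integral forces the cusp form to vanish -/

section Sep

open ConjAct Pointwise OnePoint Matrix.SpecialLinearGroup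

lemma polynomial_eq_C_of_periodic {P : Polynomial ℂ} {M : ℝ} (hM : 0 < M)
    (hper : ∀ τ : ℍ, P.eval (((M +ᵥ τ : ℍ)) : ℂ) = P.eval (τ : ℂ)) :
    P = Polynomial.C (P.eval I) := by
  have hroot : ∀ j : ℕ, P.eval (I + (j : ℂ) * M) = P.eval I := by
    intro j
    induction j with
    | zero => simp
    | succ j ih =>
      have him : 0 < (I + (j : ℂ) * M).im := by simp
      have h1 := hper ⟨I + (j : ℂ) * M, him⟩
      rw [UpperHalfPlane.coe_vadd] at h1
      rw [← ih, ← h1]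
      congr 1
      push_cast
      ring
  have h0 : P - Polynomial.C (P.eval I) = 0 := by
    apply Polynomial.eq_zero_of_infinite_isRoot
    refine Set.infinite_of_injective_forall_mem (f := fun j : ℕ => I + (j : ℂ) * M) ?_ ?_
    · intro a b hab
      have hM' : (M : ℂ) ≠ 0 := by exact_mod_cast hM.ne'
      have h2 : (a : ℂ) * M = (b : ℂ) * M := add_left_cancel hab
      exact_mod_cast mul_right_cancel₀ hM' h2
    · intro j
      simp [Polynomial.IsRoot, hroot j]
  exact sub_eq_zero.mp h0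

/-- If the Eichler integral `eichH h f n` of a cusp form of weight `n + 1` is slash-invariant of
weight `1 - n` under `Γ`, then it is bounded at every cusp. -/
theorem isBoundedAtImInfty_slash_of_invariant [Γ.IsArithmetic] (f : CuspForm Γ k) (n : ℕ)
    (hk : k = (n : ℤ) + 1) (hh : 0 < h) (hΓ : h ∈ Γ.strictPeriods)
    (hinv : ∀ γ ∈ Γ, eichH h (⇑f) n ∣[(1 : ℤ) - n] γ = eichH h (⇑f) n) (g : SL(2, ℤ)) :
    IsBoundedAtImInfty (eichH h (⇑f) n ∣[(1 : ℤ) - n] (mapGL ℝ g)) := by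
  subst hk
  obtain ⟨M, hM0, hM⟩ := Subgroup.IsArithmetic.exists_nat_mem_strictPeriods_conj Γ
  have hMg := hM g⁻¹
  have hMper : (M : ℝ) ∈ (toConjAct (mapGL ℝ g)⁻¹ • Γ).strictPeriods := by
    simpa [map_inv] using hMg
  have hM0' : (0 : ℝ) < M := by exact_mod_cast hM0
  have hE : MDiff (eichH h (⇑f) n) := mdiff_eichH f hh hΓ n
  have hE' : MDiff (eichH M (⇑(CuspForm.translate f (mapGL ℝ g))) n) :=
    mdiff_eichH (CuspForm.translate f (mapGL ℝ g)) hM0' hMper n
  have hG : MDiff (eichH h (⇑f) n ∣[(1 : ℤ) - n] (mapGL ℝ g)) := hE.slash _ _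
  have hdet : (mapGL ℝ g : GL (Fin 2) ℝ).val.det = 1 := by
    rw [← Matrix.GeneralLinearGroup.val_det_apply]
    simp
  have hDR : D^[n] (eichH h (⇑f) n ∣[(1 : ℤ) - n] (mapGL ℝ g) -
      eichH M (⇑(CuspForm.translate f (mapGL ℝ g))) n) = 0 := by
    rw [iterate_D_sub hG hE', bol_identity (by rw [hdet]; exact one_pos) n hE, hdet,
      iterate_D_eichH f hh hΓ n, iterate_D_eichH _ hM0' hMper n]
    have hcoe : (⇑(CuspForm.translate f (mapGL ℝ g)) : ℍ → ℂ) =
        ⇑f ∣[(n : ℤ) + 1] (mapGL ℝ g) := rfl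
    rw [hcoe]
    funext z
    simp
  obtain ⟨P, -, hP⟩ := exists_polynomial_of_iterate_D_eq_zero n (hG.sub hE') hDR
  have hper : ∀ τ : ℍ, P.eval ((((M : ℝ) +ᵥ τ : ℍ)) : ℂ) = P.eval (τ : ℂ) := by
    intro τ
    have h1 := congrFun hP ((M : ℝ) +ᵥ τ)
    have h2 := congrFun hP τ
    simp only [polyFun_apply, Pi.sub_apply] at h1 h2
    rw [← h1, ← h2]
    have e1 : (eichH h (⇑f) n ∣[(1 : ℤ) - n] (mapGL ℝ g)) ((M : ℝ) +ᵥ τ) =
        (eichH h (⇑f) n ∣[(1 : ℤ) - n] (mapGL ℝ g)) τ :=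
      SlashInvariantForm.vAdd_apply_of_mem_strictPeriods
        (SlashInvariantForm.translate (⟨eichH h (⇑f) n, hinv⟩ : SlashInvariantForm Γ ((1 : ℤ) - n))
          (mapGL ℝ g)) τ hMper
    rw [e1, eichH_vadd]
  have hPC := polynomial_eq_C_of_periodic hM0' hper
  have hEq : eichH h (⇑f) n ∣[(1 : ℤ) - n] (mapGL ℝ g) =
      eichH M (⇑(CuspForm.translate f (mapGL ℝ g))) n + fun _ => P.eval I := by
    funext τ
    have h2 := congrFun hP τ
    simp only [polyFun_apply, Pi.sub_apply] at h2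
    rw [hPC] at h2
    simp only [Polynomial.eval_C] at h2
    simp only [Pi.add_apply]
    linear_combination h2
  rw [hEq]
  exact (isZeroAtImInfty_eichH (CuspForm.translate f (mapGL ℝ g)) hM0' hMper n).isBoundedAtImInfty.add
    (Filter.const_boundedAtFilter _ _)

/-- **Separation**: if the Eichler integral of a cusp form `f` of weight `n + 1 ≥ 2` on an
arithmetic group `Γ` is slash-invariant of weight `1 - n` under `Γ`, then `f = 0`. -/
theorem eq_zero_of_slash_invariant_eichH [Γ.IsArithmetic] (f : CuspForm Γ k) (n : ℕ) (hn : 1 ≤ n)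
    (hk : k = (n : ℤ) + 1) (hh : 0 < h) (hΓ : h ∈ Γ.strictPeriods)
    (hinv : ∀ γ ∈ Γ, eichH h (⇑f) n ∣[(1 : ℤ) - n] γ = eichH h (⇑f) n) : f = 0 := by
  have hbdd := fun g => isBoundedAtImInfty_slash_of_invariant f n hk hh hΓ hinv g
  have hE0 : eichH h (⇑f) n = 0 := by
    rcases Nat.lt_or_ge 1 n with h2 | h1
    · let Em : ModularForm Γ ((1 : ℤ) - n) :=
        { toFun := eichH h (⇑f) n
          slash_action_eq' := hinv
          holo' := mdiff_eichH f hh hΓ n
          bdd_at_cusps' := fun {c} hc => by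
            rw [OnePoint.isBoundedAt_iff_forall_SL2Z
              ((Subgroup.IsArithmetic.isCusp_iff_isCusp_SL2Z Γ).mp hc)]
            intro γ _
            exact hbdd γ }
      have hz := ModularForm.isZero_of_neg_weight (by omega : (1 : ℤ) - n < 0) Em
      have h3 : (⇑Em : ℍ → ℂ) = eichH h (⇑f) n := rfl
      rw [← h3, hz]
      rfl
    · obtain rfl : n = 1 := by omega
      have h0 : ((1 : ℤ) - ((1 : ℕ) : ℤ)) = 0 := by norm_num
      rw [h0] at hinv hbdd
      let Em : ModularForm Γ 0 :=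
        { toFun := eichH h (⇑f) 1
          slash_action_eq' := hinv
          holo' := mdiff_eichH f hh hΓ 1
          bdd_at_cusps' := fun {c} hc => by
            rw [OnePoint.isBoundedAt_iff_forall_SL2Z
              ((Subgroup.IsArithmetic.isCusp_iff_isCusp_SL2Z Γ).mp hc)]
            intro γ _
            exact hbdd γ }
      obtain ⟨c, hc⟩ := ModularForm.eq_const_of_weight_zero Em
      have h3 : (⇑Em : ℍ → ℂ) = eichH h (⇑f) 1 := rfl
      rw [h3] at hc
      have hz : Tendsto (eichH h (⇑f) 1) atImInfty (𝓝 0) := isZeroAtImInfty_eichH f hh hΓ 1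
      rw [hc] at hz ⊢
      have hc0 : c = 0 := tendsto_nhds_unique tendsto_const_nhds hz
      rw [hc0]
      rfl
  apply DFunLike.coe_injective
  rw [← iterate_D_eichH f hh hΓ n, hE0, iterate_D_zero]
  rfl

end Sep

end Fermat.Agent.S22.helper1222

end
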