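import Mathlib

set_option autoImplicit false

open UpperHalfPlane Function Filter
open scoped ModularForm MatrixGroups Manifold Topology Real

namespace Fermat.Agent.S22.helper1282

open Derivative

theorem iter_D_mdiff {F : ℍ → ℂ} (hF : MDiff F) (n : ℕ) : MDiff (D^[n] F) := by
  induction n with
  | zero => simpa using hF
  | succ n ih =>
    rw [Function.iterate_succ_apply']
    exact normalizedDerivOfComplex_mdifferentiable ih

theorem iter_D_add {F G : ℍ → ℂ} (hF : MDiff F) (hG : MDiff G) (n : ℕ) :
    D^[n] (F + G) = D^[n] F + D^[n] G := by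
  induction n with
  | zero => simp
  | succ n ih =>
    rw [Function.iterate_succ_apply', Function.iterate_succ_apply', Function.iterate_succ_apply',
      ih, normalizedDerivOfComplex_add _ _ (iter_D_mdiff hF n) (iter_D_mdiff hG n)]

theorem iter_D_smul (c : ℂ) {F : ℍ → ℂ} (hF : MDiff F) (n : ℕ) :
    D^[n] (c • F) = c • D^[n] F := by
  induction n with
  | zero => simp
  | succ n ih =>
    rw [Function.iterate_succ_apply', Function.iterate_succ_apply',
      ih, normalizedDerivOfComplex_smul _ _ (iter_D_mdiff hF n)]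

theorem mdiff_smul (c : ℂ) {F : ℍ → ℂ} (hF : MDiff F) : MDiff (c • F) := by
  have : (c • F) = fun τ => c * F τ := by ext; simp
  rw [this]
  exact mdifferentiable_const.mul hF

theorem iter_D_sub {F G : ℍ → ℂ} (hF : MDiff F) (hG : MDiff G) (n : ℕ) :
    D^[n] (F - G) = D^[n] F - D^[n] G := by
  induction n with
  | zero => simp
  | succ n ih =>
    rw [Function.iterate_succ_apply', Function.iterate_succ_apply', Function.iterate_succ_apply',
      ih, normalizedDerivOfComplex_sub _ _ (iter_D_mdiff hF n) (iter_D_mdiff hG n)]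

theorem D_zero : D (0 : ℍ → ℂ) = 0 := by
  have := normalizedDerivOfComplex_const 0
  exact this

theorem iter_D_zero (n : ℕ) : D^[n] (0 : ℍ → ℂ) = 0 := by
  induction n with
  | zero => simp
  | succ n ih => rw [Function.iterate_succ_apply', ih, D_zero]

theorem iter_D_const (c : ℂ) (n : ℕ) : D^[n + 1] (fun _ : ℍ => c) = 0 := by
  rw [Function.iterate_succ_apply, normalizedDerivOfComplex_const]
  exact iter_D_zero n

theorem two_pi_I_ne_zero' : (2 * π * Complex.I : ℂ) ≠ 0 := by simp [Real.pi_ne_zero]

/-- A holomorphic function on `ℍ` with vanishing derivative is constant. -/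
theorem const_of_D_eq_zero {G : ℍ → ℂ} (hG : MDiff G) (h : D G = 0) :
    ∃ c : ℂ, G = fun _ => c := by
  have hd : DifferentiableOn ℂ (G ∘ ofComplex) {z | 0 < z.im} :=
    UpperHalfPlane.mdifferentiable_iff.mp hG
  have hconv : Convex ℝ {z : ℂ | 0 < z.im} := convex_halfSpace_im_gt 0
  have hderiv : Set.EqOn (deriv (G ∘ ofComplex)) 0 {z | 0 < z.im} := by
    intro z hz
    have h1 := congrFun h ⟨z, hz⟩
    simp only [normalizedDerivOfComplex, Pi.zero_apply] at h1
    rcases mul_eq_zero.mp h1 with h1 | h1
    · exact absurd (inv_eq_zero.mp h1) two_pi_I_ne_zero'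
    · simpa using h1
  refine ⟨G I, funext fun τ => ?_⟩
  have := IsOpen.is_const_of_deriv_eq_zero isOpen_upperHalfPlaneSet hconv.isPreconnected hd hderiv
    τ.2 UpperHalfPlane.I.2
  rw [comp_apply, comp_apply, ofComplex_apply, ofComplex_apply] at this
  exact this

theorem D_coe_mul (a : ℂ) : D (fun τ : ℍ => a * (τ : ℂ)) = fun _ => (2 * π * Complex.I)⁻¹ * a := by
  funext τ
  have h1 : HasDerivAt (fun z : ℂ => a * z) a (τ : ℂ) := by
    simpa using (hasDerivAt_id (τ : ℂ)).const_mul a
  have h2 : ((fun σ : ℍ => a * (σ : ℂ)) ∘ ofComplex) =ᶠ[𝓝 (τ : ℂ)] (fun z : ℂ => a * z) := by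
    filter_upwards [isOpen_upperHalfPlaneSet.mem_nhds τ.im_pos] with w hw
    simp [ofComplex_apply_of_im_pos hw]
  simp only [normalizedDerivOfComplex]
  rw [(h1.congr_of_eventuallyEq h2).deriv]

theorem mdiff_coe_mul (a : ℂ) : MDiff (fun τ : ℍ => a * (τ : ℂ)) :=
  mdifferentiable_const.mul mdifferentiable_coe

theorem periodic_D {N : ℝ} {R : ℍ → ℂ} (hper : Periodic (R ∘ ofComplex) N) :
    Periodic (D R ∘ ofComplex) N := by
  intro w
  by_cases hw : 0 < w.im
  · have hw' : 0 < (w + N).im := by simpa using hw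
    simp only [comp_apply, normalizedDerivOfComplex, ofComplex_apply_of_im_pos hw',
      ofComplex_apply_of_im_pos hw, UpperHalfPlane.coe_mk]
    congr 1
    have h1 : (fun x : ℂ => (R ∘ ofComplex) (x + N)) = R ∘ ofComplex := funext hper
    rw [← deriv_comp_add_const, h1]
  · have hw' : (w + N).im ≤ 0 := by simpa using not_lt.mp hw
    simp [ofComplex_apply_of_im_nonpos hw', ofComplex_apply_of_im_nonpos (not_lt.mp hw)]

/-- A periodic holomorphic function on `ℍ` killed by some power of `D` is constant. -/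
theorem const_of_iter_D_eq_zero_of_periodic {N : ℝ} (hN : N ≠ 0) :
    ∀ (n : ℕ) {R : ℍ → ℂ}, MDiff R → Periodic (R ∘ ofComplex) N → D^[n] R = 0 →
      ∃ c : ℂ, R = fun _ => c := by
  intro n
  induction n with
  | zero =>
    intro R _ _ h
    exact ⟨0, h⟩
  | succ n ih =>
    intro R hR hper h
    rw [Function.iterate_succ_apply] at h
    obtain ⟨c, hc⟩ := ih (normalizedDerivOfComplex_mdifferentiable hR) (periodic_D hper) h
    have hlin : MDiff (fun τ : ℍ => (2 * π * Complex.I * c) * (τ : ℂ)) := mdiff_coe_mul _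
    have h0 : D (R - fun τ : ℍ => (2 * π * Complex.I * c) * (τ : ℂ)) = 0 := by
      rw [normalizedDerivOfComplex_sub _ _ hR hlin, hc, D_coe_mul]
      funext τ
      have := two_pi_I_ne_zero'
      simp only [Pi.sub_apply, Pi.zero_apply]
      field_simp
      ring
    obtain ⟨b, hb⟩ := const_of_D_eq_zero (hR.sub hlin) h0
    have hRτ : ∀ τ : ℍ, R τ = 2 * π * Complex.I * c * (τ : ℂ) + b := by
      intro τ
      have := congrFun hb τ
      simp only [Pi.sub_apply] at this
      linear_combination this
    have hc0 : c = 0 := by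
      have h1 := hper (UpperHalfPlane.I : ℂ)
      have hI : 0 < ((UpperHalfPlane.I : ℂ) + N).im := by simp
      simp only [comp_apply, ofComplex_apply_of_im_pos hI, ofComplex_apply, hRτ] at h1
      have h2 : 2 * π * Complex.I * c * (N : ℂ) = 0 := by linear_combination h1
      have hNne : (N : ℂ) ≠ 0 := by exact_mod_cast hN
      have := two_pi_I_ne_zero'
      simpa [hNne, this] using h2
    refine ⟨b, funext fun τ => ?_⟩
    rw [hRτ τ, hc0]
    ring

end Fermat.Agent.S22.helper1282
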