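import Mathlib

set_option autoImplicit false

open UpperHalfPlane Function Filter
open scoped ModularForm MatrixGroups Manifold Topology Real

namespace Fermat.Agent.S22.helper1282

open Derivative

/-- Holomorphic `N`-periodic functions on the upper half plane that vanish at `i∞`. -/
structure PerZero (N : ℝ) (h : ℍ → ℂ) : Prop where
  mdiff : MDiff h
  per : Periodic (h ∘ ofComplex) N
  zero : IsZeroAtImInfty h

theorem comp_ofComplex_eventuallyEq (H : ℂ → ℂ) (τ : ℍ) :
    ((fun σ : ℍ => H σ) ∘ ofComplex) =ᶠ[𝓝 (τ : ℂ)] H := by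
  filter_upwards [isOpen_upperHalfPlaneSet.mem_nhds τ.im_pos] with w hw
  simp [ofComplex_apply_of_im_pos hw]

/-- Existence of a decaying `D`-primitive in the class `PerZero N`. -/
theorem exists_prim {N : ℝ} (hN : 0 < N) {h : ℍ → ℂ} (hh : PerZero N h) :
    ∃ H : ℍ → ℂ, PerZero N H ∧ D H = h := by
  set φ := cuspFunction N h with hφ
  have hφd : DifferentiableOn ℂ φ (Metric.ball 0 1) :=
    differentiableOn_cuspFunction_ball hN hh.per hh.mdiff hh.zero.isBoundedAtImInfty
  have hφ0 : φ 0 = 0 := hh.zero.cuspFunction_apply_zero hN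
  have hψd : DifferentiableOn ℂ (dslope φ 0) (Metric.ball 0 1) :=
    (Complex.differentiableOn_dslope (Metric.ball_mem_nhds 0 one_pos)).mpr hφd
  obtain ⟨Φ, hΦ0, hΦ⟩ := (hψd.const_mul (N : ℂ)).isExactOn_ball.with_val_at 0 0
  have hq : ∀ τ : ℍ, Periodic.qParam N τ ∈ Metric.ball (0 : ℂ) 1 := fun τ => by
    simpa using Periodic.norm_qParam_lt_one hN τ.im_pos
  have hqd : ∀ z : ℂ, HasDerivAt (Periodic.qParam N) (Periodic.qParam N z * (2 * π * Complex.I / N)) z := by
    intro z
    have h1 : HasDerivAt (fun z : ℂ => 2 * π * Complex.I * z / N) (2 * π * Complex.I / N) z := by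
      simpa using ((hasDerivAt_id z).const_mul (2 * π * Complex.I)).div_const (N : ℂ)
    exact h1.cexp
  have hder : ∀ τ : ℍ, HasDerivAt (fun z : ℂ => Φ (Periodic.qParam N z))
      ((2 * π * Complex.I) * h τ) τ := by
    intro τ
    have h2 := (hΦ _ (hq τ)).comp (τ : ℂ) (hqd τ)
    have hqne : Periodic.qParam N (τ : ℂ) ≠ 0 := Periodic.qParam_ne_zero _
    have hval : φ (Periodic.qParam N τ) = h τ := eq_cuspFunction τ hN.ne' hh.per
    have hNne : (N : ℂ) ≠ 0 := by exact_mod_cast hN.ne'
    have hval' : ((N : ℂ) * dslope φ 0 (Periodic.qParam N ↑τ)) *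
        (Periodic.qParam N ↑τ * (2 * ↑π * Complex.I / ↑N)) = (2 * π * Complex.I) * h τ := by
      simp only [dslope_of_ne _ hqne, slope, vsub_eq_sub, sub_zero, hφ0, smul_eq_mul]
      rw [← hval]
      field_simp
    rw [hval'] at h2
    exact h2
  refine ⟨fun τ => Φ (Periodic.qParam N τ), ⟨?_, ?_, ?_⟩, ?_⟩
  · rw [UpperHalfPlane.mdifferentiable_iff]
    intro z hz
    have := (hder ⟨z, hz⟩).differentiableAt
    exact (this.congr_of_eventuallyEq (comp_ofComplex_eventuallyEq _ ⟨z, hz⟩)).differentiableWithinAt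
  · intro w
    by_cases hw : 0 < w.im
    · have hw' : 0 < (w + N).im := by simpa using hw
      simp only [comp_apply, ofComplex_apply_of_im_pos hw', ofComplex_apply_of_im_pos hw]
      congr 1
      simp only [Periodic.qParam]
      have hNne : (N : ℂ) ≠ 0 := by exact_mod_cast hN.ne'
      rw [show 2 * π * Complex.I * (w + N) / N = 2 * π * Complex.I * w / N + 2 * π * Complex.I by
        field_simp, Complex.exp_add, Complex.exp_two_pi_mul_I, mul_one]
    · have hw' : (w + N).im ≤ 0 := by simpa using not_lt.mp hw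
      simp [ofComplex_apply_of_im_nonpos hw', ofComplex_apply_of_im_nonpos (not_lt.mp hw)]
  · have hc : ContinuousAt Φ 0 := (hΦ 0 (by simp)).continuousAt
    have := hc.tendsto.comp (qParam_tendsto_atImInfty hN)
    rw [hΦ0] at this
    exact this
  · funext τ
    have := (hder τ).congr_of_eventuallyEq (comp_ofComplex_eventuallyEq _ τ)
    simp only [normalizedDerivOfComplex]
    rw [this.deriv]
    have : (2 * π * Complex.I : ℂ) ≠ 0 := by simp [Real.pi_ne_zero]
    field_simp

end Fermat.Agent.S22.helper1282
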