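import Mathlib
import Fermat.Prelude.Def_CuspForm_HeckeAlgebra
import Fermat.Prelude.Thm_Subgroup_IsArithmetic_exists_nat_mem_strictPeriods_conj
import Fermat.Agent.S22.helper322_Bol
import Fermat.Agent.S22.helper1282_Prim
import Fermat.Agent.S22.helper1282_Deriv

set_option autoImplicit false

open UpperHalfPlane Function Filter CongruenceSubgroup
open scoped ModularForm MatrixGroups Manifold Topology Real Pointwise

namespace Fermat.Agent.S22.helper1282

open Derivative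

/-- Iterated decaying `D`-primitives in the class `PerZero N`. -/
theorem exists_iter_prim {N : ℝ} (hN : 0 < N) (n : ℕ) :
    ∀ {h : ℍ → ℂ}, PerZero N h → ∃ H : ℍ → ℂ, PerZero N H ∧ D^[n] H = h := by
  induction n with
  | zero => exact fun {h} hh => ⟨h, hh, rfl⟩
  | succ n ih =>
    intro h hh
    obtain ⟨H₁, hH₁, hD₁⟩ := ih hh
    obtain ⟨H, hH, hD⟩ := exists_prim hN hH₁
    exact ⟨H, hH, by rw [Function.iterate_succ_apply, hD, hD₁]⟩

section translate

variable {Γ : Subgroup (GL (Fin 2) ℝ)} {k : ℤ}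

/-- Slash translates of a slash-invariant function are periodic. -/
theorem periodic_slash_of_invariant {M : ℕ}
    (hM : ∀ γ : SL(2, ℤ), (M : ℝ) ∈ (ConjAct.toConjAct (Matrix.SpecialLinearGroup.mapGL ℝ γ) • Γ).strictPeriods)
    {F : ℍ → ℂ} (hinv : ∀ γ ∈ Γ, F ∣[k] γ = F) (g : SL(2, ℤ)) :
    Periodic ((F ∣[k] g) ∘ ofComplex) M := by
  let sif : SlashInvariantForm Γ k := { toFun := F, slash_action_eq' := hinv }
  have h1 := SlashInvariantFormClass.periodic_comp_ofComplex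
    (SlashInvariantForm.translate sif (Matrix.SpecialLinearGroup.mapGL ℝ g))
    (h := (M : ℝ)) (by simpa using hM g⁻¹)
  exact h1

end translate

theorem det_mapGL_pos (g : SL(2, ℤ)) :
    (0 : ℝ) < (Matrix.SpecialLinearGroup.mapGL ℝ g : GL (Fin 2) ℝ).val.det := by
  rw [← Matrix.GeneralLinearGroup.val_det_apply]
  simp

theorem det_mapGL_eq_one (g : SL(2, ℤ)) :
    (Matrix.SpecialLinearGroup.mapGL ℝ g : GL (Fin 2) ℝ).val.det = 1 := by
  rw [← Matrix.GeneralLinearGroup.val_det_apply]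
  simp

/-- Bol's identity for `SL(2, ℤ)`, in the weights we use. -/
theorem bol_SL {w : ℕ} {k : ℤ} (hk : k = w + 2) {F : ℍ → ℂ} (hF : MDiff F) (g : SL(2, ℤ)) :
    D^[w + 1] (F ∣[(-(w : ℤ))] g) = (D^[w + 1] F) ∣[k] g := by
  have h := helper322.bol_identity (det_mapGL_pos g) (w + 1) hF
  have e1 : (1 : ℤ) - ((w + 1 : ℕ) : ℤ) = -(w : ℤ) := by push_cast; ring
  have e2 : (((w + 1 : ℕ) : ℤ) + 1) = k := by rw [hk]; push_cast; ring
  rw [e1, e2] at h
  show D^[w + 1] (F ∣[(-(w : ℤ))] (Matrix.SpecialLinearGroup.mapGL ℝ g)) =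
    (D^[w + 1] F) ∣[k] (Matrix.SpecialLinearGroup.mapGL ℝ g)
  rw [h]
  funext z
  rw [det_mapGL_eq_one]
  simp

section sep

variable {N : ℕ} [NeZero N] {w : ℕ} {k : ℤ}

omit [NeZero N] in
theorem invariant_GL_of_SL {k' : ℤ} {F : ℍ → ℂ}
    (hinv : ∀ γ : SL(2, ℤ), γ ∈ Gamma0 N → F ∣[k'] γ = F) :
    ∀ γ ∈ (Gamma0 N : Subgroup (GL (Fin 2) ℝ)), F ∣[k'] γ = F := by
  rintro γ ⟨γ', hγ', rfl⟩
  exact hinv γ' hγ'

/-- If an `(w+1)`-fold `D`-primitive `F` of a cusp form `f` of weight `w + 2` is invariant of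
weight `-w` under `Γ₀(N)`, then all its `SL(2, ℤ)`-translates are bounded at `i∞`. -/
theorem isBoundedAtImInfty_slash_of_invariant (hk : k = w + 2)
    (f : CuspForm (Gamma0 N) k) {F : ℍ → ℂ} (hF : MDiff F) (hD : D^[w + 1] F = f)
    (hinv : ∀ γ : SL(2, ℤ), γ ∈ Gamma0 N → F ∣[(-(w : ℤ))] γ = F) (g : SL(2, ℤ)) :
    IsBoundedAtImInfty (F ∣[(-(w : ℤ))] g) := by
  obtain ⟨M, hMpos, hM⟩ := Subgroup.IsArithmetic.exists_nat_mem_strictPeriods_conj
    (Gamma0 N : Subgroup (GL (Fin 2) ℝ))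
  have hMR : (0 : ℝ) < M := by exact_mod_cast hMpos
  have hh : PerZero M ((f : ℍ → ℂ) ∣[k] g) :=
    ⟨(CuspFormClass.holo f).slash k _,
      periodic_slash_of_invariant hM
        (fun γ hγ => SlashInvariantFormClass.slash_action_eq f γ hγ) g,
      CuspFormClass.zero_at_infty_slash f g⟩
  obtain ⟨H, hH, hDH⟩ := exists_iter_prim hMR (w + 1) hh
  have hG : MDiff (F ∣[(-(w : ℤ))] g) := hF.slash _ _
  have hbol : D^[w + 1] (F ∣[(-(w : ℤ))] g) = (f : ℍ → ℂ) ∣[k] g := by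
    rw [bol_SL hk hF g, hD]
  have hR : D^[w + 1] (F ∣[(-(w : ℤ))] g - H) = 0 := by
    rw [iter_D_sub hG hH.mdiff, hbol, hDH, sub_self]
  have hper : Periodic ((F ∣[(-(w : ℤ))] g - H) ∘ ofComplex) M := by
    have h1 := periodic_slash_of_invariant hM (invariant_GL_of_SL hinv) g
    exact h1.sub hH.per
  obtain ⟨c, hc⟩ := const_of_iter_D_eq_zero_of_periodic hMR.ne' (w + 1) (hG.sub hH.mdiff) hper hR
  have hGeq : F ∣[(-(w : ℤ))] g = H + fun _ => c := by
    rw [← hc]; abel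
  rw [hGeq]
  exact hH.zero.isBoundedAtImInfty.add (Filter.const_boundedAtFilter _ c)

/-- A holomorphic function of weight `k' ≤ 0`, invariant under `Γ₀(N)` and bounded at all cusps,
is constant. -/
theorem const_of_invariant_of_bounded {k' : ℤ} (hk' : k' ≤ 0) {F : ℍ → ℂ} (hF : MDiff F)
    (hinv : ∀ γ : SL(2, ℤ), γ ∈ Gamma0 N → F ∣[k'] γ = F)
    (hbdd : ∀ g : SL(2, ℤ), IsBoundedAtImInfty (F ∣[k'] g)) : ∃ c : ℂ, F = fun _ => c := by
  let FM : ModularForm (Gamma0 N : Subgroup (GL (Fin 2) ℝ)) k' :=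
    { toFun := F
      slash_action_eq' := invariant_GL_of_SL hinv
      holo' := hF
      bdd_at_cusps' := fun {c} hc => by
        rw [OnePoint.isBoundedAt_iff_forall_SL2Z
          ((Subgroup.IsArithmetic.isCusp_iff_isCusp_SL2Z _).mp hc)]
        exact fun γ _ => hbdd γ }
  have h2 : (FM : ℍ → ℂ) = F := rfl
  rcases hk'.lt_or_eq with h | h
  · have := ModularForm.isZero_of_neg_weight h FM
    refine ⟨0, ?_⟩
    rw [← h2, this]
    rfl
  · subst h
    obtain ⟨c, hc⟩ := ModularForm.eq_const_of_weight_zero FM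
    exact ⟨c, hc⟩

/-- **Separation** (Eichler–Shimura injectivity): if an `(w+1)`-fold `D`-primitive `F` of a cusp
form `f` of weight `w + 2` on `Γ₀(N)` is invariant of weight `-w` under `Γ₀(N)`, then `f = 0`. -/
theorem sep_core (hk : k = w + 2) (f : CuspForm (Gamma0 N) k) {F : ℍ → ℂ} (hF : MDiff F)
    (hD : D^[w + 1] F = f)
    (hinv : ∀ γ : SL(2, ℤ), γ ∈ Gamma0 N → F ∣[(-(w : ℤ))] γ = F) : f = 0 := by
  obtain ⟨c, hc⟩ := const_of_invariant_of_bounded (by simp) hF hinv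
    (isBoundedAtImInfty_slash_of_invariant hk f hF hD hinv)
  have h0 : (f : ℍ → ℂ) = 0 := by rw [← hD, hc, iter_D_const]
  exact DFunLike.coe_injective h0

end sep

end Fermat.Agent.S22.helper1282
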