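import Mathlib
import Fermat.Prelude.Thm_ModularForm_sturm_bound_Gamma0
import Fermat.Prelude.Thm_Subgroup_IsArithmetic_exists_nat_mem_strictPeriods_conj
import Fermat.Prelude.Thm_CongruenceSubgroup_one_mem_strictPeriods_Gamma0
import Fermat.Agent.S22.helper322_Bol
import Fermat.Agent.S22.helper1222_EichlerSeries

set_option autoImplicit false

open UpperHalfPlane hiding I
open Real Complex Filter Topology
open scoped Manifold MatrixGroups ModularForm
open Derivative CongruenceSubgroup Matrix.SpecialLinearGroup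

namespace Fermat.Agent.S22.helper1642

open Fermat.Agent.S22.helper322 Fermat.Agent.S22.helper1222

noncomputable section

/-- A polynomial which is periodic (with a nonzero period) on the upper half plane is constant. -/
theorem eq_C_of_periodic {P : Polynomial ℂ} {M : ℕ} (hM : 0 < M)
    (hper : ∀ z : ℂ, 0 < z.im → P.eval (z + M) = P.eval z) :
    ∃ c : ℂ, P = Polynomial.C c := by
  refine ⟨P.eval Complex.I, ?_⟩
  have hval : ∀ n : ℕ, P.eval (Complex.I + n * M) = P.eval Complex.I := by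
    intro n
    induction n with
    | zero => simp
    | succ n ih =>
      have him : 0 < (Complex.I + n * M).im := by simp
      have := hper _ him
      rw [← ih, ← this]
      congr 1
      push_cast
      ring
  have hroot : (P - Polynomial.C (P.eval Complex.I)) = 0 := by
    refine Polynomial.eq_zero_of_infinite_isRoot _ ?_
    have hinf : (Set.range fun n : ℕ ↦ (Complex.I + n * M)).Infinite := by
      refine Set.infinite_range_of_injective fun a b hab ↦ ?_
      have hM' : (M : ℂ) ≠ 0 := by exact_mod_cast hM.ne'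
      have h1 : (a : ℂ) * M = b * M := by simpa using hab
      have h2 : (a : ℂ) = b := mul_right_cancel₀ hM' h1
      exact_mod_cast h2
    refine hinf.mono ?_
    rintro _ ⟨n, rfl⟩
    simp [Polynomial.IsRoot, hval n]
  exact sub_eq_zero.mp hroot

/-- The normalized derivative of the restriction to `ℍ` of a function on `ℂ` with a derivative. -/
theorem D_of_hasDerivAt {G g : ℂ → ℂ} (h : ∀ z : ℂ, 0 < z.im → HasDerivAt G (g z) z) :
    D (fun z : ℍ => G z) = fun z : ℍ => (2 * π * I)⁻¹ * g z := by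
  ext z
  have h2 : ((fun z : ℍ => G z) ∘ ofComplex) =ᶠ[𝓝 (z : ℂ)] G := by
    filter_upwards [isOpen_upperHalfPlaneSet.mem_nhds z.im_pos] with w hw
    simp [Function.comp_apply, ofComplex_apply_of_im_pos hw]
  simp only [normalizedDerivOfComplex]
  rw [h2.deriv_eq, (h z z.im_pos).deriv]

theorem mdiff_of_hasDerivAt {G g : ℂ → ℂ} (h : ∀ z : ℂ, 0 < z.im → HasDerivAt G (g z) z) :
    MDiff (fun z : ℍ => G z) := by
  rw [UpperHalfPlane.mdifferentiable_iff]
  have h1 : DifferentiableOn ℂ G {z : ℂ | 0 < z.im} :=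
    fun z hz => (h z hz).differentiableAt.differentiableWithinAt
  refine h1.congr ?_
  intro w hw
  simp [Function.comp_apply, ofComplex_apply_of_im_pos hw]


section chain

variable {F : Type*} [FunLike F ℍ ℂ] {Γ : Subgroup (GL (Fin 2) ℝ)} {k : ℤ}

/-- The iterated Eichler integral of a cusp form, as a function on `ℍ`, normalized so that its
`n`-th normalized derivative is the form. -/
def eichlerH (h : ℝ) (φ : ℍ → ℂ) (n : ℕ) : ℍ → ℂ :=
  fun z => (2 * π * I) ^ n * eichlerOf h φ n z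

theorem mdiff_eichlerOf [CuspFormClass F Γ k] (φ : F) {h : ℝ} (hh : 0 < h)
    (hΓ : h ∈ Γ.strictPeriods) (j : ℕ) : MDiff (fun z : ℍ => eichlerOf h φ j z) := by
  cases j with
  | zero =>
    have : (fun z : ℍ => eichlerOf h φ 0 z) = ⇑φ := by
      ext z
      exact eichlerOf_zero φ hh hΓ z.im_pos
    rw [this]
    exact CuspFormClass.holo φ
  | succ j =>
    exact mdiff_of_hasDerivAt (fun z hz => hasDerivAt_eichlerOf φ hh hΓ j hz)

theorem iterate_D_eichlerOf [CuspFormClass F Γ k] (φ : F) {h : ℝ} (hh : 0 < h)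
    (hΓ : h ∈ Γ.strictPeriods) (n : ℕ) :
    D^[n] (fun z : ℍ => eichlerOf h φ n z) = ((2 * π * I)⁻¹) ^ n • ⇑φ := by
  induction n with
  | zero =>
    ext z
    simp only [Function.iterate_zero, id_eq, pow_zero, one_smul]
    exact eichlerOf_zero φ hh hΓ z.im_pos
  | succ n ih =>
    rw [Function.iterate_succ_apply,
      D_of_hasDerivAt (fun z hz => hasDerivAt_eichlerOf φ hh hΓ n hz)]
    have : (fun z : ℍ => (2 * π * I)⁻¹ * eichlerOf h φ n z) =
        (2 * π * I)⁻¹ • (fun z : ℍ => eichlerOf h φ n z) := rfl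
    rw [this, iterate_D_smul _ (mdiff_eichlerOf φ hh hΓ n), ih, smul_smul, pow_succ']

theorem mdiff_eichlerH [CuspFormClass F Γ k] (φ : F) {h : ℝ} (hh : 0 < h)
    (hΓ : h ∈ Γ.strictPeriods) (n : ℕ) : MDiff (eichlerH h φ n) := by
  have : eichlerH h φ n = ((2 * π * I) ^ n) • (fun z : ℍ => eichlerOf h φ n z) := rfl
  rw [this]
  exact (mdiff_eichlerOf φ hh hΓ n).const_smul _

theorem iterate_D_eichlerH [CuspFormClass F Γ k] (φ : F) {h : ℝ} (hh : 0 < h)
    (hΓ : h ∈ Γ.strictPeriods) (n : ℕ) : D^[n] (eichlerH h φ n) = ⇑φ := by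
  have : eichlerH h φ n = ((2 * π * I) ^ n) • (fun z : ℍ => eichlerOf h φ n z) := rfl
  rw [this, iterate_D_smul _ (mdiff_eichlerOf φ hh hΓ n), iterate_D_eichlerOf φ hh hΓ, smul_smul]
  have hpi : (2 * π * I : ℂ) ≠ 0 := by
    simp [Real.pi_ne_zero, Complex.I_ne_zero]
  rw [← mul_pow, mul_inv_cancel₀ hpi, one_pow, one_smul]

theorem isZeroAtImInfty_eichlerH [CuspFormClass F Γ k] (φ : F) {h : ℝ} (hh : 0 < h)
    (hΓ : h ∈ Γ.strictPeriods) (n : ℕ) : IsZeroAtImInfty (eichlerH h φ n) := by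
  have h1 := (tendsto_eichlerOf_zero φ hh hΓ n).comp tendsto_coe_atImInfty
  have h2 := h1.const_mul ((2 * π * I) ^ n)
  rw [mul_zero] at h2
  exact h2

theorem eichlerH_periodic (h : ℝ) (φ : ℍ → ℂ) (n : ℕ) (z : ℍ) (z' : ℍ)
    (hz : (z' : ℂ) = (z : ℂ) + h) : eichlerH h φ n z' = eichlerH h φ n z := by
  simp only [eichlerH]
  rw [hz, eichlerOf_periodic h φ n (z : ℂ)]

end chain


section main

open ConjAct Pointwise

variable {N : ℕ} [NeZero N]

/-- Boundedness at every cusp of a weight `-w` invariant `(w+1)`-fold primitive of a cusp form. -/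
theorem isBoundedAtImInfty_slash_of_primitive {k : ℤ} (w : ℕ) (hk : k = (w : ℤ) + 2)
    (f : CuspForm (Gamma0 N) k) (F : ℍ → ℂ) (hF : MDiff F)
    (hD : D^[w + 1] F = ⇑f)
    (hinv : ∀ γ : SL(2, ℤ), γ ∈ Gamma0 N → F ∣[(-(w : ℤ))] γ = F) (g : SL(2, ℤ)) :
    IsBoundedAtImInfty (F ∣[(-(w : ℤ))] g) := by
  subst hk
  obtain ⟨M, hM, hMper⟩ := Subgroup.IsArithmetic.exists_nat_mem_strictPeriods_conj
    ((Gamma0 N : Subgroup SL(2, ℤ)) : Subgroup (GL (Fin 2) ℝ))
  have hM' : (0 : ℝ) < (M : ℝ) := by exact_mod_cast hM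
  have hper := hMper g⁻¹
  rw [map_inv] at hper
  -- the translated cusp form
  set φ := CuspForm.translate f (mapGL ℝ g) with hφ
  set H : ℍ → ℂ := eichlerH (M : ℝ) φ (w + 1) with hH
  have hHm : MDiff H := mdiff_eichlerH φ hM' hper (w + 1)
  have hHD : D^[w + 1] H = ⇑φ := iterate_D_eichlerH φ hM' hper (w + 1)
  have hHz : IsZeroAtImInfty H := isZeroAtImInfty_eichlerH φ hM' hper (w + 1)
  have hdet : (mapGL ℝ g : GL (Fin 2) ℝ).val.det = 1 := by
    rw [← Matrix.GeneralLinearGroup.val_det_apply]; simp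
  have hFg : MDiff (F ∣[(-(w : ℤ))] (mapGL ℝ g)) := hF.slash _ _
  -- the difference has vanishing `(w+1)`-st derivative
  have hDQ : D^[w + 1] (F ∣[(-(w : ℤ))] (mapGL ℝ g) - H) = 0 := by
    rw [iterate_D_sub hFg hHm, hHD]
    have e1 : (-(w : ℤ)) = (1 : ℤ) - ((w + 1 : ℕ) : ℤ) := by push_cast; ring
    have hbol := bol_identity (g := mapGL ℝ g) (by rw [hdet]; exact one_pos) (w + 1) hF
    rw [e1, hbol, hD]
    ext z
    have e2 : (((w + 1 : ℕ) : ℤ) + 1) = (w : ℤ) + 2 := by push_cast; ring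
    simp only [hdet, Pi.sub_apply, Pi.zero_apply, e2]
    rw [sub_eq_zero]
    simp
    rfl
  obtain ⟨P, -, hP⟩ := exists_polynomial_of_iterate_D_eq_zero (w + 1) (hFg.sub hHm) hDQ
  -- periodicity
  let Fs : SlashInvariantForm (Gamma0 N) (-(w : ℤ)) :=
    { toFun := F
      slash_action_eq' := by
        rintro γ ⟨γ0, hγ0, rfl⟩
        exact hinv γ0 hγ0 }
  have hFper : Function.Periodic ((F ∣[(-(w : ℤ))] (mapGL ℝ g)) ∘ ofComplex) (M : ℝ) :=
    SlashInvariantFormClass.periodic_comp_ofComplex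
      (SlashInvariantForm.translate Fs (mapGL ℝ g)) hper
  have hPper : ∀ z : ℂ, 0 < z.im → P.eval (z + M) = P.eval z := by
    intro z hz
    have hz' : 0 < (z + M).im := by simpa using hz
    have h1 := congrFun hP ⟨z, hz⟩
    have h2 := congrFun hP ⟨z + M, hz'⟩
    simp only [polyFun, Pi.sub_apply] at h1 h2
    have h3 := hFper z
    simp only [Function.comp_apply, ofComplex_apply_of_im_pos hz] at h3
    have h4 : ofComplex (z + ((M : ℝ) : ℂ)) = ⟨z + M, hz'⟩ := by
      have := ofComplex_apply_of_im_pos hz'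
      simpa using this
    rw [h4] at h3
    have h5 : H ⟨z + M, hz'⟩ = H ⟨z, hz⟩ :=
      eichlerH_periodic (M : ℝ) φ (w + 1) ⟨z, hz⟩ ⟨z + M, hz'⟩ (by simp)
    rw [← h1, ← h2, h3, h5]
  obtain ⟨c, hc⟩ := eq_C_of_periodic hM hPper
  have hFeq : F ∣[(-(w : ℤ))] (mapGL ℝ g) = H + fun _ => c := by
    ext z
    have h1 := congrFun hP z
    simp only [polyFun, Pi.sub_apply, hc, Polynomial.eval_C] at h1
    simp only [Pi.add_apply]
    rw [← h1]
    ring
  show IsBoundedAtImInfty (F ∣[(-(w : ℤ))] (mapGL ℝ g))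
  rw [hFeq]
  exact hHz.isBoundedAtImInfty.add (Filter.const_boundedAtFilter _ c)

/-- **Separation**: a weight `-w` invariant `(w+1)`-fold primitive, zero at `i∞`, of a cusp form
of weight `w + 2` on `Γ₀(N)` forces the cusp form to vanish. -/
theorem eq_zero_of_invariant_primitive {k : ℤ} (w : ℕ) (hk : k = (w : ℤ) + 2)
    (f : CuspForm (Gamma0 N) k) (F : ℍ → ℂ) (hF : MDiff F)
    (hD : D^[w + 1] F = ⇑f) (hzero : IsZeroAtImInfty F)
    (hinv : ∀ γ : SL(2, ℤ), γ ∈ Gamma0 N → F ∣[(-(w : ℤ))] γ = F) : f = 0 := by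
  have hbdd := isBoundedAtImInfty_slash_of_primitive w hk f F hF hD hinv
  let G : ModularForm (Gamma0 N) (-(w : ℤ)) :=
    { toFun := F
      slash_action_eq' := by
        rintro γ ⟨γ0, hγ0, rfl⟩
        exact hinv γ0 hγ0
      holo' := hF
      bdd_at_cusps' := by
        intro c hc
        rw [Subgroup.IsArithmetic.isCusp_iff_isCusp_SL2Z] at hc
        rw [OnePoint.isBoundedAt_iff_forall_SL2Z hc]
        intro γ _
        exact hbdd γ }
  have hG : G = 0 := by
    apply ModularForm.sturm_bound_Gamma0 N G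
    intro n hn
    have h0 : ((-(w : ℤ)) * ((Gamma0 N).index : ℤ)).toNat = 0 := by
      apply Int.toNat_eq_zero.mpr
      have h1 : (0 : ℤ) ≤ (w : ℤ) := Int.natCast_nonneg w
      have h2 : (0 : ℤ) ≤ ((Gamma0 N).index : ℤ) := Int.natCast_nonneg _
      nlinarith
    rw [h0] at hn
    have hn0 : n = 0 := by simpa using hn
    subst hn0
    have hper : Function.Periodic (⇑G ∘ ofComplex) (1 : ℝ) :=
      SlashInvariantFormClass.periodic_comp_ofComplex G
        (CongruenceSubgroup.one_mem_strictPeriods_Gamma0 N)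
    have han : AnalyticAt ℂ (cuspFunction 1 ⇑G) 0 :=
      ModularFormClass.analyticAt_cuspFunction_zero G one_pos
        (CongruenceSubgroup.one_mem_strictPeriods_Gamma0 N)
    rw [UpperHalfPlane.qExpansion_coeff_zero one_pos han hper]
    exact hzero.valueAtInfty_eq_zero
  have hF0 : F = 0 := by
    have := congrArg (fun G : ModularForm (Gamma0 N) (-(w : ℤ)) => (⇑G : ℍ → ℂ)) hG
    exact this
  ext z
  have h1 := congrFun hD z
  rw [hF0, iterate_D_zero] at h1
  simpa using h1.symm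

end main

end

end Fermat.Agent.S22.helper1642
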