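import Mathlib
import Fermat.Prelude.Thm_Subgroup_IsArithmetic_exists_nat_mem_strictPeriods_conj
import Fermat.Agent.S22.helper1222_EichlerSeries
import Fermat.Agent.S22.helper322_Bol

/-!
# Separation lemma for the Eichler integral (helper175)

If `F` is a holomorphic function on the upper half plane which is invariant under the weight `-w`
slash action of `Γ₀(N)` and whose `(w+1)`-st normalised derivative is (a nonzero multiple of) a
cusp form `f` of weight `w + 2` on `Γ₀(N)`, then `f = 0`.
-/

set_option autoImplicit false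

open UpperHalfPlane hiding I
open Real Complex Filter
open scoped Manifold MatrixGroups ModularForm Topology Pointwise
open Derivative

namespace Fermat.Agent.S22.helper175

noncomputable section

open Fermat.Agent.S22.helper322 Fermat.Agent.S22.helper1222

/-- Restriction to `ℍ` of a function on `ℂ`. -/
def restr (G : ℂ → ℂ) : ℍ → ℂ := fun z => G (z : ℂ)

theorem restr_apply (G : ℂ → ℂ) (z : ℍ) : restr G z = G (z : ℂ) := rfl

theorem restr_comp_ofComplex_eventuallyEq (G : ℂ → ℂ) (z : ℍ) :
    (restr G ∘ ofComplex) =ᶠ[𝓝 (z : ℂ)] G := by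
  filter_upwards [isOpen_upperHalfPlaneSet.mem_nhds z.im_pos] with w hw
  simp [restr, Function.comp_apply, ofComplex_apply_of_im_pos hw]

theorem mdiff_restr {G G' : ℂ → ℂ} (h : ∀ z : ℂ, 0 < z.im → HasDerivAt G (G' z) z) :
    MDiff (restr G) := by
  intro z
  rw [UpperHalfPlane.mdifferentiableAt_iff]
  exact ((h z z.im_pos).differentiableAt).congr_of_eventuallyEq
    (restr_comp_ofComplex_eventuallyEq G z)

theorem D_restr {G G' : ℂ → ℂ} (h : ∀ z : ℂ, 0 < z.im → HasDerivAt G (G' z) z) :
    D (restr G) = (2 * π * I)⁻¹ • restr G' := by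
  ext z
  simp only [normalizedDerivOfComplex, Pi.smul_apply, smul_eq_mul, restr]
  rw [(restr_comp_ofComplex_eventuallyEq G z).deriv_eq, (h z z.im_pos).deriv]

theorem iterate_D_restr (G : ℕ → ℂ → ℂ)
    (h : ∀ (j : ℕ) (z : ℂ), 0 < z.im → HasDerivAt (G (j + 1)) (G j z) z)
    (h0 : MDiff (restr (G 0))) (n : ℕ) :
    D^[n] (restr (G n)) = ((2 * π * I)⁻¹) ^ n • restr (G 0) := by
  have hmd : ∀ j, MDiff (restr (G j)) := by
    intro j
    cases j with
    | zero => exact h0
    | succ j => exact mdiff_restr (h j)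
  have key : ∀ n j, D^[n] (restr (G (j + n))) = ((2 * π * I)⁻¹) ^ n • restr (G j) := by
    intro n
    induction n with
    | zero => intro j; simp
    | succ n ih =>
      intro j
      rw [Function.iterate_succ_apply, ← add_assoc, D_restr (h (j + n)),
        iterate_D_smul _ (hmd _), ih j, smul_smul, pow_succ']
  simpa using key n 0

/-- A holomorphic function on `ℍ` with vanishing `n`-th derivative which is periodic is constant. -/
theorem const_of_iterate_D_eq_zero_of_periodic (n : ℕ) {H : ℍ → ℂ} (hH : MDiff H)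
    (h : D^[n] H = 0) {M : ℝ} (hM : 0 < M) (hper : Function.Periodic (H ∘ ofComplex) M) :
    ∃ a : ℂ, ∀ z : ℍ, H z = a := by
  obtain ⟨P, -, rfl⟩ := exists_polynomial_of_iterate_D_eq_zero n hH h
  have hval : ∀ w : ℂ, 0 < w.im → (polyFun P ∘ ofComplex) w = P.eval w := by
    intro w hw
    simp [polyFun, Function.comp_apply, ofComplex_apply_of_im_pos hw]
  have hroots : ∀ j : ℕ, (P - Polynomial.C (P.eval I)).IsRoot (I + j * M) := by
    intro j
    have him : 0 < (I + j * M : ℂ).im := by simp
    have h1 : (polyFun P ∘ ofComplex) (I + j * M) = (polyFun P ∘ ofComplex) I := by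
      have := hper.nat_mul j I
      simpa [add_comm] using this
    rw [hval _ him, hval I (by simp)] at h1
    simp [Polynomial.IsRoot, h1]
  have hP : P - Polynomial.C (P.eval I) = 0 := by
    refine Polynomial.eq_zero_of_infinite_isRoot _ ?_
    have hinf : (Set.range fun j : ℕ ↦ (I + j * M : ℂ)).Infinite := by
      refine Set.infinite_range_of_injective fun a b hab ↦ ?_
      have hM' : (M : ℂ) ≠ 0 := by exact_mod_cast hM.ne'
      have : (a : ℂ) * M = b * M := by simpa using hab
      exact_mod_cast mul_right_cancel₀ hM' this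
    refine hinf.mono ?_
    rintro _ ⟨j, rfl⟩
    exact hroots j
  refine ⟨P.eval I, fun z => ?_⟩
  have := congrArg (fun Q : Polynomial ℂ => Q.eval (z : ℂ)) hP
  simp only [Polynomial.eval_sub, Polynomial.eval_C, Polynomial.eval_zero] at this
  rw [polyFun_apply]
  exact sub_eq_zero.mp this

/-- A modular form of nonpositive weight on an arithmetic group is constant. -/
theorem const_of_modularForm_nonpos {Γ : Subgroup (GL (Fin 2) ℝ)} [Γ.IsArithmetic] {k : ℤ}
    (hk : k ≤ 0) (G : ModularForm Γ k) : ∃ a : ℂ, ∀ z : ℍ, G z = a := by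
  rcases hk.lt_or_eq with h | rfl
  · exact ⟨0, fun z => by rw [ModularForm.isZero_of_neg_weight h G]; rfl⟩
  · obtain ⟨a, ha⟩ := ModularForm.eq_const_of_weight_zero G
    exact ⟨a, fun z => by rw [ha]; rfl⟩

theorem isZeroAtImInfty_restr {G : ℂ → ℂ}
    (hG : Tendsto G (comap Complex.im atTop) (𝓝 0)) : IsZeroAtImInfty (restr G) := by
  refine hG.comp ?_
  rw [tendsto_comap_iff]
  exact tendsto_comap

/-- **Separation lemma.** Let `f` be a cusp form of weight `w + 2` on `Gamma0 N` and let `F` be a
holomorphic function on `ℍ` with `D^[w+1] F = c • f` (`c ≠ 0`) which is invariant under the weight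
`-w` slash action of `Gamma0 N`. Then `f = 0`. -/
theorem eq_zero_of_slash_invariant_primitive {N : ℕ} [NeZero N] (w : ℕ) {k : ℤ}
    (hk : k = (w : ℤ) + 2) (f : CuspForm (CongruenceSubgroup.Gamma0 N) k) (F : ℍ → ℂ)
    (hF : MDiff F) (c : ℂ) (hc : c ≠ 0) (hD : D^[w + 1] F = c • ⇑f)
    (hinv : ∀ γ : SL(2, ℤ), γ ∈ CongruenceSubgroup.Gamma0 N → F ∣[(-(w : ℤ))] γ = F) :
    f = 0 := by
  subst hk
  obtain ⟨M, hM0, hM⟩ := Subgroup.IsArithmetic.exists_nat_mem_strictPeriods_conj (CongruenceSubgroup.Gamma0 N : Subgroup (GL (Fin 2) ℝ))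
  have hMR : (0 : ℝ) < M := by exact_mod_cast hM0
  have hpi : (2 * π * I : ℂ) ≠ 0 := by
    simp [Real.pi_ne_zero, Complex.I_ne_zero]
  -- `F` as a slash invariant form
  let Fs : SlashInvariantForm (CongruenceSubgroup.Gamma0 N : Subgroup (GL (Fin 2) ℝ)) (-(w : ℤ)) :=
    { toFun := F
      slash_action_eq' := by
        rintro _ ⟨γ, hγ, rfl⟩
        exact hinv γ hγ }
  -- boundedness at each cusp
  have hbdd : ∀ g : SL(2, ℤ), IsBoundedAtImInfty (F ∣[(-(w : ℤ))] g) := by
    intro g
    let fg : CuspForm (ConjAct.toConjAct (Matrix.SpecialLinearGroup.mapGL ℝ g)⁻¹ • (CongruenceSubgroup.Gamma0 N : Subgroup (GL (Fin 2) ℝ))) ((w : ℤ) + 2) :=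
      CuspForm.translate f (Matrix.SpecialLinearGroup.mapGL ℝ g)
    have hper : (M : ℝ) ∈
        (ConjAct.toConjAct (Matrix.SpecialLinearGroup.mapGL ℝ g)⁻¹ • (CongruenceSubgroup.Gamma0 N : Subgroup (GL (Fin 2) ℝ))).strictPeriods := by
      have := hM g⁻¹
      rwa [map_inv] at this
    set G : ℕ → ℂ → ℂ := fun j => eichlerOf (M : ℝ) (⇑fg) j with hG
    have hGd : ∀ (j : ℕ) (z : ℂ), 0 < z.im → HasDerivAt (G (j + 1)) (G j z) z :=
      fun j z hz => hasDerivAt_eichlerOf fg hMR hper j hz
    have hG0 : restr (G 0) = ⇑fg := by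
      ext z
      exact eichlerOf_zero fg hMR hper z.im_pos
    have hG0' : MDiff (restr (G 0)) := by
      rw [hG0]; exact CuspFormClass.holo fg
    have hit := iterate_D_restr G hGd hG0' (w + 1)
    set Fg : ℍ → ℂ := F ∣[(-(w : ℤ))] g with hFg
    have hFgmd : MDiff Fg := hF.slash _ _
    have hfg : (⇑fg : ℍ → ℂ) = (⇑f : ℍ → ℂ) ∣[(w : ℤ) + 2] g := rfl
    have hDFg : D^[w + 1] Fg = c • ⇑fg := by
      have hdet1 : (Matrix.SpecialLinearGroup.mapGL ℝ g).val.det = 1 := by
        rw [← Matrix.GeneralLinearGroup.val_det_apply, Matrix.SpecialLinearGroup.det_mapGL]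
        rfl
      have hdet : (0 : ℝ) < (Matrix.SpecialLinearGroup.mapGL ℝ g).val.det := by
        rw [hdet1]; exact one_pos
      have hb := bol_identity hdet (w + 1) hF
      have e1 : (1 : ℤ) - ((w + 1 : ℕ) : ℤ) = -(w : ℤ) := by push_cast; ring
      have e2 : (((w + 1 : ℕ) : ℤ) + 1) = (w : ℤ) + 2 := by push_cast; ring
      rw [e1, e2, hD, hdet1] at hb
      have hFg' : Fg = F ∣[(-(w : ℤ))] (Matrix.SpecialLinearGroup.mapGL ℝ g) := rfl
      rw [hFg', hb, hfg]
      have hs : (c • (⇑f : ℍ → ℂ)) ∣[(w : ℤ) + 2] (Matrix.SpecialLinearGroup.mapGL ℝ g) =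
          c • ((⇑f : ℍ → ℂ) ∣[(w : ℤ) + 2] g) := ModularForm.SL_smul_slash _ g _ c
      ext z
      rw [hs]
      simp
    set H : ℍ → ℂ := Fg - (c * (2 * π * I) ^ (w + 1)) • restr (G (w + 1)) with hH
    have hGmd : MDiff (restr (G (w + 1))) := mdiff_restr (hGd w)
    have hHmd : MDiff H := hFgmd.sub (hGmd.const_smul _)
    have hDH : D^[w + 1] H = 0 := by
      rw [hH, iterate_D_sub hFgmd (hGmd.const_smul _), iterate_D_smul _ hGmd, hit, hDFg, hG0,
        smul_smul]
      have : c * (2 * π * I) ^ (w + 1) * ((2 * π * I)⁻¹) ^ (w + 1) = c := by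
        rw [mul_assoc, ← mul_pow, mul_inv_cancel₀ hpi, one_pow, mul_one]
      rw [this, sub_self]
    have hper1 : Function.Periodic (Fg ∘ ofComplex) M :=
      SlashInvariantFormClass.periodic_comp_ofComplex
        (f := SlashInvariantForm.translate Fs (Matrix.SpecialLinearGroup.mapGL ℝ g)) hper
    have hper2 : Function.Periodic (restr (G (w + 1)) ∘ ofComplex) M := by
      intro u
      by_cases hu : 0 < u.im
      · have hu' : 0 < (u + M).im := by simpa using hu
        simp only [Function.comp_apply, restr, ofComplex_apply_of_im_pos hu',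
          ofComplex_apply_of_im_pos hu, UpperHalfPlane.coe_mk]
        exact eichlerOf_periodic (M : ℝ) (⇑fg) (w + 1) u
      · have hu0 : u.im ≤ 0 := not_lt.mp hu
        have hu' : (u + M).im ≤ 0 := by simpa using hu0
        simp only [Function.comp_apply, ofComplex_apply_of_im_nonpos hu',
          ofComplex_apply_of_im_nonpos hu0]
    have hHper : Function.Periodic (H ∘ ofComplex) M := by
      intro u
      have h1 := hper1 u
      have h2 := hper2 u
      simp only [Function.comp_apply] at h1 h2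
      simp only [hH, Function.comp_apply, Pi.sub_apply, Pi.smul_apply, h1, h2]
    obtain ⟨a, ha⟩ := const_of_iterate_D_eq_zero_of_periodic (w + 1) hHmd hDH hMR hHper
    have hFgeq : Fg = (fun _ => a) + (c * (2 * π * I) ^ (w + 1)) • restr (G (w + 1)) := by
      ext z
      have := ha z
      simp only [hH, Pi.sub_apply, Pi.smul_apply, smul_eq_mul] at this
      simp only [Pi.add_apply, Pi.smul_apply, smul_eq_mul]
      linear_combination this
    have hz : IsZeroAtImInfty (restr (G (w + 1))) :=
      isZeroAtImInfty_restr (tendsto_eichlerOf_zero fg hMR hper (w + 1))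
    rw [hFgeq]
    exact (const_boundedAtFilter _ a).add (hz.boundedAtFilter.smul _)
  -- `F` as a modular form of weight `-w`
  let Fm : ModularForm (CongruenceSubgroup.Gamma0 N : Subgroup (GL (Fin 2) ℝ)) (-(w : ℤ)) :=
    { Fs with
      holo' := hF
      bdd_at_cusps' := by
        intro c hc
        rw [Subgroup.IsArithmetic.isCusp_iff_isCusp_SL2Z] at hc
        exact (OnePoint.isBoundedAt_iff_forall_SL2Z hc).mpr fun γ _ => hbdd γ }
  obtain ⟨a, ha⟩ := const_of_modularForm_nonpos (by simp) Fm
  have hFa : F = fun _ => a := funext ha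
  have hzero : D^[w + 1] F = 0 := by
    rw [hFa, Function.iterate_succ_apply, normalizedDerivOfComplex_const, iterate_D_zero]
  rw [hzero] at hD
  ext z
  have := congrFun hD z
  simp only [Pi.zero_apply, Pi.smul_apply, smul_eq_mul] at this
  rcases mul_eq_zero.mp this.symm with h | h
  · exact absurd h hc
  · simpa using h

end

end Fermat.Agent.S22.helper175
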