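import Mathlib

/-!
# S22, abstract algebra step (helper22)

If a finitely generated `ℤ`-submodule `Λ` of the dual of a `ℂ`-vector space `V` separates the
points of `V` and is stable under precomposition with every element of a set `𝒢` of endomorphisms,
then the `ℤ`-algebra generated by `𝒢` is a finitely generated `ℤ`-module.
-/

namespace Fermat.Agent.S22.helper22

variable {V : Type*} [AddCommGroup V] [Module ℂ V]

/-- The `ℤ`-subalgebra of endomorphisms whose transpose preserves the lattice `Λ`. -/
def stabAlg (Λ : Submodule ℤ (Module.Dual ℂ V)) : Subalgebra ℤ (Module.End ℂ V) where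
  carrier := {t | ∀ l ∈ Λ, l ∘ₗ t ∈ Λ}
  mul_mem' := by
    intro a b ha hb l hl
    have : l ∘ₗ (a * b) = (l ∘ₗ a) ∘ₗ b := rfl
    rw [this]
    exact hb _ (ha _ hl)
  one_mem' := by
    intro l hl
    have : l ∘ₗ (1 : Module.End ℂ V) = l := LinearMap.comp_id l
    rw [this]
    exact hl
  add_mem' := by
    intro a b ha hb l hl
    rw [LinearMap.comp_add]
    exact Λ.add_mem (ha l hl) (hb l hl)
  zero_mem' := by
    intro l _
    rw [LinearMap.comp_zero]
    exact Λ.zero_mem
  algebraMap_mem' := by
    intro n l hl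
    have : l ∘ₗ (algebraMap ℤ (Module.End ℂ V) n) = n • l := by
      ext v
      simp
    rw [this]
    exact Λ.smul_mem n hl

/-- The transpose action of `stabAlg Λ` on `Λ`, as a `ℤ`-linear map. -/
def stabAlgToEnd (Λ : Submodule ℤ (Module.Dual ℂ V)) :
    stabAlg Λ →ₗ[ℤ] (Λ →ₗ[ℤ] Λ) where
  toFun t :=
    { toFun := fun l => ⟨(l : Module.Dual ℂ V) ∘ₗ (t : Module.End ℂ V), t.2 _ l.2⟩
      map_add' := by
        intro l l'
        apply Subtype.ext
        simp [LinearMap.add_comp]
      map_smul' := by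
        intro n l
        apply Subtype.ext
        simp [LinearMap.smul_comp] }
  map_add' := by
    intro t t'
    apply LinearMap.ext
    intro l
    apply Subtype.ext
    simp [LinearMap.comp_add]
  map_smul' := by
    intro n t
    apply LinearMap.ext
    intro l
    apply Subtype.ext
    apply LinearMap.ext
    intro v
    simp

theorem stabAlgToEnd_injective (Λ : Submodule ℤ (Module.Dual ℂ V))
    (hsep : ∀ v : V, (∀ l ∈ Λ, l v = 0) → v = 0) :
    Function.Injective (stabAlgToEnd Λ) := by
  rw [← LinearMap.ker_eq_bot, LinearMap.ker_eq_bot']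
  intro t ht
  apply Subtype.ext
  apply LinearMap.ext
  intro v
  apply hsep
  intro l hl
  have := congrArg (fun (φ : Λ →ₗ[ℤ] Λ) => ((φ ⟨l, hl⟩ : Λ) : Module.Dual ℂ V) v) ht
  simpa [stabAlgToEnd] using this

/-- **Abstract step (E\*)**: a point-separating finitely generated lattice of functionals that is
stable under the transposes of the generators forces the generated `ℤ`-algebra to be a finite
`ℤ`-module. -/
theorem finite_adjoin_of_dual_lattice (Λ : Submodule ℤ (Module.Dual ℂ V)) (hfg : Λ.FG)
    (hsep : ∀ v : V, (∀ l ∈ Λ, l v = 0) → v = 0)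
    (𝒢 : Set (Module.End ℂ V)) (hstab : ∀ T ∈ 𝒢, ∀ l ∈ Λ, l ∘ₗ T ∈ Λ) :
    Module.Finite ℤ (Algebra.adjoin ℤ 𝒢) := by
  have : Module.Finite ℤ Λ := Module.Finite.iff_fg.mpr hfg
  have : IsAddTorsionFree (Module.Dual ℂ V) := .of_isTorsionFree ℂ _
  have : Module.Free ℤ Λ := Module.free_of_finite_type_torsion_free'
  have hle : Algebra.adjoin ℤ 𝒢 ≤ stabAlg Λ := Algebra.adjoin_le hstab
  let ι : Algebra.adjoin ℤ 𝒢 →ₗ[ℤ] (Λ →ₗ[ℤ] Λ) :=
    (stabAlgToEnd Λ).comp (Subalgebra.inclusion hle).toLinearMap
  have hι : Function.Injective ι :=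
    (stabAlgToEnd_injective Λ hsep).comp (Subalgebra.inclusion_injective hle)
  exact Module.Finite.of_injective ι hι

end Fermat.Agent.S22.helper22
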