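import Fermat.Agent.S22.helper22_Spec
import Fermat.Agent.S22.helper22_DualLattice
import Fermat.Prelude.Thm_CongruenceSubgroup_one_mem_strictPeriods_Gamma0

/-!
# S22 assembly (helper22, captain): S22 from the twelve top-level statements of the blueprint.

`finite_heckeAlgebra (H : Inputs) : Module.Finite ℤ (CuspForm.heckeAlgebra N k S)`; no `sorry`.
-/

namespace Fermat.Agent.S22.helper22

open UpperHalfPlane Polynomial Filter Topology
open scoped MatrixGroups ModularForm Manifold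

/-- The twelve top-level statements of the blueprint `helper22_Spec.lean`. -/
structure Inputs : Prop where
  cocVal_mul : Stmt_cocVal_mul
  gamma0_fg : Stmt_gamma0_fg
  span_fg_of_cocycle : Stmt_span_fg_of_cocycle
  weight_lt_two : Stmt_cuspForm_eq_zero_of_weight_lt_two
  exists_isPrimVec : Stmt_exists_isPrimVec
  isPrimVec_unique : Stmt_isPrimVec_unique
  cocVal_const : Stmt_cocVal_const
  isPrimVec_heckeU : Stmt_isPrimVec_heckeU
  isPrimVec_heckeT : Stmt_isPrimVec_heckeT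
  heckeTVec_cocVal : Stmt_heckeTVec_cocVal
  heckeUVec_cocVal : Stmt_heckeUVec_cocVal
  eq_zero_of_cocVal_eq_zero : Stmt_eq_zero_of_cocVal_eq_zero

/-! ## linearity of primitive vectors -/

theorem IsPrimVec.add {m : ℕ} {f g : ℍ → ℂ} {F G : ℕ → ℍ → ℂ} (hF : IsPrimVec m f F)
    (hG : IsPrimVec m g G) : IsPrimVec m (f + g) (fun j τ => F j τ + G j τ) := by
  refine ⟨fun j hj τ => ?_, fun j hj τ => ?_⟩
  · have := (hF.deriv j hj τ).add (hG.deriv j hj τ)
    rw [← mul_add] at this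
    exact this
  · simpa using (hF.decay j hj τ).add (hG.decay j hj τ)

theorem IsPrimVec.smul {m : ℕ} {f : ℍ → ℂ} {F : ℕ → ℍ → ℂ} (hF : IsPrimVec m f F) (c : ℂ) :
    IsPrimVec m (c • f) (fun j τ => c * F j τ) := by
  refine ⟨fun j hj τ => ?_, fun j hj τ => ?_⟩
  · have := (hF.deriv j hj τ).const_mul c
    rw [mul_left_comm] at this
    exact this
  · simpa using (hF.decay j hj τ).const_mul c

theorem cocVal_congr (m : ℕ) {F F' : ℕ → ℍ → ℂ} (h : ∀ j ≤ m, ∀ τ, F j τ = F' j τ) (γ : SL(2, ℤ))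
    {j : ℕ} (hj : j ≤ m) (τ : ℍ) : cocVal m F γ j τ = cocVal m F' γ j τ := by
  simp only [cocVal]
  rw [h j hj]
  congr 1
  refine Finset.sum_congr rfl fun i hi => ?_
  rw [h i (Nat.lt_succ_iff.mp (Finset.mem_range.mp hi))]

theorem slash_eq_of_mem_gamma0 (N : ℕ) (m : ℕ)
    (f : CuspForm (CongruenceSubgroup.Gamma0 N) ((m : ℤ) + 2))
    {γ : SL(2, ℤ)} (hγ : γ ∈ CongruenceSubgroup.Gamma0 N) :
    (f : ℍ → ℂ) ∣[(m : ℤ) + 2] γ = f :=
  SlashInvariantFormClass.slash_action_eq f _ (Subgroup.mem_map_of_mem _ hγ)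

section Level

variable (H : Inputs) (N : ℕ) [NeZero N] (m : ℕ)

include H in
theorem exists_primVec (f : CuspForm (CongruenceSubgroup.Gamma0 N) ((m : ℤ) + 2)) :
    ∃ F : ℕ → ℍ → ℂ, IsPrimVec m f F := by
  have hΓ := CongruenceSubgroup.one_mem_strictPeriods_Gamma0 N
  obtain ⟨F, hF, -, -⟩ := H.exists_isPrimVec f 1 one_pos
    (SlashInvariantFormClass.periodic_comp_ofComplex f hΓ) (CuspFormClass.holo f)
    (CuspFormClass.zero_at_infty f) m
  exact ⟨F, hF⟩

/-- The canonical primitive vector of a cusp form (by choice). -/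
noncomputable def primVec (f : CuspForm (CongruenceSubgroup.Gamma0 N) ((m : ℤ) + 2)) :
    ℕ → ℍ → ℂ :=
  Classical.choose (exists_primVec H N m f)

theorem primVec_spec (f : CuspForm (CongruenceSubgroup.Gamma0 N) ((m : ℤ) + 2)) :
    IsPrimVec m f (primVec H N m f) :=
  Classical.choose_spec (exists_primVec H N m f)

theorem primVec_add (f g : CuspForm (CongruenceSubgroup.Gamma0 N) ((m : ℤ) + 2)) {j : ℕ}
    (hj : j ≤ m) (τ : ℍ) :
    primVec H N m (f + g) j τ = primVec H N m f j τ + primVec H N m g j τ := by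
  have h1 := primVec_spec H N m (f + g)
  have h2 := (primVec_spec H N m f).add (primVec_spec H N m g)
  rw [FunLike.coe_add] at h1
  exact H.isPrimVec_unique m _ _ _ h1 h2 j hj τ

theorem primVec_smul (c : ℂ) (f : CuspForm (CongruenceSubgroup.Gamma0 N) ((m : ℤ) + 2)) {j : ℕ}
    (hj : j ≤ m) (τ : ℍ) :
    primVec H N m (c • f) j τ = c * primVec H N m f j τ := by
  have h1 := primVec_spec H N m (c • f)
  have h2 := (primVec_spec H N m f).smul c
  rw [FunLike.coe_smul] at h1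
  exact H.isPrimVec_unique m _ _ _ h1 h2 j hj τ

/-- The period functional `f ↦ F_j(γ i) - ∑ M(γ)_{j l} F_l(i)`. -/
noncomputable def lam (γ : SL(2, ℤ)) (j : Fin (m + 1)) :
    Module.Dual ℂ (CuspForm (CongruenceSubgroup.Gamma0 N) ((m : ℤ) + 2)) where
  toFun f := cocVal m (primVec H N m f) γ j I
  map_add' f g := by
    have hj : (j : ℕ) ≤ m := Nat.lt_succ_iff.mp j.2
    simp only [cocVal]
    rw [primVec_add H N m f g hj]
    have : ∀ i ∈ Finset.range (m + 1), (symZ m γ j i : ℂ) * primVec H N m (f + g) i I =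
        (symZ m γ j i : ℂ) * primVec H N m f i I + (symZ m γ j i : ℂ) * primVec H N m g i I := by
      intro i hi
      rw [primVec_add H N m f g (Nat.lt_succ_iff.mp (Finset.mem_range.mp hi)), mul_add]
    rw [Finset.sum_congr rfl this, Finset.sum_add_distrib]
    ring
  map_smul' c f := by
    have hj : (j : ℕ) ≤ m := Nat.lt_succ_iff.mp j.2
    simp only [cocVal, RingHom.id_apply, smul_eq_mul]
    rw [primVec_smul H N m c f hj]
    have : ∀ i ∈ Finset.range (m + 1), (symZ m γ j i : ℂ) * primVec H N m (c • f) i I =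
        c * ((symZ m γ j i : ℂ) * primVec H N m f i I) := by
      intro i hi
      rw [primVec_smul H N m c f (Nat.lt_succ_iff.mp (Finset.mem_range.mp hi))]
      ring
    rw [Finset.sum_congr rfl this, ← Finset.mul_sum]
    ring

theorem lam_apply (γ : SL(2, ℤ)) (j : Fin (m + 1))
    (f : CuspForm (CongruenceSubgroup.Gamma0 N) ((m : ℤ) + 2)) :
    lam H N m γ j f = cocVal m (primVec H N m f) γ j I := rfl

theorem cocVal_primVec_const (f : CuspForm (CongruenceSubgroup.Gamma0 N) ((m : ℤ) + 2))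
    {γ : SL(2, ℤ)} (hγ : γ ∈ CongruenceSubgroup.Gamma0 N) {j : ℕ} (hj : j ≤ m) (τ τ' : ℍ) :
    cocVal m (primVec H N m f) γ j τ = cocVal m (primVec H N m f) γ j τ' :=
  H.cocVal_const m _ _ (primVec_spec H N m f).deriv γ (slash_eq_of_mem_gamma0 N m f hγ) j hj τ τ'

/-- The period lattice. -/
noncomputable def periodLattice :
    Submodule ℤ (Module.Dual ℂ (CuspForm (CongruenceSubgroup.Gamma0 N) ((m : ℤ) + 2))) :=
  Submodule.span ℤ (Set.range fun x : ↥(CongruenceSubgroup.Gamma0 N) × Fin (m + 1) =>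
    lam H N m (x.1 : SL(2, ℤ)) x.2)

theorem lam_mem_periodLattice {γ : SL(2, ℤ)} (hγ : γ ∈ CongruenceSubgroup.Gamma0 N)
    (j : Fin (m + 1)) : lam H N m γ j ∈ periodLattice H N m :=
  Submodule.subset_span ⟨(⟨γ, hγ⟩, j), rfl⟩

theorem periodLattice_fg : (periodLattice H N m).FG := by
  have : Group.FG ↥(CongruenceSubgroup.Gamma0 N) := H.gamma0_fg N
  let lam' : ↥(CongruenceSubgroup.Gamma0 N) → ℕ →
      Module.Dual ℂ (CuspForm (CongruenceSubgroup.Gamma0 N) ((m : ℤ) + 2)) :=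
    fun g j => if hj : j < m + 1 then lam H N m (g : SL(2, ℤ)) ⟨j, hj⟩ else 0
  have hcoc : ∀ g h : ↥(CongruenceSubgroup.Gamma0 N), ∀ j < m + 1,
      lam' (g * h) j = lam' g j +
        ∑ i ∈ Finset.range (m + 1), symZ m (g : SL(2, ℤ)) j i • lam' h i := by
    intro g h j hj
    apply LinearMap.ext
    intro f
    have hjm : j ≤ m := Nat.lt_succ_iff.mp hj
    simp only [lam', dif_pos hj, LinearMap.add_apply, LinearMap.sum_apply, LinearMap.smul_apply,
      lam_apply, Subgroup.coe_mul]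
    rw [H.cocVal_mul m _ _ _ j hjm,
      cocVal_primVec_const H N m f g.2 hjm ((h : SL(2, ℤ)) • I) I]
    congr 1
    refine Finset.sum_congr rfl fun i hi => ?_
    rw [dif_pos (Finset.mem_range.mp hi)]
    simp [lam_apply]
  have := H.span_fg_of_cocycle ↥(CongruenceSubgroup.Gamma0 N) _ (m + 1)
    (fun g : ↥(CongruenceSubgroup.Gamma0 N) => symZ m (g : SL(2, ℤ))) lam' hcoc
  have hrange : (Set.range fun x : ↥(CongruenceSubgroup.Gamma0 N) × Fin (m + 1) =>
      lam H N m (x.1 : SL(2, ℤ)) x.2) =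
      Set.range fun x : ↥(CongruenceSubgroup.Gamma0 N) × Fin (m + 1) => lam' x.1 x.2 := by
    congr 1
    funext x
    simp only [lam', dif_pos x.2.2]
  rw [periodLattice, hrange]
  exact this

theorem periodLattice_sep (f : CuspForm (CongruenceSubgroup.Gamma0 N) ((m : ℤ) + 2))
    (hf : ∀ l ∈ periodLattice H N m, l f = 0) : f = 0 := by
  apply H.eq_zero_of_cocVal_eq_zero N m f _ (primVec_spec H N m f)
  intro γ hγ j hj τ
  rw [cocVal_primVec_const H N m f hγ hj τ I]
  exact hf _ (lam_mem_periodLattice H N m hγ ⟨j, Nat.lt_succ_iff.mpr hj⟩)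

theorem primVec_const_hyp (f : CuspForm (CongruenceSubgroup.Gamma0 N) ((m : ℤ) + 2)) :
    ∀ δ' ∈ CongruenceSubgroup.Gamma0 N, ∀ i ≤ m, ∀ τ τ' : ℍ,
      cocVal m (primVec H N m f) δ' i τ = cocVal m (primVec H N m f) δ' i τ' :=
  fun _ hδ _ hi τ τ' => cocVal_primVec_const H N m f hδ hi τ τ'

theorem lam_comp_heckeT {p : ℕ} (hp : p.Prime) (hpN : ¬ p ∣ N) {γ : SL(2, ℤ)}
    (hγ : γ ∈ CongruenceSubgroup.Gamma0 N) (j : Fin (m + 1)) :
    lam H N m γ j ∘ₗ CuspForm.heckeTLin ((m : ℤ) + 2) hp hpN ∈ periodLattice H N m := by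
  have hj : (j : ℕ) ≤ m := Nat.lt_succ_iff.mp j.2
  obtain ⟨ι, _, δ, l, c, hδ, hl, HT⟩ := H.heckeTVec_cocVal N m p hp hpN γ hγ j hj
  have key : lam H N m γ j ∘ₗ CuspForm.heckeTLin ((m : ℤ) + 2) hp hpN =
      ∑ r, c r • lam H N m (δ r) ⟨l r, Nat.lt_succ_iff.mpr (hl r)⟩ := by
    apply LinearMap.ext
    intro f
    simp only [LinearMap.comp_apply, LinearMap.sum_apply, LinearMap.smul_apply, lam_apply]
    have h1 := primVec_spec H N m (CuspForm.heckeTLin ((m : ℤ) + 2) hp hpN f)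
    rw [CuspForm.coe_heckeTLin_apply] at h1
    have h2 := H.isPrimVec_heckeT m _ _ (primVec_spec H N m f) p hp.ne_zero
    rw [cocVal_congr m (fun i hi τ => H.isPrimVec_unique m _ _ _ h1 h2 i hi τ) γ hj I,
      HT _ (primVec_const_hyp H N m f) I I]
    simp
  rw [key]
  exact Submodule.sum_mem _ fun r _ =>
    Submodule.smul_mem _ _ (lam_mem_periodLattice H N m (hδ r) _)

theorem lam_comp_heckeU {p : ℕ} (hp : p.Prime) (hpN : p ∣ N) {γ : SL(2, ℤ)}
    (hγ : γ ∈ CongruenceSubgroup.Gamma0 N) (j : Fin (m + 1)) :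
    lam H N m γ j ∘ₗ CuspForm.heckeULin ((m : ℤ) + 2) hpN ∈ periodLattice H N m := by
  have hj : (j : ℕ) ≤ m := Nat.lt_succ_iff.mp j.2
  obtain ⟨ι, _, δ, l, c, hδ, hl, HU⟩ := H.heckeUVec_cocVal N m p hp hpN γ hγ j hj
  have key : lam H N m γ j ∘ₗ CuspForm.heckeULin ((m : ℤ) + 2) hpN =
      ∑ r, c r • lam H N m (δ r) ⟨l r, Nat.lt_succ_iff.mpr (hl r)⟩ := by
    apply LinearMap.ext
    intro f
    simp only [LinearMap.comp_apply, LinearMap.sum_apply, LinearMap.smul_apply, lam_apply]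
    have h1 := primVec_spec H N m (CuspForm.heckeULin ((m : ℤ) + 2) hpN f)
    rw [CuspForm.coe_heckeULin_apply] at h1
    have h2 := H.isPrimVec_heckeU m _ _ (primVec_spec H N m f) p hp.ne_zero
    rw [cocVal_congr m (fun i hi τ => H.isPrimVec_unique m _ _ _ h1 h2 i hi τ) γ hj I,
      HU _ (primVec_const_hyp H N m f) I I]
    simp
  rw [key]
  exact Submodule.sum_mem _ fun r _ =>
    Submodule.smul_mem _ _ (lam_mem_periodLattice H N m (hδ r) _)

theorem periodLattice_stab (S : Set ℕ) :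
    ∀ T ∈ CuspForm.heckeGenerators N ((m : ℤ) + 2) S, ∀ l ∈ periodLattice H N m,
      l ∘ₗ T ∈ periodLattice H N m := by
  intro T hT l hl
  induction hl using Submodule.span_induction with
  | mem x hx =>
    obtain ⟨⟨⟨γ, hγ⟩, j⟩, rfl⟩ := hx
    rcases hT with ⟨ℓ, hℓ, hℓN, -, rfl⟩ | ⟨q, hqN, hq, -, rfl⟩
    · exact lam_comp_heckeT H N m hℓ hℓN hγ j
    · exact lam_comp_heckeU H N m hq hqN hγ j
  | zero => rw [LinearMap.zero_comp]; exact Submodule.zero_mem _
  | add x y _ _ hx hy => rw [LinearMap.add_comp]; exact Submodule.add_mem _ hx hy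
  | smul a x _ hx => rw [LinearMap.smul_comp]; exact Submodule.smul_mem _ _ hx

include H in
theorem finite_heckeAlgebra_of_two_le (S : Set ℕ) :
    Module.Finite ℤ (CuspForm.heckeAlgebra N ((m : ℤ) + 2) S) :=
  finite_adjoin_of_dual_lattice (periodLattice H N m) (periodLattice_fg H N m)
    (periodLattice_sep H N m) _ (periodLattice_stab H N m S)

end Level

/-- **S22 from the blueprint inputs.** -/
theorem finite_heckeAlgebra (H : Inputs) (N : ℕ) [NeZero N] (k : ℤ) (S : Set ℕ) :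
    Module.Finite ℤ (CuspForm.heckeAlgebra N k S) := by
  rcases lt_or_ge k 2 with hk | hk
  · have : Subsingleton (CuspForm (CongruenceSubgroup.Gamma0 N) k) :=
      ⟨fun f g => by rw [H.weight_lt_two N k hk f, H.weight_lt_two N k hk g]⟩
    have : Subsingleton (Module.End ℂ (CuspForm (CongruenceSubgroup.Gamma0 N) k)) :=
      ⟨fun a b => LinearMap.ext fun x => Subsingleton.elim _ _⟩
    have : Subsingleton (CuspForm.heckeAlgebra N k S) :=
      ⟨fun a b => Subtype.ext (Subsingleton.elim _ _)⟩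
    infer_instance
  · obtain ⟨m, rfl⟩ : ∃ m : ℕ, k = (m : ℤ) + 2 := ⟨(k - 2).toNat, by omega⟩
    exact finite_heckeAlgebra_of_two_le H N m S

end Fermat.Agent.S22.helper22
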