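import Mathlib
import Fermat.Prelude.Def_CuspForm_HeckeAlgebra

/-!
# S22: shared definitions for the dual-period-lattice route (helper22, captain)

Everything here is a plain definition (no `sorry`).  All S22 lemma files import this file and
prove statements about these definitions.

Notation: weight `k = m + 2`, `m : ℕ`.  A *primitive vector* of `f : ℍ → ℂ` is a family
`F : ℕ → ℍ → ℂ` (only the indices `j ≤ m` matter) with `F j' = τ ^ j * f`.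
-/

namespace Fermat.Agent.S22.helper22

open UpperHalfPlane Polynomial Filter Topology
open scoped MatrixGroups ModularForm Manifold

/-- The polynomial `(g₀₀ X + g₀₁) ^ j * (g₁₀ X + g₁₁) ^ (m - j)`. -/
noncomputable def symPoly {R : Type*} [CommRing R] (m : ℕ) (g : Matrix (Fin 2) (Fin 2) R) (j : ℕ) :
    R[X] :=
  (C (g 0 0) * X + C (g 0 1)) ^ j * (C (g 1 0) * X + C (g 1 1)) ^ (m - j)

/-- `symCoeff m g j i` is the coefficient of `X ^ i` in `(g₀₀ X + g₀₁) ^ j * (g₁₀ X + g₁₁) ^ (m - j)`: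
the `(j, i)` entry of the matrix of `Sym^m g` (only `j, i ≤ m` matter). -/
noncomputable def symCoeff {R : Type*} [CommRing R] (m : ℕ) (g : Matrix (Fin 2) (Fin 2) R)
    (j i : ℕ) : R :=
  (symPoly m g j).coeff i

/-- The integer `Sym^m` coefficients of `γ ∈ SL(2, ℤ)`. -/
noncomputable def symZ (m : ℕ) (γ : SL(2, ℤ)) (j i : ℕ) : ℤ :=
  symCoeff m (γ : Matrix (Fin 2) (Fin 2) ℤ) j i

/-- `F j` is holomorphic on `ℍ` with derivative `τ ^ j * f τ`, for all `j ≤ m`. -/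
def HasPrimDeriv (m : ℕ) (f : ℍ → ℂ) (F : ℕ → ℍ → ℂ) : Prop :=
  ∀ j ≤ m, ∀ τ : ℍ, HasDerivAt (fun z : ℂ => F j (ofComplex z)) ((τ : ℂ) ^ j * f τ) (τ : ℂ)

/-- `F j` tends to `0` along every vertical ray, for all `j ≤ m`. -/
def VertDecay (m : ℕ) (F : ℕ → ℍ → ℂ) : Prop :=
  ∀ j ≤ m, ∀ τ : ℍ,
    Tendsto (fun t : ℝ => F j (ofComplex ((τ : ℂ) + (t : ℂ) * Complex.I))) atTop (𝓝 0)

/-- `F` is the canonical primitive vector of `f`. -/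
structure IsPrimVec (m : ℕ) (f : ℍ → ℂ) (F : ℕ → ℍ → ℂ) : Prop where
  deriv : HasPrimDeriv m f F
  decay : VertDecay m F

/-- The cocycle value `F_j(γ τ) - ∑_{i ≤ m} M(γ)_{j i} F_i(τ)`. -/
noncomputable def cocVal (m : ℕ) (F : ℕ → ℍ → ℂ) (γ : SL(2, ℤ)) (j : ℕ) (τ : ℍ) : ℂ :=
  F j (γ • τ) - ∑ i ∈ Finset.range (m + 1), (symZ m γ j i : ℂ) * F i τ

/-- The Eichler integral `G(τ) = ∑_{j ≤ m} (-1)^j * C(m, j) * τ^(m-j) * F_j(τ)`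
(`= ∫ (τ - z)^m f(z) dz`). -/
noncomputable def eichlerG (m : ℕ) (F : ℕ → ℍ → ℂ) (τ : ℍ) : ℂ :=
  ∑ j ∈ Finset.range (m + 1), (-1 : ℂ) ^ j * (m.choose j : ℂ) * (τ : ℂ) ^ (m - j) * F j τ

/-- The primitive vector built from iterated primitives `Ψ (n + 1)' = Ψ n` by integration by parts:
`F_j = ∑_{i ≤ j} (-1)^i * j!/(j-i)! * τ^(j-i) * Ψ_{i+1}`. -/
noncomputable def primVecOfIter (Ψ : ℕ → ℍ → ℂ) (j : ℕ) (τ : ℍ) : ℂ :=
  ∑ i ∈ Finset.range (j + 1),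
    (-1 : ℂ) ^ i * (j.descFactorial i : ℂ) * (τ : ℂ) ^ (j - i) * Ψ (i + 1) τ

/-- Integer matrix `[[1, b], [0, p]]` (the Prelude's `heckeMatrix p b`), adjugate `[[p, -b], [0, 1]]`. -/
def adjHeckeZ (p b : ℕ) : Matrix (Fin 2) (Fin 2) ℤ := !![(p : ℤ), -(b : ℤ); 0, 1]

/-- Integer matrix `[[p, 0], [0, 1]]` (the Prelude's `heckeDiagMatrix p`), adjugate `[[1, 0], [0, p]]`. -/
def adjHeckeDiagZ (p : ℕ) : Matrix (Fin 2) (Fin 2) ℤ := !![1, 0; 0, (p : ℤ)]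

/-- `F|U_p`: `(F|U_p)_j(τ) = ∑_{b < p} ∑_{l ≤ m} M(adj α_b)_{j l} F_l(α_b τ)`, `α_b = [[1, b], [0, p]]`. -/
noncomputable def heckeUVec (m p : ℕ) (F : ℕ → ℍ → ℂ) (j : ℕ) (τ : ℍ) : ℂ :=
  ∑ b ∈ Finset.range p, ∑ l ∈ Finset.range (m + 1),
    ((symCoeff m (adjHeckeZ p b) j l : ℤ) : ℂ) * F l (ModularForm.heckeMatrix p b • τ)

/-- `F|T_p = F|U_p + F|[[p,0],[0,1]]`. -/
noncomputable def heckeTVec (m p : ℕ) (F : ℕ → ℍ → ℂ) (j : ℕ) (τ : ℍ) : ℂ :=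
  heckeUVec m p F j τ + ∑ l ∈ Finset.range (m + 1),
    ((symCoeff m (adjHeckeDiagZ p) j l : ℤ) : ℂ) * F l (ModularForm.heckeDiagMatrix p • τ)

/-- The translate of a primitive vector by `γ ∈ SL(2, ℤ)`:
`(F^γ)_j(τ) = ∑_{l ≤ m} M(γ⁻¹)_{j l} F_l(γ τ)`; it is a primitive vector of `f ∣[m+2] γ`. -/
noncomputable def transVec (m : ℕ) (F : ℕ → ℍ → ℂ) (γ : SL(2, ℤ)) (j : ℕ) (τ : ℍ) : ℂ :=
  ∑ l ∈ Finset.range (m + 1), (symZ m γ⁻¹ j l : ℂ) * F l (γ • τ)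

end Fermat.Agent.S22.helper22
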