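import Fermat.Agent.S22.helper22_Defs

/-!
# S22 blueprint (helper22, captain): every intermediate result as a `Prop`-valued definition.

No `sorry` here.  Workers prove `theorem foo : Stmt_foo` (possibly from other `Stmt_*` as
hypotheses) in their own files `Fermat/Agent/S22/<seat>_<Topic>.lean`, namespace
`Fermat.Agent.S22.<seat>`, importing this file.  The assembly
`Fermat/Agent/S22/helper22_Assembly.lean` proves S22 from the twelve TOP-LEVEL statements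
(marked `[TOP]`).  The other statements are suggested intermediate steps.

Conventions: weight `k = m + 2`; families `F : ℕ → ℍ → ℂ` (only indices `≤ m` matter);
see `helper22_Defs.lean` for `symCoeff`, `symZ`, `HasPrimDeriv`, `VertDecay`, `IsPrimVec`, `cocVal`,
`eichlerG`, `primVecOfIter`, `heckeUVec`, `heckeTVec`, `transVec`.
-/

namespace Fermat.Agent.S22.helper22

open UpperHalfPlane Polynomial Filter Topology
open scoped MatrixGroups ModularForm Manifold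

/-! ## A. `symCoeff` algebra (pure polynomial algebra) -/

/-- A1: evaluation identity `∑_{i ≤ m} M(g)_{j i} x^i = (g₀₀ x + g₀₁)^j (g₁₀ x + g₁₁)^(m-j)`. -/
def Stmt_symCoeff_eval : Prop :=
  ∀ (R : Type) [CommRing R] (m : ℕ) (g : Matrix (Fin 2) (Fin 2) R) (j : ℕ), j ≤ m → ∀ x : R,
    ∑ i ∈ Finset.range (m + 1), symCoeff m g j i * x ^ i =
      (g 0 0 * x + g 0 1) ^ j * (g 1 0 * x + g 1 1) ^ (m - j)

/-- A2: multiplicativity `M(g h) = M(g) M(h)`. -/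
def Stmt_symCoeff_mul : Prop :=
  ∀ (R : Type) [CommRing R] (m : ℕ) (g h : Matrix (Fin 2) (Fin 2) R) (j : ℕ), j ≤ m → ∀ i : ℕ,
    symCoeff m (g * h) j i = ∑ l ∈ Finset.range (m + 1), symCoeff m g j l * symCoeff m h l i

/-- A3: compatibility with ring homomorphisms. -/
def Stmt_symCoeff_map : Prop :=
  ∀ (R S : Type) [CommRing R] [CommRing S] (φ : R →+* S) (m : ℕ) (g : Matrix (Fin 2) (Fin 2) R)
    (j i : ℕ), symCoeff m (g.map φ) j i = φ (symCoeff m g j i)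

/-- A4: pairing identity (coefficient of `z^i` in `(x (g₁₀ z + g₁₁) - (g₀₀ z + g₀₁))^m`). -/
def Stmt_symCoeff_pairing : Prop :=
  ∀ (R : Type) [CommRing R] (m : ℕ) (g : Matrix (Fin 2) (Fin 2) R) (i : ℕ) (x : R),
    ∑ j ∈ Finset.range (m + 1), (-1) ^ j * (m.choose j : R) * x ^ (m - j) * symCoeff m g j i =
      (-1) ^ i * (m.choose i : R) * (g 1 1 * x - g 0 1) ^ (m - i) * (g 0 0 - g 1 0 * x) ^ i

/-- A5: pairing identity, invariant form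
(coefficient of `z^i` in `((g₀₀x+g₀₁)(g₁₀z+g₁₁) - (g₁₀x+g₁₁)(g₀₀z+g₀₁))^m = (det g · (x - z))^m`). -/
def Stmt_symCoeff_pairing_det : Prop :=
  ∀ (R : Type) [CommRing R] (m : ℕ) (g : Matrix (Fin 2) (Fin 2) R) (i : ℕ) (x : R),
    ∑ j ∈ Finset.range (m + 1), (-1) ^ j * (m.choose j : R) * (g 0 0 * x + g 0 1) ^ (m - j) *
        (g 1 0 * x + g 1 1) ^ j * symCoeff m g j i =
      g.det ^ m * ((-1) ^ i * (m.choose i : R) * x ^ (m - i))

/-! ## B. cocycle algebra -/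

/-- B1 `[TOP]`: cocycle relation for `cocVal` (pure algebra from A2). -/
def Stmt_cocVal_mul : Prop :=
  ∀ (m : ℕ) (F : ℕ → ℍ → ℂ) (γ δ : SL(2, ℤ)) (j : ℕ), j ≤ m → ∀ τ : ℍ,
    cocVal m F (γ * δ) j τ =
      cocVal m F γ j (δ • τ) + ∑ i ∈ Finset.range (m + 1), (symZ m γ j i : ℂ) * cocVal m F δ i τ

/-- B2 `[TOP]`: `Γ₀(N)` is finitely generated. -/
def Stmt_gamma0_fg : Prop :=
  ∀ (N : ℕ) [NeZero N], Group.FG ↥(CongruenceSubgroup.Gamma0 N)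

/-- B3 `[TOP]`: the `ℤ`-span of the values of a cocycle on a finitely generated group is finitely
generated. -/
def Stmt_span_fg_of_cocycle : Prop :=
  ∀ (G : Type) [Group G] [Group.FG G] (A : Type) [AddCommGroup A] (n : ℕ)
    (M : G → ℕ → ℕ → ℤ) (lam : G → ℕ → A),
    (∀ g h, ∀ j < n, lam (g * h) j = lam g j + ∑ i ∈ Finset.range n, M g j i • lam h i) →
    (Submodule.span ℤ (Set.range fun x : G × Fin n => lam x.1 x.2)).FG

/-! ## C. small weights -/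

/-- C1 `[TOP]`: there are no nonzero cusp forms of weight `< 2` on `Γ₀(N)`
(`k ≤ 0`: Mathlib `ModularForm.isZero_of_neg_weight`, `eq_const_of_weight_zero`, or Prelude Sturm
bound; `k = 1`: `-1 ∈ Γ₀(N)`). -/
def Stmt_cuspForm_eq_zero_of_weight_lt_two : Prop :=
  ∀ (N : ℕ) [NeZero N] (k : ℤ), k < 2 → ∀ f : CuspForm (CongruenceSubgroup.Gamma0 N) k, f = 0

/-! ## D. existence of canonical primitive vectors -/

/-- D1: one decaying periodic primitive (cuspFunction, `dslope`, `DifferentiableOn.isExactOn_ball`). -/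
def Stmt_exists_prim_step : Prop :=
  ∀ (f : ℍ → ℂ) (h : ℝ), 0 < h → Function.Periodic (f ∘ ofComplex) h → MDiff f →
    IsZeroAtImInfty f →
    ∃ g : ℍ → ℂ, Function.Periodic (g ∘ ofComplex) h ∧ MDiff g ∧ IsZeroAtImInfty g ∧
      ∀ τ : ℍ, HasDerivAt (g ∘ ofComplex) (f τ) (τ : ℂ)

/-- D2: iterate D1. -/
def Stmt_exists_iterPrim : Prop :=
  ∀ (f : ℍ → ℂ) (h : ℝ), 0 < h → Function.Periodic (f ∘ ofComplex) h → MDiff f →
    IsZeroAtImInfty f →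
    ∃ Ψ : ℕ → ℍ → ℂ, Ψ 0 = f ∧ (∀ n, Function.Periodic (Ψ n ∘ ofComplex) h) ∧
      (∀ n, MDiff (Ψ n)) ∧ (∀ n, IsZeroAtImInfty (Ψ n)) ∧
      ∀ n (τ : ℍ), HasDerivAt (Ψ (n + 1) ∘ ofComplex) (Ψ n τ) (τ : ℂ)

/-- D3: integration by parts: `primVecOfIter Ψ` is a primitive vector of `Ψ 0`. -/
def Stmt_hasPrimDeriv_primVecOfIter : Prop :=
  ∀ (Ψ : ℕ → ℍ → ℂ), (∀ n (τ : ℍ), HasDerivAt (Ψ (n + 1) ∘ ofComplex) (Ψ n τ) (τ : ℂ)) →
    ∀ m : ℕ, HasPrimDeriv m (Ψ 0) (primVecOfIter Ψ)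

/-- D4: vertical decay of `primVecOfIter Ψ` (exponential decay of the `Ψ n`:
`UpperHalfPlane.IsZeroAtImInfty.exp_decay_atImInfty`). -/
def Stmt_vertDecay_primVecOfIter : Prop :=
  ∀ (Ψ : ℕ → ℍ → ℂ) (h : ℝ), 0 < h → (∀ n, Function.Periodic (Ψ n ∘ ofComplex) h) →
    (∀ n, MDiff (Ψ n)) → (∀ n, IsZeroAtImInfty (Ψ n)) → ∀ m : ℕ, VertDecay m (primVecOfIter Ψ)

/-- D5: binomial identity `G = m! · Ψ_{m+1}`. -/
def Stmt_eichlerG_primVecOfIter : Prop :=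
  ∀ (Ψ : ℕ → ℍ → ℂ) (m : ℕ) (τ : ℍ),
    eichlerG m (primVecOfIter Ψ) τ = (m.factorial : ℂ) * Ψ (m + 1) τ

/-- D6 `[TOP]`: canonical primitive vectors exist, with bounded periodic Eichler integral. -/
def Stmt_exists_isPrimVec : Prop :=
  ∀ (f : ℍ → ℂ) (h : ℝ), 0 < h → Function.Periodic (f ∘ ofComplex) h → MDiff f →
    IsZeroAtImInfty f → ∀ m : ℕ,
    ∃ F : ℕ → ℍ → ℂ, IsPrimVec m f F ∧ IsBoundedAtImInfty (eichlerG m F) ∧
      Function.Periodic (eichlerG m F ∘ ofComplex) h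

/-! ## E. uniqueness and the cocycle -/

/-- E1 `[TOP]`: canonical primitive vectors are unique. -/
def Stmt_isPrimVec_unique : Prop :=
  ∀ (m : ℕ) (f : ℍ → ℂ) (F F' : ℕ → ℍ → ℂ), IsPrimVec m f F → IsPrimVec m f F' →
    ∀ j ≤ m, ∀ τ : ℍ, F j τ = F' j τ

/-- E2: two primitive vectors of the same function differ by constants. -/
def Stmt_hasPrimDeriv_sub_const : Prop :=
  ∀ (m : ℕ) (f : ℍ → ℂ) (F F' : ℕ → ℍ → ℂ), HasPrimDeriv m f F → HasPrimDeriv m f F' →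
    ∃ v : ℕ → ℂ, ∀ j ≤ m, ∀ τ : ℍ, F j τ = F' j τ + v j

/-- E3 `[TOP]`: for `f ∣[m+2] γ = f` the cocycle value does not depend on `τ`
(chain rule + A1 + `ℍ` connected). -/
def Stmt_cocVal_const : Prop :=
  ∀ (m : ℕ) (f : ℍ → ℂ) (F : ℕ → ℍ → ℂ), HasPrimDeriv m f F → ∀ γ : SL(2, ℤ),
    f ∣[(m : ℤ) + 2] γ = f → ∀ j ≤ m, ∀ τ τ' : ℍ, cocVal m F γ j τ = cocVal m F γ j τ'

/-! ## F. Hecke operators -/

/-- F1 `[TOP]`: `heckeUVec m p F` is the canonical primitive vector of `U_p f`. -/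
def Stmt_isPrimVec_heckeU : Prop :=
  ∀ (m : ℕ) (f : ℍ → ℂ) (F : ℕ → ℍ → ℂ), IsPrimVec m f F → ∀ p : ℕ, p ≠ 0 →
    IsPrimVec m (ModularForm.heckeU ((m : ℤ) + 2) p f) (heckeUVec m p F)

/-- F2 `[TOP]`: `heckeTVec m p F` is the canonical primitive vector of `T_p f`. -/
def Stmt_isPrimVec_heckeT : Prop :=
  ∀ (m : ℕ) (f : ℍ → ℂ) (F : ℕ → ℍ → ℂ), IsPrimVec m f F → ∀ p : ℕ, p ≠ 0 →
    IsPrimVec m (ModularForm.heckeT ((m : ℤ) + 2) p f) (heckeTVec m p F)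

/-- F3 `[TOP]`: the cocycle of `heckeTVec m p F` is an integer combination of cocycle values of `F`
(coset lemma `heckeRep_mul` of the Prelude `Sol` modules, A2, reindexing). -/
def Stmt_heckeTVec_cocVal : Prop :=
  ∀ (N : ℕ) [NeZero N] (m p : ℕ), p.Prime → ¬ p ∣ N →
    ∀ γ : SL(2, ℤ), γ ∈ CongruenceSubgroup.Gamma0 N → ∀ j ≤ m,
    ∃ (ι : Type) (_ : Fintype ι) (δ : ι → SL(2, ℤ)) (l : ι → ℕ) (c : ι → ℤ),
      (∀ r, δ r ∈ CongruenceSubgroup.Gamma0 N) ∧ (∀ r, l r ≤ m) ∧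
      ∀ F : ℕ → ℍ → ℂ,
        (∀ δ' ∈ CongruenceSubgroup.Gamma0 N, ∀ i ≤ m, ∀ τ τ' : ℍ,
          cocVal m F δ' i τ = cocVal m F δ' i τ') →
        ∀ τ τ₀ : ℍ,
          cocVal m (heckeTVec m p F) γ j τ = ∑ r, (c r : ℂ) * cocVal m F (δ r) (l r) τ₀

/-- F4 `[TOP]`: same for `U_p`, `p ∣ N` (coset lemma `heckeMatrix_mul_of_dvd`). -/
def Stmt_heckeUVec_cocVal : Prop :=
  ∀ (N : ℕ) [NeZero N] (m p : ℕ), p.Prime → p ∣ N →
    ∀ γ : SL(2, ℤ), γ ∈ CongruenceSubgroup.Gamma0 N → ∀ j ≤ m,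
    ∃ (ι : Type) (_ : Fintype ι) (δ : ι → SL(2, ℤ)) (l : ι → ℕ) (c : ι → ℤ),
      (∀ r, δ r ∈ CongruenceSubgroup.Gamma0 N) ∧ (∀ r, l r ≤ m) ∧
      ∀ F : ℕ → ℍ → ℂ,
        (∀ δ' ∈ CongruenceSubgroup.Gamma0 N, ∀ i ≤ m, ∀ τ τ' : ℍ,
          cocVal m F δ' i τ = cocVal m F δ' i τ') →
        ∀ τ τ₀ : ℍ,
          cocVal m (heckeUVec m p F) γ j τ = ∑ r, (c r : ℂ) * cocVal m F (δ r) (l r) τ₀

/-! ## G. injectivity -/

/-- G1: if `F(γτ) = M(γ) F(τ)` then the Eichler integral is weight `-m` invariant under `γ` (A5). -/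
def Stmt_eichlerG_slash_of_cocVal_zero : Prop :=
  ∀ (m : ℕ) (F : ℕ → ℍ → ℂ) (γ : SL(2, ℤ)), (∀ j ≤ m, ∀ τ : ℍ, cocVal m F γ j τ = 0) →
    (eichlerG m F) ∣[-(m : ℤ)] γ = eichlerG m F

/-- G2: the Eichler integral is holomorphic. -/
def Stmt_mdifferentiable_eichlerG : Prop :=
  ∀ (m : ℕ) (f : ℍ → ℂ) (F : ℕ → ℍ → ℂ), HasPrimDeriv m f F → MDiff (eichlerG m F)

/-- G3: `G^{(m+1)} = m! f`, in the form: if `G` is constant then `f = 0`
(induction on `m` via `G_{m+1}' = (m+1) G_m`). -/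
def Stmt_eq_zero_of_eichlerG_const : Prop :=
  ∀ (m : ℕ) (f : ℍ → ℂ) (F : ℕ → ℍ → ℂ), HasPrimDeriv m f F →
    ∀ c : ℂ, (∀ τ : ℍ, eichlerG m F τ = c) → ∀ τ : ℍ, f τ = 0

/-- G4: `transVec m F γ` is a primitive vector of `f ∣[m+2] γ` (chain rule + A1). -/
def Stmt_hasPrimDeriv_transVec : Prop :=
  ∀ (m : ℕ) (f : ℍ → ℂ) (F : ℕ → ℍ → ℂ), HasPrimDeriv m f F → ∀ γ : SL(2, ℤ),
    HasPrimDeriv m (f ∣[(m : ℤ) + 2] γ) (transVec m F γ)

/-- G5: the Eichler integral of `transVec m F γ` is the weight `-m` slash of that of `F` (A4). -/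
def Stmt_eichlerG_transVec : Prop :=
  ∀ (m : ℕ) (F : ℕ → ℍ → ℂ) (γ : SL(2, ℤ)),
    eichlerG m (transVec m F γ) = (eichlerG m F) ∣[-(m : ℤ)] γ

/-- G6: a periodic polynomial is constant. -/
def Stmt_eichlerG_const_of_periodic : Prop :=
  ∀ (m : ℕ) (v : ℕ → ℂ) (h : ℝ), 0 < h →
    Function.Periodic ((eichlerG m fun j _ => v j) ∘ ofComplex) h →
    ∃ c : ℂ, ∀ τ : ℍ, eichlerG m (fun j _ => v j) τ = c

/-- G7: boundedness of the Eichler integral at every cusp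
(G4, G5, E2, G6, D6 applied to `f ∣[m+2] γ`, which is `N`-periodic and zero at `i∞`). -/
def Stmt_isBoundedAtImInfty_eichlerG_slash : Prop :=
  ∀ (N : ℕ) [NeZero N] (m : ℕ) (f : CuspForm (CongruenceSubgroup.Gamma0 N) ((m : ℤ) + 2))
    (F : ℕ → ℍ → ℂ), IsPrimVec m f F →
    (∀ γ ∈ CongruenceSubgroup.Gamma0 N, ∀ j ≤ m, ∀ τ : ℍ, cocVal m F γ j τ = 0) →
    ∀ γ : SL(2, ℤ), IsBoundedAtImInfty ((eichlerG m F) ∣[-(m : ℤ)] γ)

/-- G8 `[TOP]`: injectivity of the period map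
(G1, G2, G7 give a `ModularForm Γ₀(N) (-m)`; Mathlib `ModularForm.isZero_of_neg_weight`,
`ModularForm.eq_const_of_weight_zero`; then G3). -/
def Stmt_eq_zero_of_cocVal_eq_zero : Prop :=
  ∀ (N : ℕ) [NeZero N] (m : ℕ) (f : CuspForm (CongruenceSubgroup.Gamma0 N) ((m : ℤ) + 2))
    (F : ℕ → ℍ → ℂ), IsPrimVec m f F →
    (∀ γ ∈ CongruenceSubgroup.Gamma0 N, ∀ j ≤ m, ∀ τ : ℍ, cocVal m F γ j τ = 0) → f = 0

end Fermat.Agent.S22.helper22
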