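import Mathlib
import Fermat.Prelude.Thm_Subgroup_IsArithmetic_exists_nat_mem_strictPeriods_conj
import Fermat.Agent.S22.helper322_Bol
import Fermat.Agent.S22.helper1222_EichlerSeries

/-!
# Separation lemma for the Eichler cocycle lattice (helper2302)

If `F` is a holomorphic `(w+1)`-fold `D`-primitive of a cusp form `f` of weight `w + 2` on
`Γ₀(N)`, `F` is zero at `i∞`, and `F` is invariant under the weight `-w` slash action of `Γ₀(N)`,
then `f = 0`.

Route: for `σ ∈ SL(2, ℤ)`, Bol's identity gives `D^[w+1] (F ∣[-w] σ) = f ∣[w+2] σ`; the Eichler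
series of the cusp form `f ∣ σ` has the same `(w+1)`-st derivative, so the difference is a
polynomial; it is periodic, hence constant.  So `F` is bounded at all cusps, i.e. a modular form of
weight `-w ≤ 0`, hence zero (or constant, hence zero, when `w = 0`).
-/

set_option autoImplicit false

open UpperHalfPlane hiding I
open Real Complex Filter
open scoped Manifold MatrixGroups ModularForm Topology
open Derivative CongruenceSubgroup Matrix.SpecialLinearGroup
open scoped Pointwise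

namespace Fermat.Agent.S22.helper2302

noncomputable section

open Fermat.Agent.S22.helper322 Fermat.Agent.S22.helper1222

/-- The `j`-fold Eichler integral (w.r.t. the period `h`) as a function on `ℍ`. -/
def eichlerH (h : ℝ) (f : ℍ → ℂ) (j : ℕ) : ℍ → ℂ := fun τ ↦ eichlerOf h f j (τ : ℂ)

section tower

variable {F : Type*} [FunLike F ℍ ℂ] {Γ : Subgroup (GL (Fin 2) ℝ)} {k : ℤ} {h : ℝ}

lemma eichlerH_zero [ModularFormClass F Γ k] (f : F) (hh : 0 < h) (hΓ : h ∈ Γ.strictPeriods) :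
    eichlerH h f 0 = f := by
  funext τ
  exact eichlerOf_zero f hh hΓ τ.im_pos

lemma eichlerH_comp_ofComplex_eventuallyEq (f : ℍ → ℂ) (j : ℕ) (τ : ℍ) :
    (eichlerH h f j ∘ ofComplex) =ᶠ[𝓝 (τ : ℂ)] eichlerOf h f j := by
  filter_upwards [isOpen_upperHalfPlaneSet.mem_nhds τ.im_pos] with w hw
  simp [eichlerH, Function.comp_apply, ofComplex_apply_of_im_pos hw]

lemma mdiff_eichlerH_succ [CuspFormClass F Γ k] (f : F) (hh : 0 < h) (hΓ : h ∈ Γ.strictPeriods)
    (j : ℕ) : MDiff (eichlerH h f (j + 1)) := by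
  intro τ
  rw [UpperHalfPlane.mdifferentiableAt_iff]
  exact ((hasDerivAt_eichlerOf f hh hΓ j τ.im_pos).differentiableAt).congr_of_eventuallyEq
    (eichlerH_comp_ofComplex_eventuallyEq f (j + 1) τ)

lemma mdiff_eichlerH [CuspFormClass F Γ k] (f : F) (hh : 0 < h) (hΓ : h ∈ Γ.strictPeriods)
    (j : ℕ) : MDiff (eichlerH h f j) := by
  cases j with
  | zero =>
    rw [eichlerH_zero f hh hΓ]
    exact ModularFormClass.holo f
  | succ j => exact mdiff_eichlerH_succ f hh hΓ j

lemma D_eichlerH_succ [CuspFormClass F Γ k] (f : F) (hh : 0 < h) (hΓ : h ∈ Γ.strictPeriods)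
    (j : ℕ) : D (eichlerH h f (j + 1)) = (2 * π * I : ℂ)⁻¹ • eichlerH h f j := by
  funext τ
  simp only [normalizedDerivOfComplex]
  rw [(eichlerH_comp_ofComplex_eventuallyEq f (j + 1) τ).deriv_eq,
    (hasDerivAt_eichlerOf f hh hΓ j τ.im_pos).deriv]
  rfl

lemma iterate_D_eichlerH [CuspFormClass F Γ k] (f : F) (hh : 0 < h) (hΓ : h ∈ Γ.strictPeriods)
    (n : ℕ) : D^[n] (eichlerH h f n) = ((2 * π * I : ℂ)⁻¹) ^ n • (f : ℍ → ℂ) := by
  induction n with
  | zero => simp [eichlerH_zero f hh hΓ]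
  | succ n ih =>
    rw [Function.iterate_succ_apply, D_eichlerH_succ f hh hΓ n,
      iterate_D_smul _ (mdiff_eichlerH f hh hΓ n), ih, smul_smul, pow_succ']

lemma isZeroAtImInfty_eichlerH [CuspFormClass F Γ k] (f : F) (hh : 0 < h)
    (hΓ : h ∈ Γ.strictPeriods) (j : ℕ) : IsZeroAtImInfty (eichlerH h f j) :=
  (tendsto_eichlerOf_zero f hh hΓ j).comp tendsto_coe_atImInfty

lemma eichlerH_vadd (f : ℍ → ℂ) (j : ℕ) (τ : ℍ) :
    eichlerH h f j (h +ᵥ τ) = eichlerH h f j τ := by
  simp only [eichlerH, coe_vadd]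
  rw [add_comm]
  exact eichlerOf_periodic h f j τ

end tower

section main

/-- A polynomial function on `ℍ` which is periodic is constant. -/
lemma exists_const_of_polyFun_periodic (P : Polynomial ℂ) {M : ℝ} (hM : 0 < M)
    (hper : ∀ τ : ℍ, polyFun P (M +ᵥ τ) = polyFun P τ) : P = Polynomial.C (P.eval I) := by
  have key : ∀ n : ℕ, P.eval ((n : ℂ) * M + I) = P.eval I := by
    intro n
    induction n with
    | zero => simp
    | succ n ih =>
      have him : 0 < ((n : ℂ) * M + I).im := by simp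
      have h1 := hper ⟨_, him⟩
      simp only [polyFun, coe_vadd] at h1
      rw [← ih, ← h1]
      congr 1
      push_cast
      ring
  have hroot : {x | (P - Polynomial.C (P.eval I)).IsRoot x}.Infinite := by
    have hinf : (Set.range fun n : ℕ ↦ ((n : ℂ) * M + I)).Infinite := by
      refine Set.infinite_range_of_injective fun a b hab ↦ ?_
      have hM' : (M : ℂ) ≠ 0 := by exact_mod_cast hM.ne'
      simpa [hM'] using hab
    refine hinf.mono ?_
    rintro _ ⟨n, rfl⟩
    simp [Polynomial.IsRoot, key n]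
  exact sub_eq_zero.mp (Polynomial.eq_zero_of_infinite_isRoot _ hroot)

/-- A modular form of weight `≤ 0` for an arithmetic group which is zero at `i∞` vanishes. -/
lemma eq_zero_of_modularForm_nonpos {Γ : Subgroup (GL (Fin 2) ℝ)} [Γ.IsArithmetic] {κ : ℤ}
    (hκ : κ ≤ 0) (Fm : ModularForm Γ κ) (hzero : IsZeroAtImInfty (Fm : ℍ → ℂ)) :
    (Fm : ℍ → ℂ) = 0 := by
  rcases hκ.lt_or_eq with h | h
  · rw [ModularForm.isZero_of_neg_weight h Fm]
    rfl
  · subst h
    obtain ⟨c, hc⟩ := ModularForm.eq_const_of_weight_zero Fm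
    have hc0 : c = 0 := by
      have h1 : Tendsto (Fm : ℍ → ℂ) atImInfty (𝓝 0) := hzero
      rw [hc] at h1
      exact tendsto_nhds_unique tendsto_const_nhds h1
    rw [hc, hc0]
    rfl

variable {N : ℕ} [NeZero N] {k : ℤ} {w : ℕ}

local notation "Γ₀(" N ")" => ((Gamma0 N : Subgroup SL(2, ℤ)) : Subgroup (GL (Fin 2) ℝ))

/-- **Boundedness at all cusps** of a weight `-w` invariant Eichler integral. -/
theorem isBoundedAtImInfty_slash_of_eichler (hk : k = (w : ℤ) + 2) (f : CuspForm (Gamma0 N) k)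
    (F : ℍ → ℂ) (hF : MDiff F) (hD : D^[w + 1] F = f)
    (hinv : ∀ γ : SL(2, ℤ), γ ∈ Gamma0 N → F ∣[(-(w : ℤ))] γ = F) (σ : SL(2, ℤ)) :
    IsBoundedAtImInfty (F ∣[(-(w : ℤ))] σ) := by
  subst hk
  have hinv' : ∀ γ ∈ Γ₀(N), F ∣[(-(w : ℤ))] γ = F := by
    rintro _ ⟨g, hg, rfl⟩
    exact hinv g hg
  let Fsif : SlashInvariantForm Γ₀(N) (-(w : ℤ)) := ⟨F, hinv'⟩
  obtain ⟨M, hMpos, hM⟩ := Subgroup.IsArithmetic.exists_nat_mem_strictPeriods_conj Γ₀(N)
  have hMpos' : (0 : ℝ) < (M : ℝ) := by exact_mod_cast hMpos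
  set g : GL (Fin 2) ℝ := mapGL ℝ σ with hg
  have hper : (M : ℝ) ∈ (ConjAct.toConjAct g⁻¹ • Γ₀(N)).strictPeriods := by
    have := hM σ⁻¹
    rwa [map_inv] at this
  let fσ : CuspForm (ConjAct.toConjAct g⁻¹ • Γ₀(N)) ((w : ℤ) + 2) := CuspForm.translate f g
  have hfσ : (fσ : ℍ → ℂ) = (f : ℍ → ℂ) ∣[(w : ℤ) + 2] g := rfl
  -- the Eichler integral of `f ∣ σ`
  set G : ℍ → ℂ := (2 * π * I : ℂ) ^ (w + 1) • eichlerH (M : ℝ) fσ (w + 1) with hGdef
  have hGmd : MDiff G := by
    have := mdiff_eichlerH fσ hMpos' hper (w + 1)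
    exact this.const_smul _
  have hpi : (2 * π * I : ℂ) ≠ 0 := by
    simp [Real.pi_ne_zero, Complex.I_ne_zero]
  have hDG : D^[w + 1] G = (fσ : ℍ → ℂ) := by
    rw [hGdef, iterate_D_smul _ (mdiff_eichlerH fσ hMpos' hper (w + 1)),
      iterate_D_eichlerH fσ hMpos' hper (w + 1), smul_smul, ← mul_pow, mul_inv_cancel₀ hpi,
      one_pow, one_smul]
  -- Bol
  have hdet : g.val.det = 1 :=
    (Matrix.SpecialLinearGroup.map (Int.castRingHom ℝ) σ).det_coe
  have hdetpos : 0 < g.val.det := by rw [hdet]; exact one_pos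
  have hbol := bol_identity hdetpos (w + 1) hF
  have e1 : (1 : ℤ) - ((w + 1 : ℕ) : ℤ) = -(w : ℤ) := by push_cast; ring
  have e2 : (((w + 1 : ℕ) : ℤ) + 1) = (w : ℤ) + 2 := by push_cast; ring
  rw [e1, e2, hD, hdet] at hbol
  have hFσmd : MDiff (F ∣[(-(w : ℤ))] g) := hF.slash _ g
  have hDH : D^[w + 1] (F ∣[(-(w : ℤ))] g - G) = 0 := by
    rw [iterate_D_sub hFσmd hGmd, hbol, hDG, hfσ]
    funext z
    simp
  obtain ⟨P, -, hP⟩ := exists_polynomial_of_iterate_D_eq_zero (w + 1) (hFσmd.sub hGmd) hDH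
  -- periodicity
  have hperP : ∀ τ : ℍ, polyFun P ((M : ℝ) +ᵥ τ) = polyFun P τ := by
    intro τ
    rw [← hP]
    simp only [Pi.sub_apply]
    have h1 : (F ∣[(-(w : ℤ))] g) ((M : ℝ) +ᵥ τ) = (F ∣[(-(w : ℤ))] g) τ :=
      SlashInvariantForm.vAdd_apply_of_mem_strictPeriods (SlashInvariantForm.translate Fsif g) τ
        hper
    have h2 : G ((M : ℝ) +ᵥ τ) = G τ := by
      simp only [hGdef, Pi.smul_apply, eichlerH_vadd]
    rw [h1, h2]
  have hPc := exists_const_of_polyFun_periodic P hMpos' hperP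
  have hFσ : F ∣[(-(w : ℤ))] g = G + Function.const ℍ (P.eval I) := by
    funext τ
    have := congrFun hP τ
    simp only [Pi.sub_apply, polyFun] at this
    rw [hPc] at this
    simp only [Polynomial.eval_C] at this
    simp only [Pi.add_apply, Function.const_apply]
    rw [← this]
    ring
  have hGb : IsBoundedAtImInfty G := by
    have h1 : IsZeroAtImInfty (eichlerH (M : ℝ) fσ (w + 1)) :=
      isZeroAtImInfty_eichlerH fσ hMpos' hper (w + 1)
    have h2 : IsZeroAtImInfty G := by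
      have h1' : Tendsto (eichlerH (M : ℝ) fσ (w + 1)) atImInfty (𝓝 0) := h1
      have h3 := h1'.const_mul ((2 * π * I : ℂ) ^ (w + 1))
      rw [mul_zero] at h3
      exact h3
    exact h2.boundedAtFilter
  show IsBoundedAtImInfty (F ∣[(-(w : ℤ))] g)
  rw [hFσ]
  exact hGb.add (Filter.const_boundedAtFilter _ _)

/-- **Separation lemma**: a weight `-w` invariant `(w+1)`-fold `D`-primitive of a cusp form `f`
of weight `w + 2` on `Γ₀(N)` which is zero at `i∞` forces `f = 0`. -/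
theorem sep_core (hk : k = (w : ℤ) + 2) (f : CuspForm (Gamma0 N) k) (F : ℍ → ℂ) (hF : MDiff F)
    (hD : D^[w + 1] F = f) (hzero : IsZeroAtImInfty F)
    (hinv : ∀ γ : SL(2, ℤ), γ ∈ Gamma0 N → F ∣[(-(w : ℤ))] γ = F) : f = 0 := by
  have hinv' : ∀ γ ∈ Γ₀(N), F ∣[(-(w : ℤ))] γ = F := by
    rintro _ ⟨g, hg, rfl⟩
    exact hinv g hg
  have hbdd := isBoundedAtImInfty_slash_of_eichler hk f F hF hD hinv
  -- `F` as a modular form of weight `-w`
  let Fmf : ModularForm Γ₀(N) (-(w : ℤ)) :=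
    { toFun := F
      slash_action_eq' := hinv'
      holo' := hF
      bdd_at_cusps' := fun {c} hc => by
        have hc' : IsCusp c (mapGL ℝ : SL(2, ℤ) →* GL (Fin 2) ℝ).range :=
          hc.mono (by
            rintro _ ⟨g, -, rfl⟩
            exact ⟨g, rfl⟩)
        exact (OnePoint.isBoundedAt_iff_forall_SL2Z hc').mpr fun σ _ => hbdd σ }
  have hF0 : F = 0 :=
    eq_zero_of_modularForm_nonpos (by omega) Fmf hzero
  have hf0 : (f : ℍ → ℂ) = 0 := by
    rw [← hD, hF0, iterate_D_zero]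
  exact DFunLike.coe_injective hf0

end main

end

end Fermat.Agent.S22.helper2302
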