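import Mathlib
import Fermat.Prelude.Def_CuspForm_HeckeAlgebra
import Fermat.Agent.S22.helper262_CocycleLattice
import Fermat.Agent.S22.helper262_Instance
import Fermat.Agent.S22.helper1266_Sep
import Fermat.Agent.S22.helper283_Trivial

/-!
# S22: the `EichlerData` instance and the final statement (helper262)
-/

set_option autoImplicit false

namespace Fermat.Agent.S22.helper262

open UpperHalfPlane CongruenceSubgroup
open scoped Manifold MatrixGroups ModularForm

noncomputable section

/-- The Eichler data of weight `w + 2` and level `Γ₀(N)`. -/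
def eichlerData (N : ℕ) [NeZero N] (w : ℕ) : EichlerData N ((w : ℤ) + 2) w where
  E := eichlerLin N ((w : ℤ) + 2) w
  poly f γ hγ := eichlerFun_poly rfl f γ hγ
  sep f h := Fermat.Agent.S22.helper1266.sep_core rfl f (eichlerFun w f) (mdiff_eichlerFun w f)
    (iterate_D_eichlerFun w f) h
  heckeT hp hpN f := eichlerFun_heckeT rfl hp hpN f
  heckeU hp hpN f := eichlerFun_heckeU hp hpN f

/-- **S22**: the Hecke algebra of `S_k(Γ₀(N))` is a finitely generated `ℤ`-module. -/
theorem moduleFinite_heckeAlgebra_all (N : ℕ) [NeZero N] (k : ℤ) (S : Set ℕ) :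
    Module.Finite ℤ (CuspForm.heckeAlgebra N k S) :=
  Fermat.Agent.S22.helper283.finite_heckeAlgebra_of_eichlerData
    (fun w => ⟨eichlerData N w⟩) k S

end

end Fermat.Agent.S22.helper262
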