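import Mathlib
import Fermat.Prelude.Def_CuspForm_HeckeAlgebra
import Fermat.Prelude.Def_CuspForm_IntegralStructure
import Fermat.Prelude.Thm_CuspForm_intLattice_fg
import Fermat.Agent.Lib.helper229_HeckeLattice
import Fermat.Agent.S23.helper263_Assembly

/-!
# S22 from the S23 route (helper263, backup wiring)

`heckeAlgebra_finite_of_conj_bd` :
`Stmt_FF → (∀ k, 1 ≤ k → Stmt_Conj N k) → (∀ k, 1 ≤ k → Stmt_BD N k) →
  ∀ k S, Module.Finite ℤ (CuspForm.heckeAlgebra N k S)`.

For `k ≤ 0` the space of cusp forms is zero (Sturm bound from the Prelude), so the Hecke algebra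
is a subsingleton; for `k ≥ 1` use `Lib.helper229.heckeAlgebra_finite_of_hasIntegralStructure`
and `S23.helper263.assembly`.
-/

set_option autoImplicit false

namespace Fermat.Agent.S22.helper263

open ModularFormClass

local notation "Γ₀(" N ")" => CongruenceSubgroup.Gamma0 N

/-- Cusp forms of weight `k ≤ 0` on `Γ₀(N)` vanish. -/
theorem cuspForm_eq_zero_of_nonpos (N : ℕ) [NeZero N] {k : ℤ} (hk : k ≤ 0)
    (f : CuspForm Γ₀(N) k) : f = 0 := by
  apply P2MW.S_CuspForm_intLattice_fg.W3WsD.trunc_injective N k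
  funext i
  have hB : P2MW.S_CuspForm_intLattice_fg.W3WsD.sturmB N k = 0 := by
    unfold P2MW.S_CuspForm_intLattice_fg.W3WsD.sturmB
    have h1 : k * ((Γ₀(N)).index : ℤ) ≤ 0 :=
      mul_nonpos_of_nonpos_of_nonneg hk (Int.natCast_nonneg _)
    rw [Int.toNat_of_nonpos h1]
  have hi : (i : ℕ) = 0 := by
    have := i.2
    omega
  show qCoeff ⇑f (i : ℕ) = qCoeff ⇑(0 : CuspForm Γ₀(N) k) (i : ℕ)
  rw [hi, Fermat.Agent.Lib.helper229.qCoeff_zero_eq_zero,
    Fermat.Agent.Lib.helper229.qCoeff_zero_eq_zero]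

/-- For `k ≤ 0` the Hecke algebra is a finite `ℤ`-module (it acts on the zero space). -/
theorem heckeAlgebra_finite_of_nonpos (N : ℕ) [NeZero N] {k : ℤ} (hk : k ≤ 0) (S : Set ℕ) :
    Module.Finite ℤ (CuspForm.heckeAlgebra N k S) := by
  have hsub : Subsingleton (CuspForm Γ₀(N) k) :=
    ⟨fun f g => by rw [cuspForm_eq_zero_of_nonpos N hk f, cuspForm_eq_zero_of_nonpos N hk g]⟩
  have hsubEnd : Subsingleton (Module.End ℂ (CuspForm Γ₀(N) k)) :=
    ⟨fun a b => LinearMap.ext fun x => Subsingleton.elim _ _⟩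
  have hsubA : Subsingleton (CuspForm.heckeAlgebra N k S) :=
    ⟨fun a b => Subtype.ext (Subsingleton.elim _ _)⟩
  infer_instance

/-- **S22 from the S23 route.** -/
theorem heckeAlgebra_finite_of_conj_bd (N : ℕ) [NeZero N]
    (hFF : Fermat.Agent.S23.helper263.Stmt_FF)
    (hC : ∀ k : ℤ, 1 ≤ k → Fermat.Agent.S23.helper263.Stmt_Conj N k)
    (hBD : ∀ k : ℤ, 1 ≤ k → Fermat.Agent.S23.helper263.Stmt_BD N k)
    (k : ℤ) (S : Set ℕ) : Module.Finite ℤ (CuspForm.heckeAlgebra N k S) := by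
  rcases le_or_gt k 0 with hk | hk
  · exact heckeAlgebra_finite_of_nonpos N hk S
  · have hk1 : 1 ≤ k := hk
    exact Fermat.Agent.Lib.helper229.heckeAlgebra_finite_of_hasIntegralStructure hk1 S
      (Fermat.Agent.S23.helper263.assembly N k hFF (hC k hk1) (hBD k hk1))

end Fermat.Agent.S22.helper263
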