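import Mathlib
import Fermat.Prelude.Def_CuspForm_HeckeAlgebra
import Fermat.Prelude.Thm_Subgroup_IsArithmetic_exists_nat_mem_strictPeriods_conj
import Fermat.Prelude.Thm_CongruenceSubgroup_one_mem_strictPeriods_Gamma0
import Fermat.Prelude.Thm_ModularForm_periodic_heckeT_comp_ofComplex
import Fermat.Prelude.Thm_ModularForm_periodic_heckeU_comp_ofComplex
import Fermat.Agent.S22.helper322_Bol
import Fermat.Agent.S22.helper1222_EichlerSeries

set_option autoImplicit false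

open UpperHalfPlane hiding I
open Real Complex Filter
open scoped Manifold MatrixGroups ModularForm Topology
open Derivative
open Fermat.Agent.S22.helper1222

namespace Fermat.Agent.S22.helper322

noncomputable section

/-! ### Restricting functions on `ℂ` to `ℍ` -/

theorem hasDerivAt_comp_ofComplex {g : ℂ → ℂ} {g' : ℂ} {τ : ℍ} (hg : HasDerivAt g g' τ) :
    HasDerivAt ((fun τ : ℍ ↦ g τ) ∘ ofComplex) g' τ := by
  refine hg.congr_of_eventuallyEq ?_
  filter_upwards [isOpen_upperHalfPlaneSet.mem_nhds τ.im_pos] with w hw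
  simp [Function.comp_apply, ofComplex_apply_of_im_pos hw]

theorem mdiff_of_hasDerivAt {g g' : ℂ → ℂ} (hg : ∀ z : ℂ, 0 < z.im → HasDerivAt g (g' z) z) :
    MDiff (fun τ : ℍ ↦ g τ) := by
  intro τ
  rw [UpperHalfPlane.mdifferentiableAt_iff]
  exact (hasDerivAt_comp_ofComplex (hg τ τ.im_pos)).differentiableAt

theorem D_of_hasDerivAt {g g' : ℂ → ℂ} (hg : ∀ z : ℂ, 0 < z.im → HasDerivAt g (g' z) z) :
    D (fun τ : ℍ ↦ g τ) = fun τ : ℍ ↦ (2 * π * I)⁻¹ * g' τ := by
  ext τ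
  simp only [normalizedDerivOfComplex]
  rw [(hasDerivAt_comp_ofComplex (hg τ τ.im_pos)).deriv]

/-! ### The `n`-fold primitive of a cusp form -/

section prim

variable {F : Type*} [FunLike F ℍ ℂ] {Γ : Subgroup (GL (Fin 2) ℝ)} {k : ℤ} {h : ℝ}

/-- The `n`-fold primitive (with respect to `D = (2πi)⁻¹ d/dz`) of `f`, normalised to be
`h`-periodic and zero at `i∞`. -/
def prim (h : ℝ) (f : ℍ → ℂ) (n : ℕ) : ℍ → ℂ :=
  fun τ ↦ (2 * π * I) ^ n * eichlerOf h f n τ

theorem two_pi_I_ne_zero : (2 * π * I : ℂ) ≠ 0 := by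
  simp [Real.pi_ne_zero, Complex.I_ne_zero]

theorem prim_zero [ModularFormClass F Γ k] (f : F) (hh : 0 < h) (hΓ : h ∈ Γ.strictPeriods) :
    prim h f 0 = f := by
  ext τ
  simp [prim, eichlerOf_zero f hh hΓ τ.im_pos]

theorem mdiff_prim [CuspFormClass F Γ k] (f : F) (hh : 0 < h) (hΓ : h ∈ Γ.strictPeriods)
    (n : ℕ) : MDiff (prim h f n) := by
  rcases n with _ | n
  · rw [prim_zero f hh hΓ]
    exact ModularFormClass.holo f
  · exact mdiff_of_hasDerivAt (g := fun z ↦ (2 * π * I) ^ (n + 1) * eichlerOf h f (n + 1) z)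
      fun z hz ↦ (hasDerivAt_eichlerOf f hh hΓ n hz).const_mul _

theorem D_prim_succ [CuspFormClass F Γ k] (f : F) (hh : 0 < h) (hΓ : h ∈ Γ.strictPeriods)
    (n : ℕ) : D (prim h f (n + 1)) = prim h f n := by
  have := D_of_hasDerivAt (g := fun z ↦ (2 * π * I) ^ (n + 1) * eichlerOf h f (n + 1) z)
    fun z hz ↦ (hasDerivAt_eichlerOf f hh hΓ n hz).const_mul _
  unfold prim
  rw [this]
  ext τ
  rw [pow_succ]
  field_simp [two_pi_I_ne_zero]

theorem iterate_D_prim [CuspFormClass F Γ k] (f : F) (hh : 0 < h) (hΓ : h ∈ Γ.strictPeriods)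
    (n : ℕ) : D^[n] (prim h f n) = f := by
  induction n with
  | zero => simpa using prim_zero f hh hΓ
  | succ n ih => rw [Function.iterate_succ_apply, D_prim_succ f hh hΓ, ih]

theorem periodic_prim (h : ℝ) (f : ℍ → ℂ) (n : ℕ) (τ : ℍ) :
    prim h f n (h +ᵥ τ) = prim h f n τ := by
  unfold prim
  have := eichlerOf_periodic h f n (τ : ℂ)
  rw [UpperHalfPlane.coe_vadd, add_comm, this]

theorem isZeroAtImInfty_prim [CuspFormClass F Γ k] (f : F) (hh : 0 < h)
    (hΓ : h ∈ Γ.strictPeriods) (n : ℕ) : IsZeroAtImInfty (prim h f n) := by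
  have h1 := tendsto_eichlerOf_zero f hh hΓ n
  have h2 : Tendsto (fun τ : ℍ ↦ (τ : ℂ)) atImInfty (comap Complex.im atTop) := by
    rw [tendsto_comap_iff]
    exact tendsto_comap
  have h3 := (h1.comp h2).const_mul ((2 * π * I) ^ n)
  rw [mul_zero] at h3
  exact h3

theorem prim_add (f g : CuspForm Γ k) (hh : 0 < h) (hΓ : h ∈ Γ.strictPeriods) (n : ℕ) :
    prim h (⇑(f + g)) n = prim h f n + prim h g n := by
  ext τ
  simp only [prim, Pi.add_apply]
  rw [eichlerOf_add f g hh hΓ n τ.im_pos]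
  ring

theorem prim_smul [Γ.HasDetOne] (a : ℂ) (f : CuspForm Γ k) (hh : 0 < h)
    (hΓ : h ∈ Γ.strictPeriods) (n : ℕ) :
    prim h (⇑(a • f)) n = a • prim h f n := by
  ext τ
  simp only [prim, Pi.smul_apply, smul_eq_mul]
  rw [eichlerOf_smul a f hh hΓ n]
  ring

end prim

/-! ### Periodicity conventions -/

theorem periodic_comp_ofComplex_iff {H : ℍ → ℂ} {h : ℝ} :
    Function.Periodic (H ∘ ofComplex) h ↔ ∀ τ : ℍ, H (h +ᵥ τ) = H τ := by
  constructor
  · intro hper τ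
    have := hper (τ : ℂ)
    have e : ((τ : ℂ) + (h : ℂ)) = ((h +ᵥ τ : ℍ) : ℂ) := by
      rw [UpperHalfPlane.coe_vadd, add_comm]
    rw [Function.comp_apply, Function.comp_apply, e, ofComplex_apply, ofComplex_apply] at this
    exact this
  · intro hper z
    by_cases hz : 0 < z.im
    · have e : (z + (h : ℂ)) = ((h +ᵥ (⟨z, hz⟩ : ℍ) : ℍ) : ℂ) := by
        rw [UpperHalfPlane.coe_vadd, add_comm]
      rw [Function.comp_apply, Function.comp_apply, e, ofComplex_apply,
        ofComplex_apply_of_im_pos hz]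
      exact hper _
    · have hz' : z.im ≤ 0 := not_lt.mp hz
      have hz'' : (z + (h : ℂ)).im ≤ 0 := by simpa using hz'
      rw [Function.comp_apply, Function.comp_apply,
        ofComplex_apply_eq_of_im_nonpos hz'' hz']

/-- A polynomial function on `ℍ` which is periodic is constant. -/
theorem exists_eq_C_of_periodic {P : Polynomial ℂ} {h : ℝ} (hh : 0 < h)
    (hper : ∀ τ : ℍ, polyFun P (h +ᵥ τ) = polyFun P τ) : ∃ c : ℂ, P = Polynomial.C c := by
  refine ⟨P.eval (UpperHalfPlane.I : ℂ), ?_⟩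
  have key : ∀ m : ℕ, ∀ τ : ℍ, polyFun P (((m : ℝ) * h) +ᵥ τ) = polyFun P τ := by
    intro m
    induction m with
    | zero => intro τ; simp
    | succ m ih =>
      intro τ
      have : (((m + 1 : ℕ) : ℝ) * h) +ᵥ τ = h +ᵥ ((((m : ℝ) * h)) +ᵥ τ) := by
        rw [vadd_vadd]
        congr 1
        push_cast
        ring
      rw [this, hper, ih]
  refine Polynomial.eq_of_infinite_eval_eq _ _ ?_
  have hinf : (Set.range fun m : ℕ ↦ ((m : ℂ) * (h : ℂ) + Complex.I)).Infinite := by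
    refine Set.infinite_range_of_injective fun a b hab ↦ ?_
    have hh' : (h : ℂ) ≠ 0 := by exact_mod_cast hh.ne'
    simpa [hh'] using hab
  refine hinf.mono ?_
  rintro _ ⟨m, rfl⟩
  have := key m UpperHalfPlane.I
  simp only [polyFun, UpperHalfPlane.coe_vadd] at this
  simp only [Set.mem_ofPred_eq, Polynomial.eval_C]
  rw [← this]
  congr 1
  push_cast
  rfl

theorem eq_zero_of_isZeroAtImInfty_const {c : ℂ} (h : IsZeroAtImInfty (fun _ : ℍ ↦ c)) :
    c = 0 := by
  have h' : Tendsto (fun _ : ℍ ↦ c) atImInfty (𝓝 0) := h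
  exact tendsto_const_nhds_iff.mp h'

/-- Uniqueness of periodic primitives vanishing at `i∞`. -/
theorem eq_of_iterate_D_eq {n : ℕ} {H₁ H₂ : ℍ → ℂ} (h1 : MDiff H₁) (h2 : MDiff H₂)
    (hD : D^[n] H₁ = D^[n] H₂) {h : ℝ} (hh : 0 < h)
    (hp1 : ∀ τ : ℍ, H₁ (h +ᵥ τ) = H₁ τ) (hp2 : ∀ τ : ℍ, H₂ (h +ᵥ τ) = H₂ τ)
    (hz1 : IsZeroAtImInfty H₁) (hz2 : IsZeroAtImInfty H₂) : H₁ = H₂ := by
  obtain ⟨P, -, hP⟩ := exists_polynomial_of_iterate_D_eq_zero n (h1.sub h2)
    (by rw [iterate_D_sub h1 h2, hD, sub_self])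
  have hper : ∀ τ : ℍ, polyFun P (h +ᵥ τ) = polyFun P τ := by
    intro τ
    rw [← hP, Pi.sub_apply, Pi.sub_apply, hp1, hp2]
  obtain ⟨c, rfl⟩ := exists_eq_C_of_periodic hh hper
  have hc : (fun _ : ℍ ↦ c) = H₁ - H₂ := by
    rw [hP]
    ext τ
    simp [polyFun]
  have hz : IsZeroAtImInfty (fun _ : ℍ ↦ c) := by
    rw [hc]
    have := hz1.sub hz2
    rw [sub_zero] at this
    exact this
  have hc0 := eq_zero_of_isZeroAtImInfty_const hz
  rw [hc0] at hc
  ext τ
  have := congrFun hc τ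
  simp only [Pi.sub_apply] at this
  exact (sub_eq_zero.mp this.symm)

/-! ### Iterated derivatives of Hecke operators -/

theorem mdiff_finset_sum {ι : Type*} (s : Finset ι) (G : ι → ℍ → ℂ)
    (hG : ∀ i ∈ s, MDiff (G i)) : MDiff (∑ i ∈ s, G i) := by
  classical
  induction s using Finset.induction_on with
  | empty =>
    rw [Finset.sum_empty]
    exact (mdifferentiable_const (c := (0 : ℂ)) : MDiff (fun _ : ℍ ↦ (0 : ℂ)))
  | insert a s ha ih =>
    rw [Finset.sum_insert ha]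
    exact (hG a (Finset.mem_insert_self a s)).add
      (ih fun i hi ↦ hG i (Finset.mem_insert_of_mem hi))

theorem iterate_D_finset_sum {ι : Type*} (s : Finset ι) (G : ι → ℍ → ℂ)
    (hG : ∀ i ∈ s, MDiff (G i)) (n : ℕ) : D^[n] (∑ i ∈ s, G i) = ∑ i ∈ s, D^[n] (G i) := by
  classical
  induction s using Finset.induction_on with
  | empty =>
    rw [Finset.sum_empty, Finset.sum_empty]
    exact iterate_D_zero n
  | insert a s ha ih =>
    rw [Finset.sum_insert ha, Finset.sum_insert ha,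
      iterate_D_add (hG a (Finset.mem_insert_self a s))
        (mdiff_finset_sum s G fun i hi ↦ hG i (Finset.mem_insert_of_mem hi)),
      ih fun i hi ↦ hG i (Finset.mem_insert_of_mem hi)]

theorem val_det_heckeMatrix {p : ℕ} (hp : p ≠ 0) (j : ℕ) :
    (ModularForm.heckeMatrix p j).val.det = p := by
  rw [← Matrix.GeneralLinearGroup.val_det_apply]
  exact ModularForm.det_heckeMatrix hp j

theorem val_det_heckeDiagMatrix {p : ℕ} (hp : p ≠ 0) :
    (ModularForm.heckeDiagMatrix p).val.det = p := by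
  rw [← Matrix.GeneralLinearGroup.val_det_apply]
  exact ModularForm.det_heckeDiagMatrix hp

theorem iterate_D_heckeU {n p : ℕ} (hp : p ≠ 0) {F : ℍ → ℂ} (hF : MDiff F) :
    D^[n] (ModularForm.heckeU ((1 : ℤ) - n) p F) =
      fun τ ↦ ((p : ℂ)⁻¹) ^ n * ModularForm.heckeU ((n : ℤ) + 1) p (D^[n] F) τ := by
  have hp' : (0 : ℝ) < p := by exact_mod_cast Nat.pos_of_ne_zero hp
  rw [ModularForm.heckeU_def, iterate_D_finset_sum _ _ (fun j _ ↦ hF.slash _ _)]
  ext τ
  rw [ModularForm.heckeU_def, Finset.sum_apply, Finset.sum_apply, Finset.mul_sum]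
  refine Finset.sum_congr rfl fun j _ ↦ ?_
  rw [bol_identity (by rw [val_det_heckeMatrix hp]; exact hp') n hF, val_det_heckeMatrix hp]
  simp

theorem iterate_D_heckeT {n p : ℕ} (hp : p ≠ 0) {F : ℍ → ℂ} (hF : MDiff F) :
    D^[n] (ModularForm.heckeT ((1 : ℤ) - n) p F) =
      fun τ ↦ ((p : ℂ)⁻¹) ^ n * ModularForm.heckeT ((n : ℤ) + 1) p (D^[n] F) τ := by
  have hp' : (0 : ℝ) < p := by exact_mod_cast Nat.pos_of_ne_zero hp
  rw [ModularForm.heckeT_eq_heckeU_add, iterate_D_add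
    (by rw [ModularForm.heckeU_def]; exact mdiff_finset_sum _ _ (fun j _ ↦ hF.slash _ _))
    (hF.slash _ _), iterate_D_heckeU hp hF,
    bol_identity (by rw [val_det_heckeDiagMatrix hp]; exact hp') n hF, val_det_heckeDiagMatrix hp]
  ext τ
  rw [ModularForm.heckeT_eq_heckeU_add]
  simp only [Pi.add_apply]
  push_cast
  ring

theorem isZeroAtImInfty_finset_sum {ι : Type*} (s : Finset ι) (G : ι → ℍ → ℂ)
    (hG : ∀ i ∈ s, IsZeroAtImInfty (G i)) : IsZeroAtImInfty (∑ i ∈ s, G i) := by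
  classical
  induction s using Finset.induction_on with
  | empty =>
    rw [Finset.sum_empty]
    exact zero_zeroAtFilter _
  | insert a s ha ih =>
    rw [Finset.sum_insert ha]
    have h1 : IsZeroAtImInfty (G a) := hG a (Finset.mem_insert_self a s)
    have h2 : IsZeroAtImInfty (∑ i ∈ s, G i) := ih fun i hi ↦ hG i (Finset.mem_insert_of_mem hi)
    have := Filter.Tendsto.add h1 h2
    rw [add_zero] at this
    exact this

theorem isZeroAtImInfty_heckeU {F : ℍ → ℂ} (hF : IsZeroAtImInfty F) (k : ℤ) {p : ℕ}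
    (hp : p ≠ 0) : IsZeroAtImInfty (ModularForm.heckeU k p F) := by
  rw [ModularForm.heckeU_def]
  refine isZeroAtImInfty_finset_sum _ _ fun j _ ↦ ?_
  refine UpperHalfPlane.IsZeroAtImInfty.slash k ?_ hF
  simp [ModularForm.val_heckeMatrix hp]

theorem isZeroAtImInfty_heckeT {F : ℍ → ℂ} (hF : IsZeroAtImInfty F) (k : ℤ) {p : ℕ}
    (hp : p ≠ 0) : IsZeroAtImInfty (ModularForm.heckeT k p F) := by
  rw [ModularForm.heckeT_eq_heckeU_add]
  have h1 := isZeroAtImInfty_heckeU hF k hp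
  have h2 : IsZeroAtImInfty (F ∣[k] ModularForm.heckeDiagMatrix p) := by
    refine UpperHalfPlane.IsZeroAtImInfty.slash k ?_ hF
    simp [ModularForm.val_heckeDiagMatrix hp]
  have := Filter.Tendsto.add h1 h2
  rw [add_zero] at this
  exact this

/-! ### Compatibility of the primitive with Hecke operators -/

section hecke

open CongruenceSubgroup

variable {N : ℕ} [NeZero N] {n : ℕ}

theorem one_mem_strictPeriods (N : ℕ) :
    (1 : ℝ) ∈ (Gamma0 N : Subgroup (GL (Fin 2) ℝ)).strictPeriods :=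
  CongruenceSubgroup.one_mem_strictPeriods_Gamma0 N

theorem prim_heckeT (f : CuspForm (Gamma0 N) ((n : ℤ) + 1)) {p : ℕ} (hp : p.Prime)
    (hpN : ¬ p ∣ N) :
    prim 1 (⇑(CuspForm.heckeTLin ((n : ℤ) + 1) hp hpN f)) n =
      fun τ ↦ (p : ℂ) ^ n * ModularForm.heckeT ((1 : ℤ) - n) p (prim 1 f n) τ := by
  have hp0 : p ≠ 0 := hp.ne_zero
  have hpc : (p : ℂ) ≠ 0 := by exact_mod_cast hp0
  have hE : MDiff (prim 1 (⇑f) n) := mdiff_prim f one_pos (one_mem_strictPeriods N) n
  have hTE : MDiff (ModularForm.heckeT ((1 : ℤ) - n) p (prim 1 (⇑f) n)) :=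
    ModularForm.mdifferentiable_heckeT hE _ p
  have hsm : (fun τ ↦ (p : ℂ) ^ n * ModularForm.heckeT ((1 : ℤ) - n) p (prim 1 f n) τ) =
      ((p : ℂ) ^ n) • ModularForm.heckeT ((1 : ℤ) - n) p (prim 1 f n) := rfl
  refine eq_of_iterate_D_eq (n := n) (h := 1)
    (mdiff_prim _ one_pos (one_mem_strictPeriods N) n) ?_ ?_ one_pos ?_ ?_
    (isZeroAtImInfty_prim _ one_pos (one_mem_strictPeriods N) n) ?_
  · rw [hsm]
    exact hTE.const_smul _
  · rw [iterate_D_prim _ one_pos (one_mem_strictPeriods N) n, hsm, iterate_D_smul _ hTE,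
      iterate_D_heckeT hp0 hE, iterate_D_prim f one_pos (one_mem_strictPeriods N) n,
      CuspForm.coe_heckeTLin_apply]
    ext τ
    simp only [Pi.smul_apply, smul_eq_mul]
    rw [← mul_assoc, ← mul_pow, mul_inv_cancel₀ hpc, one_pow, one_mul]
  · intro τ
    exact periodic_prim 1 (⇑(CuspForm.heckeTLin ((n : ℤ) + 1) hp hpN f)) n τ
  · have h1 : Function.Periodic (prim 1 (⇑f) n ∘ ofComplex) 1 := by
      have := (periodic_comp_ofComplex_iff (H := prim 1 (⇑f) n) (h := 1)).mpr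
        (fun τ ↦ periodic_prim 1 (⇑f) n τ)
      simpa using this
    have h2 := ModularForm.periodic_heckeT_comp_ofComplex h1 ((1 : ℤ) - n) p
    have h3 := (periodic_comp_ofComplex_iff (h := 1)).mp (by simpa using h2)
    intro τ
    show (p : ℂ) ^ n * _ = (p : ℂ) ^ n * _
    rw [h3 τ]
  · rw [hsm]
    have := (isZeroAtImInfty_heckeT (isZeroAtImInfty_prim f one_pos (one_mem_strictPeriods N) n)
      ((1 : ℤ) - n) hp0)
    have h4 := Filter.Tendsto.const_mul ((p : ℂ) ^ n) this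
    rw [mul_zero] at h4
    exact h4

theorem prim_heckeU (f : CuspForm (Gamma0 N) ((n : ℤ) + 1)) {p : ℕ} (hpN : p ∣ N) :
    prim 1 (⇑(CuspForm.heckeULin ((n : ℤ) + 1) hpN f)) n =
      fun τ ↦ (p : ℂ) ^ n * ModularForm.heckeU ((1 : ℤ) - n) p (prim 1 f n) τ := by
  have hp0 : p ≠ 0 := by
    rintro rfl
    exact NeZero.ne N (Nat.eq_zero_of_zero_dvd hpN)
  have hpc : (p : ℂ) ≠ 0 := by exact_mod_cast hp0
  have hE : MDiff (prim 1 (⇑f) n) := mdiff_prim f one_pos (one_mem_strictPeriods N) n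
  have hTE : MDiff (ModularForm.heckeU ((1 : ℤ) - n) p (prim 1 (⇑f) n)) :=
    ModularForm.mdifferentiable_heckeU hE _ p
  have hsm : (fun τ ↦ (p : ℂ) ^ n * ModularForm.heckeU ((1 : ℤ) - n) p (prim 1 f n) τ) =
      ((p : ℂ) ^ n) • ModularForm.heckeU ((1 : ℤ) - n) p (prim 1 f n) := rfl
  refine eq_of_iterate_D_eq (n := n) (h := 1)
    (mdiff_prim _ one_pos (one_mem_strictPeriods N) n) ?_ ?_ one_pos ?_ ?_
    (isZeroAtImInfty_prim _ one_pos (one_mem_strictPeriods N) n) ?_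
  · rw [hsm]
    exact hTE.const_smul _
  · rw [iterate_D_prim _ one_pos (one_mem_strictPeriods N) n, hsm, iterate_D_smul _ hTE,
      iterate_D_heckeU hp0 hE, iterate_D_prim f one_pos (one_mem_strictPeriods N) n,
      CuspForm.coe_heckeULin_apply]
    ext τ
    simp only [Pi.smul_apply, smul_eq_mul]
    rw [← mul_assoc, ← mul_pow, mul_inv_cancel₀ hpc, one_pow, one_mul]
  · intro τ
    exact periodic_prim 1 (⇑(CuspForm.heckeULin ((n : ℤ) + 1) hpN f)) n τ
  · have h1 : Function.Periodic (prim 1 (⇑f) n ∘ ofComplex) 1 := by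
      have := (periodic_comp_ofComplex_iff (H := prim 1 (⇑f) n) (h := 1)).mpr
        (fun τ ↦ periodic_prim 1 (⇑f) n τ)
      simpa using this
    have h2 := ModularForm.periodic_heckeU_comp_ofComplex h1 ((1 : ℤ) - n) p
    have h3 := (periodic_comp_ofComplex_iff (h := 1)).mp (by simpa using h2)
    intro τ
    show (p : ℂ) ^ n * _ = (p : ℂ) ^ n * _
    rw [h3 τ]
  · rw [hsm]
    have := (isZeroAtImInfty_heckeU (isZeroAtImInfty_prim f one_pos (one_mem_strictPeriods N) n)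
      ((1 : ℤ) - n) hp0)
    have h4 := Filter.Tendsto.const_mul ((p : ℂ) ^ n) this
    rw [mul_zero] at h4
    exact h4

end hecke

/-! ### Separation: an invariant Eichler integral forces the cusp form to vanish -/

section sep

open CongruenceSubgroup Matrix.SpecialLinearGroup ConjAct Pointwise

variable {N : ℕ} [NeZero N]

/-- A holomorphic function on `ℍ`, invariant of weight `k ≤ 0` under `Γ₀(N)` and bounded at all
cusps, is constant. -/
theorem exists_const_of_weight_nonpos {k : ℤ} (hk : k ≤ 0) {E : ℍ → ℂ} (hE : MDiff E)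
    (hinv : ∀ γ ∈ (Gamma0 N : Subgroup (GL (Fin 2) ℝ)), E ∣[k] γ = E)
    (hbdd : ∀ g : SL(2, ℤ), IsBoundedAtImInfty (E ∣[k] (mapGL ℝ g))) :
    ∃ c : ℂ, E = fun _ ↦ c := by
  let M : ModularForm (Gamma0 N : Subgroup (GL (Fin 2) ℝ)) k :=
    { toFun := E
      slash_action_eq' := hinv
      holo' := hE
      bdd_at_cusps' := fun {c} hc ↦ by
        have hc' : IsCusp c 𝒮ℒ :=
          (Subgroup.IsArithmetic.isCusp_iff_isCusp_SL2Z _).mp hc
        rw [OnePoint.isBoundedAt_iff_forall_SL2Z hc']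
        intro γ _
        exact hbdd γ }
  rcases hk.lt_or_eq with hk' | hk'
  · refine ⟨0, ?_⟩
    have h0 : M = 0 := ModularForm.isZero_of_neg_weight hk' M
    have : (⇑M : ℍ → ℂ) = 0 := by rw [h0]; rfl
    exact this
  · subst hk'
    obtain ⟨c, hc⟩ := ModularForm.eq_const_of_weight_zero M
    exact ⟨c, hc⟩

/-- Boundedness at every cusp of an invariant Eichler integral. -/
theorem isBoundedAtImInfty_prim_slash {n : ℕ} (f : CuspForm (Gamma0 N) ((n : ℤ) + 1))
    (hinv : ∀ γ ∈ (Gamma0 N : Subgroup (GL (Fin 2) ℝ)),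
      prim 1 f n ∣[(1 : ℤ) - n] γ = prim 1 f n) (g : SL(2, ℤ)) :
    IsBoundedAtImInfty (prim 1 f n ∣[(1 : ℤ) - n] (mapGL ℝ g)) := by
  have hE : MDiff (prim 1 f n) := mdiff_prim f one_pos (one_mem_strictPeriods N) n
  obtain ⟨M, hM0, hMper⟩ := Subgroup.IsArithmetic.exists_nat_mem_strictPeriods_conj
    (Gamma0 N : Subgroup (GL (Fin 2) ℝ))
  have hM0' : (0 : ℝ) < M := by exact_mod_cast hM0
  have hMg : (M : ℝ) ∈
      (toConjAct (mapGL ℝ g)⁻¹ • (Gamma0 N : Subgroup (GL (Fin 2) ℝ))).strictPeriods := by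
    have := hMper g⁻¹
    rwa [map_inv] at this
  -- the translated cusp form and its primitive
  let fg : CuspForm (toConjAct (mapGL ℝ g)⁻¹ • (Gamma0 N : Subgroup (GL (Fin 2) ℝ)))
    ((n : ℤ) + 1) := CuspForm.translate f (mapGL ℝ g)
  have hfg : (⇑fg : ℍ → ℂ) = (⇑f) ∣[(n : ℤ) + 1] (mapGL ℝ g) := rfl
  have hFg : MDiff (prim M fg n) := mdiff_prim fg hM0' hMg n
  have hDFg : D^[n] (prim M fg n) = fg := iterate_D_prim fg hM0' hMg n
  -- the translated Eichler integral
  have hG : MDiff (prim 1 f n ∣[(1 : ℤ) - n] (mapGL ℝ g)) := hE.slash _ _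
  have hdet : (mapGL ℝ g : GL (Fin 2) ℝ).val.det = 1 := by
    rw [← Matrix.GeneralLinearGroup.val_det_apply]
    simp
  have hDG : D^[n] (prim 1 f n ∣[(1 : ℤ) - n] (mapGL ℝ g)) = fg := by
    rw [bol_identity (by rw [hdet]; exact one_pos) n hE, hdet,
      iterate_D_prim f one_pos (one_mem_strictPeriods N) n, hfg]
    ext τ
    simp
  obtain ⟨P, -, hP⟩ := exists_polynomial_of_iterate_D_eq_zero n (hG.sub hFg)
    (by rw [iterate_D_sub hG hFg, hDG, hDFg, sub_self])
  -- periodicity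
  let Einv : SlashInvariantForm (Gamma0 N : Subgroup (GL (Fin 2) ℝ)) ((1 : ℤ) - n) :=
    { toFun := prim 1 f n, slash_action_eq' := hinv }
  have hGper : ∀ τ : ℍ, (prim 1 f n ∣[(1 : ℤ) - n] (mapGL ℝ g)) ((M : ℝ) +ᵥ τ) =
      (prim 1 f n ∣[(1 : ℤ) - n] (mapGL ℝ g)) τ := fun τ ↦
    SlashInvariantForm.vAdd_apply_of_mem_strictPeriods
      (SlashInvariantForm.translate Einv (mapGL ℝ g)) τ hMg
  have hPper : ∀ τ : ℍ, polyFun P ((M : ℝ) +ᵥ τ) = polyFun P τ := by
    intro τ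
    rw [← hP, Pi.sub_apply, Pi.sub_apply, hGper, periodic_prim]
  obtain ⟨c, rfl⟩ := exists_eq_C_of_periodic hM0' hPper
  have hGeq : prim 1 f n ∣[(1 : ℤ) - n] (mapGL ℝ g) = prim M fg n + fun _ ↦ c := by
    ext τ
    have := congrFun hP τ
    simp only [Pi.sub_apply, polyFun, Polynomial.eval_C] at this
    simp only [Pi.add_apply]
    rw [← this]
    ring
  rw [hGeq]
  exact (isZeroAtImInfty_prim fg hM0' hMg n).boundedAtFilter.add (const_boundedAtFilter _ c)

/-- **Separation**: if the Eichler integral of a cusp form of weight `n + 1 ≥ 2` is invariant under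
the weight `1 - n` action of `Γ₀(N)`, then the cusp form is zero. -/
theorem eq_zero_of_prim_slash_invariant {n : ℕ} (hn : 1 ≤ n)
    (f : CuspForm (Gamma0 N) ((n : ℤ) + 1))
    (hinv : ∀ γ ∈ (Gamma0 N : Subgroup (GL (Fin 2) ℝ)),
      prim 1 f n ∣[(1 : ℤ) - n] γ = prim 1 f n) : f = 0 := by
  have hE : MDiff (prim 1 f n) := mdiff_prim f one_pos (one_mem_strictPeriods N) n
  have hk : (1 : ℤ) - n ≤ 0 := by
    have : (1 : ℤ) ≤ n := by exact_mod_cast hn
    linarith
  obtain ⟨c, hc⟩ := exists_const_of_weight_nonpos hk hE hinv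
    (isBoundedAtImInfty_prim_slash f hinv)
  have h1 : D^[n] (prim 1 f n) = 0 := by
    obtain ⟨m, rfl⟩ : ∃ m, n = m + 1 := ⟨n - 1, by omega⟩
    rw [Function.iterate_succ_apply, hc, normalizedDerivOfComplex_const, iterate_D_zero]
  rw [iterate_D_prim f one_pos (one_mem_strictPeriods N) n] at h1
  exact DFunLike.coe_injective h1

end sep

end

end Fermat.Agent.S22.helper322
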