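import Mathlib

set_option autoImplicit false

/-!
# Holomorphic functions on the upper half plane have primitives

Mathlib only has primitives on discs and on the whole plane
(`DifferentiableOn.isExactOn_ball`, `Differentiable.isExactOn_univ`).  Here we glue the
primitives on the exhausting discs `ball ((n+1) i) (n+1)`.

Main results (all for `E`-valued functions, `E` a complex Banach space):

* `isExactOn_upperHalfPlane` : `DifferentiableOn ℂ f {z | 0 < z.im} → IsExactOn f {z | 0 < z.im}`
* `exists_primitive_upperHalfPlane` : the same with a prescribed value at a point.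
* `eqOn_upperHalfPlane_of_hasDerivAt` : two primitives that agree at one point agree on the
  upper half plane.
-/

namespace Fermat.Agent.S22.helper3442

open Complex Metric Set

variable {E : Type*} [NormedAddCommGroup E] [NormedSpace ℂ E]

/-- The exhausting balls `ball ((n+1) i) (n+1)` of the upper half plane. -/
def uhpBall (n : ℕ) : Set ℂ := ball (((n : ℝ) + 1 : ℝ) * I) ((n : ℝ) + 1)

theorem mem_uhpBall_iff (n : ℕ) (z : ℂ) :
    z ∈ uhpBall n ↔ z.re ^ 2 + z.im ^ 2 < 2 * ((n : ℝ) + 1) * z.im := by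
  have hn : (0 : ℝ) < (n : ℝ) + 1 := by positivity
  rw [uhpBall, mem_ball, dist_eq, ← sq_lt_sq₀ (norm_nonneg _) hn.le, Complex.sq_norm,
    Complex.normSq_apply]
  simp
  constructor <;> intro h <;> nlinarith

theorem uhpBall_subset (n : ℕ) : uhpBall n ⊆ {z : ℂ | 0 < z.im} := by
  intro z hz
  rw [mem_uhpBall_iff] at hz
  have hn : (0 : ℝ) < (n : ℝ) + 1 := by positivity
  show 0 < z.im
  by_contra h
  rw [not_lt] at h
  nlinarith [sq_nonneg z.re, sq_nonneg z.im]

theorem I_mem_uhpBall (n : ℕ) : I ∈ uhpBall n := by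
  rw [mem_uhpBall_iff]
  have hn : (0 : ℝ) ≤ (n : ℝ) := by positivity
  simp
  linarith

theorem uhpBall_mono {n m : ℕ} (h : n ≤ m) : uhpBall n ⊆ uhpBall m := by
  intro z hz
  have hz0 := uhpBall_subset n hz
  change 0 < z.im at hz0
  rw [mem_uhpBall_iff] at hz ⊢
  have h' : (n : ℝ) ≤ (m : ℝ) := by exact_mod_cast h
  nlinarith

theorem exists_mem_uhpBall {z : ℂ} (hz : 0 < z.im) : ∃ n, z ∈ uhpBall n := by
  obtain ⟨n, hn⟩ := exists_nat_gt ((z.re ^ 2 + z.im ^ 2) / (2 * z.im))
  refine ⟨n, ?_⟩
  rw [mem_uhpBall_iff]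
  rw [div_lt_iff₀ (by positivity)] at hn
  nlinarith

theorem isOpen_uhpBall (n : ℕ) : IsOpen (uhpBall n) := isOpen_ball

theorem isPreconnected_uhpBall (n : ℕ) : IsPreconnected (uhpBall n) :=
  (convex_ball _ _).isPreconnected

/-- Two primitives on the upper half plane which agree at one point agree everywhere. -/
theorem eqOn_upperHalfPlane_of_hasDerivAt {f g₁ g₂ : ℂ → E}
    (h₁ : ∀ z : ℂ, 0 < z.im → HasDerivAt g₁ (f z) z)
    (h₂ : ∀ z : ℂ, 0 < z.im → HasDerivAt g₂ (f z) z)
    {z₀ : ℂ} (hz₀ : 0 < z₀.im) (h : g₁ z₀ = g₂ z₀) :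
    EqOn g₁ g₂ {z : ℂ | 0 < z.im} := by
  have hopen : IsOpen {z : ℂ | 0 < z.im} := isOpen_lt continuous_const Complex.continuous_im
  have hconv : Convex ℝ {z : ℂ | 0 < z.im} := by
    have : {z : ℂ | 0 < z.im} = Complex.imCLM ⁻¹' (Ioi 0) := by ext; simp
    rw [this]
    exact (convex_Ioi 0).is_linear_preimage Complex.imCLM.toLinearMap.isLinear
  refine hopen.eqOn_of_deriv_eq hconv.isPreconnected
    (fun z hz => (h₁ z hz).differentiableAt.differentiableWithinAt)
    (fun z hz => (h₂ z hz).differentiableAt.differentiableWithinAt) ?_ hz₀ h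
  intro z hz
  rw [(h₁ z hz).deriv, (h₂ z hz).deriv]

variable [CompleteSpace E]

/-- A holomorphic function on the upper half plane has a primitive there. -/
theorem isExactOn_upperHalfPlane {f : ℂ → E}
    (hf : DifferentiableOn ℂ f {z : ℂ | 0 < z.im}) : IsExactOn f {z : ℂ | 0 < z.im} := by
  classical
  -- primitives on each ball, normalised at `I`
  have hex : ∀ n : ℕ, ∃ g : ℂ → E, g I = 0 ∧ ∀ z ∈ uhpBall n, HasDerivAt g (f z) z := fun n =>
    ((hf.mono (uhpBall_subset n)).isExactOn_ball).with_val_at I 0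
  choose g hgI hg using hex
  -- they agree on the smaller ball
  have hagree : ∀ {n m : ℕ}, n ≤ m → EqOn (g n) (g m) (uhpBall n) := by
    intro n m hnm
    refine (isOpen_uhpBall n).eqOn_of_deriv_eq (isPreconnected_uhpBall n)
      (fun z hz => (hg n z hz).differentiableAt.differentiableWithinAt)
      (fun z hz => (hg m z (uhpBall_mono hnm hz)).differentiableAt.differentiableWithinAt)
      ?_ (I_mem_uhpBall n) ((hgI n).trans (hgI m).symm)
    intro z hz
    rw [(hg n z hz).deriv, (hg m z (uhpBall_mono hnm hz)).deriv]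
  -- glue
  let idx : ℂ → ℕ := fun z => if h : 0 < z.im then Nat.find (exists_mem_uhpBall h) else 0
  have hidx : ∀ z : ℂ, 0 < z.im → z ∈ uhpBall (idx z) := by
    intro z hz
    simp only [idx, dif_pos hz]
    exact Nat.find_spec (exists_mem_uhpBall hz)
  refine ⟨fun z => g (idx z) z, fun z₀ hz₀ => ?_⟩
  have hz₀' : z₀ ∈ uhpBall (idx z₀) := hidx z₀ hz₀
  refine (hg (idx z₀) z₀ hz₀').congr_of_eventuallyEq ?_
  filter_upwards [(isOpen_uhpBall (idx z₀)).mem_nhds hz₀'] with z hz
  have hzim : 0 < z.im := uhpBall_subset _ hz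
  rcases le_total (idx z) (idx z₀) with hle | hle
  · exact hagree hle (hidx z hzim)
  · exact (hagree hle hz).symm

/-- A holomorphic function on the upper half plane has a primitive there, with prescribed value
at a given point. -/
theorem exists_primitive_upperHalfPlane {f : ℂ → E}
    (hf : DifferentiableOn ℂ f {z : ℂ | 0 < z.im}) (z₀ : ℂ) (y : E) :
    ∃ g : ℂ → E, g z₀ = y ∧ ∀ z : ℂ, 0 < z.im → HasDerivAt g (f z) z :=
  (isExactOn_upperHalfPlane hf).with_val_at z₀ y

end Fermat.Agent.S22.helper3442
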