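import Mathlib
import Fermat.Prelude.Def_CuspForm_HeckeAlgebra
import Fermat.Prelude.Thm_Subgroup_IsArithmetic_exists_nat_mem_strictPeriods_conj
import Fermat.Agent.S22.helper322_Bol
import Fermat.Agent.S22.helper1222_EichlerSeries

/-!
# The separation lemma for the Eichler integral (helper461)

If `F` is holomorphic on the upper half plane, invariant under the weight `-w` slash action of
`Γ₀(N)`, and `D^[w+1] F = c • f` for a cusp form `f` of weight `w + 2` and `c ≠ 0`, then `f = 0`.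
-/

set_option autoImplicit false

open UpperHalfPlane hiding I
open Real Complex Filter Topology
open scoped Manifold MatrixGroups ModularForm
open Derivative CongruenceSubgroup Matrix.SpecialLinearGroup
open Fermat.Agent.S22.helper322 Fermat.Agent.S22.helper1222

namespace Fermat.Agent.S22.helper461

noncomputable section

/-- Restriction of a function on `ℂ` to the upper half plane. -/
def restr (E : ℂ → ℂ) : ℍ → ℂ := fun z ↦ E (z : ℂ)

lemma restr_apply (E : ℂ → ℂ) (z : ℍ) : restr E z = E (z : ℂ) := rfl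

lemma isZeroAtImInfty_restr {E : ℂ → ℂ} (hE : Tendsto E (comap Complex.im atTop) (𝓝 0)) :
    IsZeroAtImInfty (restr E) := by
  unfold IsZeroAtImInfty ZeroAtFilter
  refine hE.comp ?_
  rw [tendsto_comap_iff]
  exact tendsto_comap

lemma restr_comp_ofComplex_eventuallyEq (E : ℂ → ℂ) (z : ℍ) :
    (restr E ∘ ofComplex) =ᶠ[𝓝 (z : ℂ)] E := by
  filter_upwards [isOpen_upperHalfPlaneSet.mem_nhds z.im_pos] with w hw
  simp [restr, Function.comp_apply, ofComplex_apply_of_im_pos hw]

lemma mdiff_restr {E : ℂ → ℂ} (hE : ∀ z : ℂ, 0 < z.im → DifferentiableAt ℂ E z) :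
    MDiff (restr E) := by
  rw [UpperHalfPlane.mdifferentiable_iff]
  intro z hz
  refine (hE z hz).differentiableWithinAt.congr ?_ ?_
  · intro w hw
    simp [restr, Function.comp_apply, ofComplex_apply_of_im_pos hw]
  · simp [restr, Function.comp_apply, ofComplex_apply_of_im_pos hz]

lemma D_restr {E E' : ℂ → ℂ} (hE : ∀ z : ℂ, 0 < z.im → HasDerivAt E (E' z) z) :
    D (restr E) = (2 * π * I)⁻¹ • restr E' := by
  ext z
  simp only [normalizedDerivOfComplex]
  rw [(restr_comp_ofComplex_eventuallyEq E z).deriv_eq, (hE z z.im_pos).deriv]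
  rfl

section Chain

variable {F : Type*} [FunLike F ℍ ℂ] {Γ : Subgroup (GL (Fin 2) ℝ)} {k : ℤ}

lemma restr_eichlerOf_zero [CuspFormClass F Γ k] (g : F) {h : ℝ} (hh : 0 < h)
    (hΓ : h ∈ Γ.strictPeriods) : restr (eichlerOf h g 0) = g := by
  ext z
  exact eichlerOf_zero g hh hΓ z.im_pos

lemma mdiff_restr_eichlerOf [CuspFormClass F Γ k] (g : F) {h : ℝ} (hh : 0 < h)
    (hΓ : h ∈ Γ.strictPeriods) (j : ℕ) : MDiff (restr (eichlerOf h g j)) := by
  cases j with
  | zero =>
    rw [restr_eichlerOf_zero g hh hΓ]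
    exact CuspFormClass.holo g
  | succ j => exact mdiff_restr fun z hz ↦ (hasDerivAt_eichlerOf g hh hΓ j hz).differentiableAt

lemma iterate_D_restr_eichlerOf [CuspFormClass F Γ k] (g : F) {h : ℝ} (hh : 0 < h)
    (hΓ : h ∈ Γ.strictPeriods) (n : ℕ) :
    D^[n] (restr (eichlerOf h g n)) = ((2 * π * I)⁻¹) ^ n • ⇑g := by
  induction n with
  | zero => simp [restr_eichlerOf_zero g hh hΓ]
  | succ n ih =>
    rw [Function.iterate_succ_apply, D_restr (fun z hz ↦ hasDerivAt_eichlerOf g hh hΓ n hz),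
      iterate_D_smul _ (mdiff_restr_eichlerOf g hh hΓ n), ih, smul_smul, pow_succ']

end Chain

/-- A polynomial which is periodic on the upper half plane is constant. -/
lemma eq_C_of_periodic {Q : Polynomial ℂ} {h : ℝ} (hh : 0 < h)
    (hper : ∀ z : ℂ, 0 < z.im → Q.eval (z + h) = Q.eval z) :
    Q = Polynomial.C (Q.eval Complex.I) := by
  have key : ∀ n : ℕ, Q.eval (Complex.I + n * (h : ℂ)) = Q.eval Complex.I := by
    intro n
    induction n with
    | zero => simp
    | succ n ih =>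
      have him : 0 < (Complex.I + n * (h : ℂ)).im := by simp
      have := hper _ him
      rw [ih] at this
      rw [← this]
      congr 1
      push_cast
      ring
  have h0 : Q - Polynomial.C (Q.eval Complex.I) = 0 := by
    refine Polynomial.eq_zero_of_infinite_isRoot _ ?_
    have hinf : (Set.range fun n : ℕ ↦ (Complex.I + n * (h : ℂ))).Infinite := by
      refine Set.infinite_range_of_injective fun a b hab ↦ ?_
      have h1 : (h : ℂ) ≠ 0 := by exact_mod_cast hh.ne'
      have h2 : (a : ℂ) * h = b * h := add_left_cancel hab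
      exact_mod_cast mul_right_cancel₀ h1 h2
    refine hinf.mono ?_
    rintro _ ⟨n, rfl⟩
    simp [key n]
  exact sub_eq_zero.mp h0

/-- Bol's identity for determinant one, with the weights written as `-w` and `w + 2`. -/
lemma bol_det_one (w : ℕ) {F : ℍ → ℂ} (hF : MDiff F) (g : GL (Fin 2) ℝ) (hg : g.val.det = 1) :
    D^[w + 1] (F ∣[-(w : ℤ)] g) = (D^[w + 1] F) ∣[(w : ℤ) + 2] g := by
  have h1 : (1 : ℤ) - ((w + 1 : ℕ) : ℤ) = -(w : ℤ) := by push_cast; ring
  have h2 : ((w + 1 : ℕ) : ℤ) + 1 = (w : ℤ) + 2 := by push_cast; ring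
  have h3 := bol_identity (g := g) (by rw [hg]; exact one_pos) (w + 1) hF
  rw [h1, h2] at h3
  rw [h3]
  ext z
  simp [hg]

/-- A modular form of nonpositive weight on an arithmetic group is constant. -/
lemma exists_const_of_weight_nonpos {Γ : Subgroup (GL (Fin 2) ℝ)} [Γ.IsArithmetic] {k : ℤ}
    (hk : k ≤ 0) (M : ModularForm Γ k) : ∃ a : ℂ, (M : ℍ → ℂ) = Function.const ℍ a := by
  rcases hk.lt_or_eq with h | rfl
  · refine ⟨0, ?_⟩
    rw [ModularForm.isZero_of_neg_weight h M]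
    rfl
  · exact ModularForm.eq_const_of_weight_zero M

open ConjAct Pointwise in
/-- Key step: every `SL(2, ℤ)`-translate of the Eichler integral is bounded at `i∞`. -/
theorem isBoundedAtImInfty_slash_of_iterate_D {Γ : Subgroup (GL (Fin 2) ℝ)} [Γ.IsArithmetic]
    (w : ℕ) (f : CuspForm Γ ((w : ℤ) + 2)) (Fs : SlashInvariantForm Γ (-(w : ℤ)))
    (hF : MDiff (Fs : ℍ → ℂ)) (c : ℂ) (hD : D^[w + 1] (Fs : ℍ → ℂ) = c • ⇑f) (σ : SL(2, ℤ)) :
    IsBoundedAtImInfty ((Fs : ℍ → ℂ) ∣[-(w : ℤ)] (mapGL ℝ σ)) := by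
  obtain ⟨M, hM0, hM⟩ := Subgroup.IsArithmetic.exists_nat_mem_strictPeriods_conj Γ
  have hM0' : (0 : ℝ) < M := by exact_mod_cast hM0
  have hper : (M : ℝ) ∈ (toConjAct (mapGL ℝ σ)⁻¹ • Γ).strictPeriods := by
    have := hM σ⁻¹
    rwa [map_inv] at this
  set g := CuspForm.translate f (mapGL ℝ σ) with hg
  set Hs := SlashInvariantForm.translate Fs (mapGL ℝ σ) with hHs
  have hdet : (mapGL ℝ σ : GL (Fin 2) ℝ).val.det = 1 :=
    (Matrix.SpecialLinearGroup.map (Int.castRingHom ℝ) σ).det_coe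
  have hH : MDiff (Hs : ℍ → ℂ) := hF.slash _ _
  set G : ℍ → ℂ := restr (eichlerOf M g (w + 1)) with hG
  have hGd : MDiff G := mdiff_restr_eichlerOf g hM0' hper (w + 1)
  set c' : ℂ := c * (2 * π * I) ^ (w + 1) with hc'
  have hpi : (2 * π * I : ℂ) ≠ 0 := by simp [Real.pi_ne_zero, Complex.I_ne_zero]
  have hDH : D^[w + 1] (Hs : ℍ → ℂ) = c • ⇑g := by
    rw [SlashInvariantForm.coe_translate, bol_det_one w hF _ hdet, hD]
    exact ModularForm.SL_smul_slash _ σ _ c
  have hDG : D^[w + 1] (c' • G) = c • ⇑g := by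
    rw [iterate_D_smul _ hGd, iterate_D_restr_eichlerOf g hM0' hper (w + 1), smul_smul, hc',
      mul_assoc, ← mul_pow, mul_inv_cancel₀ hpi, one_pow, mul_one]
  obtain ⟨Q, -, hQ⟩ := exists_polynomial_of_iterate_D_eq_zero (w + 1)
    (hH.sub (hGd.const_smul c'))
    (by rw [iterate_D_sub hH (hGd.const_smul c'), hDH, hDG, sub_self])
  have hQper : ∀ z : ℂ, 0 < z.im → Q.eval (z + (M : ℝ)) = Q.eval z := by
    intro z hz
    have hz' : 0 < (z + (M : ℝ)).im := by simpa using hz
    have e1 := congrFun hQ ⟨z + (M : ℝ), hz'⟩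
    have e2 := congrFun hQ ⟨z, hz⟩
    simp only [polyFun, Pi.sub_apply, Pi.smul_apply] at e1 e2
    rw [← e1, ← e2]
    have p1 := SlashInvariantFormClass.periodic_comp_ofComplex Hs hper z
    simp only [Function.comp_apply, ofComplex_apply_of_im_pos hz,
      ofComplex_apply_of_im_pos hz'] at p1
    have p2 := eichlerOf_periodic M g (w + 1) z
    simp only [hG, restr]
    rw [p1, p2]
  have hQC := eq_C_of_periodic hM0' hQper
  have hHeq : (Hs : ℍ → ℂ) = c' • G + Function.const ℍ (Q.eval Complex.I) := by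
    ext z
    have e := congrFun hQ z
    rw [hQC] at e
    simp only [polyFun, Pi.sub_apply, Polynomial.eval_C] at e
    simp only [Pi.add_apply, Function.const_apply]
    rw [← e]
    ring
  have hGz : IsZeroAtImInfty G :=
    isZeroAtImInfty_restr (tendsto_eichlerOf_zero g hM0' hper (w + 1))
  have hfin : IsBoundedAtImInfty (Hs : ℍ → ℂ) := by
    rw [hHeq]
    exact ((hGz.smul c').boundedAtFilter).add (const_boundedAtFilter _ _)
  exact hfin

/-- **Separation lemma** (arithmetic group form). -/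
theorem sep_of_iterate_D_arith {Γ : Subgroup (GL (Fin 2) ℝ)} [Γ.IsArithmetic]
    (w : ℕ) (f : CuspForm Γ ((w : ℤ) + 2)) (F : ℍ → ℂ) (hF : MDiff F) (c : ℂ) (hc : c ≠ 0)
    (hD : D^[w + 1] F = c • ⇑f)
    (hinv : ∀ γ ∈ Γ, F ∣[-(w : ℤ)] γ = F) : f = 0 := by
  let Fs : SlashInvariantForm Γ (-(w : ℤ)) := { toFun := F, slash_action_eq' := hinv }
  let Mf : ModularForm Γ (-(w : ℤ)) :=
    { toSlashInvariantForm := Fs
      holo' := hF
      bdd_at_cusps' := fun {c₀} hc₀ ↦ by
        rw [Subgroup.IsArithmetic.isCusp_iff_isCusp_SL2Z] at hc₀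
        rw [OnePoint.isBoundedAt_iff_forall_SL2Z hc₀]
        intro σ _
        exact isBoundedAtImInfty_slash_of_iterate_D w f Fs hF c hD σ }
  obtain ⟨a, ha⟩ := exists_const_of_weight_nonpos (by simp) Mf
  have hFa : F = fun _ ↦ a := ha
  have hD0 : D^[w + 1] F = 0 := by
    rw [Function.iterate_succ_apply, hFa, normalizedDerivOfComplex_const, iterate_D_zero]
  rw [hD0] at hD
  have hf0 : (f : ℍ → ℂ) = 0 := (smul_eq_zero.mp hD.symm).resolve_left hc
  exact DFunLike.coe_injective hf0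

/-- **Separation lemma** for `Γ₀(N)`: a weight `-w` invariant `(w+1)`-fold primitive of a cusp
form of weight `w + 2` forces the cusp form to vanish. -/
theorem sep_of_iterate_D {N : ℕ} [NeZero N] (w : ℕ) (f : CuspForm (Gamma0 N) ((w : ℤ) + 2))
    (F : ℍ → ℂ) (hF : MDiff F) (c : ℂ) (hc : c ≠ 0) (hD : D^[w + 1] F = c • ⇑f)
    (hinv : ∀ γ : SL(2, ℤ), γ ∈ Gamma0 N → F ∣[-(w : ℤ)] γ = F) : f = 0 := by
  refine sep_of_iterate_D_arith w f F hF c hc hD ?_
  intro γ hγ
  obtain ⟨γ', hγ', rfl⟩ := Subgroup.mem_map.mp hγ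
  exact hinv γ' hγ'

/-- Variant with a general weight `k = w + 2`. -/
theorem sep_of_iterate_D' {N : ℕ} [NeZero N] {k : ℤ} (w : ℕ) (hk : k = (w : ℤ) + 2)
    (f : CuspForm (Gamma0 N) k)
    (F : ℍ → ℂ) (hF : MDiff F) (c : ℂ) (hc : c ≠ 0) (hD : D^[w + 1] F = c • ⇑f)
    (hinv : ∀ γ : SL(2, ℤ), γ ∈ Gamma0 N → F ∣[-(w : ℤ)] γ = F) : f = 0 := by
  subst hk
  exact sep_of_iterate_D w f F hF c hc hD hinv

end

end Fermat.Agent.S22.helper461
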