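import Mathlib
import Fermat.Prelude.Def_CuspForm_HeckeAlgebra
import Fermat.Prelude.Thm_UpperHalfPlane_qCoeff_heckeT
import Fermat.Prelude.Thm_UpperHalfPlane_qCoeff_heckeU
import Fermat.Prelude.Thm_UpperHalfPlane_eq_of_forall_qCoeff_eq
import Fermat.Prelude.Thm_CongruenceSubgroup_one_mem_strictPeriods_Gamma0
import Fermat.Prelude.Thm_ModularForm_periodic_heckeT_comp_ofComplex
import Fermat.Prelude.Thm_ModularForm_periodic_heckeU_comp_ofComplex
import Fermat.Prelude.Thm_ModularForm_isBoundedAtImInfty_heckeT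
import Fermat.Prelude.Thm_ModularForm_isBoundedAtImInfty_heckeU
import Fermat.Agent.S22.helper1222_EichlerSeries
import Fermat.Agent.S22.helper322_Bol
import Fermat.Agent.S22.helper262_CocycleLattice

/-!
# S22: the `EichlerData` instance from the `q`-series Eichler integral (helper661)

We instantiate helper262's `EichlerData N k w` (for `k = w + 2`) with
`E f τ = eichlerSeries 1 (qCoeff f) (w+1) τ = ∑ a_n (2 π i n)^{-(w+1)} q^n`
(helper1222's series).  The fields `poly`, `heckeT`, `heckeU` are proved here; the field `sep`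
is taken as a hypothesis.
-/

set_option autoImplicit false

open UpperHalfPlane hiding I
open Real Complex Filter Topology
open scoped Manifold MatrixGroups ModularForm
open Derivative CongruenceSubgroup

namespace Fermat.Agent.S22.helper661

open Fermat.Agent.S22.helper1222 Fermat.Agent.S22.helper322 Fermat.Agent.S22.helper262

noncomputable section

local notation "𝕢" => Function.Periodic.qParam

/-- The `j`-fold primitive series of helper1222, as a function on the upper half plane. -/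
def serFun (c : ℕ → ℂ) (j : ℕ) : ℍ → ℂ := fun τ => eichlerSeries 1 c j (τ : ℂ)

variable {c : ℕ → ℂ}

lemma serFun_apply (c : ℕ → ℂ) (j : ℕ) (τ : ℍ) : serFun c j τ = eichlerSeries 1 c j (τ : ℂ) := rfl

lemma hasSum_serFun (hsum : ∀ z : ℂ, 0 < z.im → Summable fun n => c n * 𝕢 1 z ^ n) (j : ℕ)
    (τ : ℍ) :
    HasSum (fun n : ℕ => (c n * eichlerWeight 1 n ^ j) • 𝕢 1 (τ : ℂ) ^ n) (serFun c j τ) := by
  have h := hasSum_eichlerSeries (h := 1) one_pos hsum j τ.im_pos
  show HasSum _ (eichlerSeries 1 c j (τ : ℂ))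
  simpa [eichlerTerm, smul_eq_mul] using h

lemma periodic_serFun (c : ℕ → ℂ) (j : ℕ) :
    Function.Periodic (serFun c j ∘ ofComplex) (1 : ℝ) := by
  intro z
  by_cases hz : 0 < z.im
  · have hz' : 0 < (z + (1 : ℝ)).im := by simpa using hz
    simp only [Function.comp_apply, serFun_apply, ofComplex_apply_of_im_pos hz,
      ofComplex_apply_of_im_pos hz']
    exact eichlerSeries_periodic 1 c j z
  · have hz' : ¬ 0 < (z + (1 : ℝ)).im := by simpa using hz
    simp only [Function.comp_apply]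
    rw [ofComplex_apply_of_im_nonpos (not_lt.mp hz), ofComplex_apply_of_im_nonpos (not_lt.mp hz')]

lemma hasDerivAt_serFun (hc : c 0 = 0)
    (hsum : ∀ z : ℂ, 0 < z.im → Summable fun n => c n * 𝕢 1 z ^ n) (j : ℕ) (τ : ℍ) :
    HasDerivAt (serFun c (j + 1) ∘ ofComplex) (serFun c j τ) (τ : ℂ) := by
  have h := hasDerivAt_eichlerSeries (h := 1) one_pos hc hsum j τ.im_pos
  refine h.congr_of_eventuallyEq ?_
  filter_upwards [isOpen_upperHalfPlaneSet.mem_nhds τ.im_pos] with w hw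
  simp [Function.comp_apply, serFun_apply, ofComplex_apply_of_im_pos hw]

lemma mdiff_serFun (hc : c 0 = 0)
    (hsum : ∀ z : ℂ, 0 < z.im → Summable fun n => c n * 𝕢 1 z ^ n) (j : ℕ) :
    MDiff (serFun c (j + 1)) := by
  rw [UpperHalfPlane.mdifferentiable_iff]
  intro z hz
  exact (hasDerivAt_serFun hc hsum j ⟨z, hz⟩).differentiableAt.differentiableWithinAt

lemma isBoundedAtImInfty_serFun
    (hsum : ∀ z : ℂ, 0 < z.im → Summable fun n => c n * 𝕢 1 z ^ n) (j : ℕ) :
    IsBoundedAtImInfty (serFun c j) :=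
  isBoundedAtImInfty_of_hasSum_qExpansion one_pos (hasSum_serFun hsum j)

lemma qCoeff_serFun (hc : c 0 = 0)
    (hsum : ∀ z : ℂ, 0 < z.im → Summable fun n => c n * 𝕢 1 z ^ n) (j n : ℕ) :
    ModularFormClass.qCoeff (serFun c (j + 1)) n = c n * eichlerWeight 1 n ^ (j + 1) := by
  have han : AnalyticAt ℂ (cuspFunction 1 (serFun c (j + 1))) 0 :=
    (differentiableOn_cuspFunction_ball one_pos (periodic_serFun c (j + 1))
      (mdiff_serFun hc hsum j) (isBoundedAtImInfty_serFun hsum (j + 1))).analyticAt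
      (Metric.ball_mem_nhds 0 one_pos)
  have hcont : Continuous (serFun c (j + 1)) := (mdiff_serFun hc hsum j).continuous
  exact (UpperHalfPlane.qExpansion_coeff_unique (ContinuousMap.mk (serFun c (j + 1)) hcont)
    one_pos han (hasSum_serFun hsum (j + 1)) n).symm


/-! ### The `D`-chain -/

lemma D_serFun (hc : c 0 = 0)
    (hsum : ∀ z : ℂ, 0 < z.im → Summable fun n => c n * 𝕢 1 z ^ n) (j : ℕ) :
    D (serFun c (j + 1)) = ((2 * π * I)⁻¹ : ℂ) • serFun c j := by
  funext τ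
  simp only [normalizedDerivOfComplex, Pi.smul_apply, smul_eq_mul]
  rw [(hasDerivAt_serFun hc hsum j τ).deriv]

lemma mdiff_serFun' (hc : c 0 = 0)
    (hsum : ∀ z : ℂ, 0 < z.im → Summable fun n => c n * 𝕢 1 z ^ n)
    (h0 : MDiff (serFun c 0)) (j : ℕ) : MDiff (serFun c j) := by
  cases j with
  | zero => exact h0
  | succ j => exact mdiff_serFun hc hsum j

lemma iterate_D_serFun (hc : c 0 = 0)
    (hsum : ∀ z : ℂ, 0 < z.im → Summable fun n => c n * 𝕢 1 z ^ n)
    (h0 : MDiff (serFun c 0)) (j i : ℕ) :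
    D^[j] (serFun c (j + i)) = (((2 * π * I)⁻¹ : ℂ) ^ j) • serFun c i := by
  induction j generalizing i with
  | zero => simp
  | succ j ih =>
    rw [Function.iterate_succ_apply, show j + 1 + i = (j + i) + 1 by ring, D_serFun hc hsum,
      iterate_D_smul _ (mdiff_serFun' hc hsum h0 _), ih, smul_smul, pow_succ']

/-! ### The weights -/

lemma eichlerWeight_one_mul {p : ℕ} (hp : p ≠ 0) (n : ℕ) :
    (p : ℂ) * eichlerWeight 1 (n * p) = eichlerWeight 1 n := by
  have hp' : (p : ℂ) ≠ 0 := by exact_mod_cast hp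
  unfold eichlerWeight
  rcases Nat.eq_zero_or_pos n with rfl | hn
  · simp
  · have hn' : (n : ℂ) ≠ 0 := by exact_mod_cast hn.ne'
    have h3 : (π : ℂ) ≠ 0 := by exact_mod_cast Real.pi_ne_zero
    push_cast
    field_simp

lemma pow_mul_eichlerWeight_pow {p : ℕ} (hp : p ≠ 0) (n j : ℕ) :
    (p : ℂ) ^ j * eichlerWeight 1 (n * p) ^ j = eichlerWeight 1 n ^ j := by
  rw [← mul_pow, eichlerWeight_one_mul hp]

/-! ### Cusp forms on `Γ₀(N)` -/

section Gamma0

variable {N : ℕ} [NeZero N] {k : ℤ}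

lemma one_mem_strictPeriods' (N : ℕ) :
    (1 : ℝ) ∈ ((Gamma0 N : Subgroup SL(2, ℤ)) : Subgroup (GL (Fin 2) ℝ)).strictPeriods :=
  CongruenceSubgroup.one_mem_strictPeriods_Gamma0 N

lemma qCoeffSeq_zero' (f : CuspForm (Gamma0 N) k) : qCoeffSeq 1 f 0 = 0 :=
  qCoeffSeq_zero f one_pos (one_mem_strictPeriods' N)

lemma summable_qCoeffSeq' (f : CuspForm (Gamma0 N) k) (z : ℂ) (hz : 0 < z.im) :
    Summable fun n => qCoeffSeq 1 f n * 𝕢 1 z ^ n :=
  summable_qCoeffSeq f one_pos (one_mem_strictPeriods' N) z hz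

lemma serFun_zero_eq (f : CuspForm (Gamma0 N) k) : serFun (qCoeffSeq 1 f) 0 = f := by
  funext τ
  exact eichlerOf_zero f one_pos (one_mem_strictPeriods' N) τ.im_pos

/-- The Eichler integral `∑ a_n (2 π i n)^{-(w+1)} q^n` as a linear map. -/
def eichlerLin (N : ℕ) [NeZero N] (k : ℤ) (w : ℕ) : CuspForm (Gamma0 N) k →ₗ[ℂ] (ℍ → ℂ) where
  toFun f := serFun (qCoeffSeq 1 f) (w + 1)
  map_add' f g := by
    funext τ
    exact eichlerOf_add f g one_pos (one_mem_strictPeriods' N) (w + 1) τ.im_pos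
  map_smul' a f := by
    funext τ
    exact eichlerOf_smul a f one_pos (one_mem_strictPeriods' N) (w + 1) τ

lemma eichlerLin_apply (w : ℕ) (f : CuspForm (Gamma0 N) k) :
    eichlerLin N k w f = serFun (qCoeffSeq 1 f) (w + 1) := rfl

lemma mdiff_eichlerLin (w : ℕ) (f : CuspForm (Gamma0 N) k) : MDiff (eichlerLin N k w f) :=
  mdiff_serFun (qCoeffSeq_zero' f) (summable_qCoeffSeq' f) w

lemma iterate_D_eichlerLin (w : ℕ) (f : CuspForm (Gamma0 N) k) :
    D^[w + 1] (eichlerLin N k w f) = (((2 * π * I)⁻¹ : ℂ) ^ (w + 1)) • (f : ℍ → ℂ) := by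
  have h0 : MDiff (serFun (qCoeffSeq 1 f) 0) := by
    rw [serFun_zero_eq]; exact CuspFormClass.holo f
  have := iterate_D_serFun (qCoeffSeq_zero' f) (summable_qCoeffSeq' f) h0 (w + 1) 0
  rw [serFun_zero_eq] at this
  exact this

/-- The `poly` field. -/
lemma eichlerLin_poly {w : ℕ} (hk : k = w + 2) (f : CuspForm (Gamma0 N) k) (γ : SL(2, ℤ))
    (hγ : γ ∈ Gamma0 N) :
    ∃ P : Polynomial ℂ, P.natDegree ≤ w ∧
      ∀ z : ℍ, (eichlerLin N k w f ∣[(-(w : ℤ))] γ) z - eichlerLin N k w f z = P.eval (z : ℂ) := by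
  set cc : ℂ := ((2 * π * I)⁻¹ : ℂ) ^ (w + 1) with hcc
  have hγ' : (Matrix.SpecialLinearGroup.mapGL ℝ γ) ∈
      ((Gamma0 N : Subgroup SL(2, ℤ)) : Subgroup (GL (Fin 2) ℝ)) :=
    Subgroup.mem_map_of_mem _ hγ
  have hinv : (f : ℍ → ℂ) ∣[k] (Matrix.SpecialLinearGroup.mapGL ℝ γ) = f :=
    SlashInvariantFormClass.slash_action_eq f _ hγ'
  have hdet : (Matrix.SpecialLinearGroup.mapGL ℝ γ).val.det = 1 := by
    rw [← Matrix.GeneralLinearGroup.val_det_apply, Matrix.SpecialLinearGroup.det_mapGL]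
    rfl
  have hf : (cc • (f : ℍ → ℂ)) ∣[(((w + 1 : ℕ)) : ℤ) + 1] (Matrix.SpecialLinearGroup.mapGL ℝ γ)
      = cc • (f : ℍ → ℂ) := by
    have hk' : (((w + 1 : ℕ)) : ℤ) + 1 = k := by rw [hk]; push_cast; ring
    rw [hk']
    have h1 : (cc • (f : ℍ → ℂ)) ∣[k] γ = cc • (f : ℍ → ℂ) ∣[k] γ :=
      ModularForm.SL_smul_slash k γ f cc
    have h2 : (f : ℍ → ℂ) ∣[k] γ = f := hinv
    rw [h2] at h1
    exact h1
  obtain ⟨P, hPdeg, hP⟩ := exists_polynomial_slash_sub (mdiff_eichlerLin w f)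
    (iterate_D_eichlerLin w f) hdet hf
  refine ⟨P, ?_, fun z => ?_⟩
  · exact Polynomial.natDegree_le_iff_coeff_eq_zero.2 fun m hm =>
      (Polynomial.degree_lt_iff_coeff_zero P (w + 1)).1 hPdeg m hm
  · have hw : (1 : ℤ) - ((w + 1 : ℕ) : ℤ) = -(w : ℤ) := by push_cast; ring
    rw [hw] at hP
    have := congrFun hP z
    simp only [Pi.sub_apply, polyFun] at this
    exact this

/-- The `heckeT` field. -/
lemma eichlerLin_heckeT {w : ℕ} (hk : k = w + 2) {p : ℕ} (hp : p.Prime) (hpN : ¬ p ∣ N)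
    (f : CuspForm (Gamma0 N) k) :
    eichlerLin N k w (CuspForm.heckeTLin k hp hpN f) =
      (p : ℂ) ^ (w + 1) • ModularForm.heckeT (-(w : ℤ)) p (eichlerLin N k w f) := by
  have hp0 : p ≠ 0 := hp.ne_zero
  have hp' : (p : ℂ) ≠ 0 := by exact_mod_cast hp0
  set a := qCoeffSeq 1 f with ha
  set g := CuspForm.heckeTLin k hp hpN f with hg
  set a' := qCoeffSeq 1 g with ha'
  have hΓ := one_mem_strictPeriods' N
  haveI : Fact (IsCusp OnePoint.infty
      ((Gamma0 N : Subgroup SL(2, ℤ)) : Subgroup (GL (Fin 2) ℝ))) :=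
    ⟨Subgroup.isCusp_of_mem_strictPeriods one_pos hΓ⟩
  -- the coefficients of `T_p f`
  have hrel : ∀ n, a' n = ModularForm.coeffHeckeT k p a n := by
    intro n
    have := UpperHalfPlane.qCoeff_heckeT
      (SlashInvariantFormClass.periodic_comp_ofComplex f hΓ) (CuspFormClass.holo f)
      (ModularFormClass.bdd_at_infty f) k hp0 n
    exact this
  set b : ℕ → ℂ := (p : ℂ) ^ (w + 1) • a with hb
  have hb0 : b 0 = 0 := by simp [hb, ha, qCoeffSeq_zero' f]
  have hbsum : ∀ z : ℂ, 0 < z.im → Summable fun n => b n * 𝕢 1 z ^ n := by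
    intro z hz
    have := (summable_qCoeffSeq' f z hz).mul_left ((p : ℂ) ^ (w + 1))
    refine this.congr fun n => ?_
    simp [hb, ha, mul_assoc]
  have hsm : (p : ℂ) ^ (w + 1) • eichlerLin N k w f = serFun b (w + 1) := by
    funext τ
    simp only [Pi.smul_apply, smul_eq_mul, eichlerLin_apply, serFun_apply, hb]
    rw [eichlerSeries_smul]
  rw [← ModularForm.heckeT_smul, hsm, eichlerLin_apply]
  refine UpperHalfPlane.eq_of_forall_qCoeff_eq (periodic_serFun _ _)
    (mdiff_serFun (qCoeffSeq_zero' g) (summable_qCoeffSeq' g) w)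
    (isBoundedAtImInfty_serFun (summable_qCoeffSeq' g) _)
    (ModularForm.periodic_heckeT_comp_ofComplex (periodic_serFun _ _) _ _)
    (ModularForm.mdifferentiable_heckeT (mdiff_serFun hb0 hbsum w) _ _)
    (ModularForm.isBoundedAtImInfty_heckeT (isBoundedAtImInfty_serFun hbsum _) _ _) ?_
  intro n
  rw [qCoeff_serFun (qCoeffSeq_zero' g) (summable_qCoeffSeq' g),
    UpperHalfPlane.qCoeff_heckeT (periodic_serFun _ _) (mdiff_serFun hb0 hbsum w)
      (isBoundedAtImInfty_serFun hbsum _) _ hp0 n]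
  show a' n * _ = _
  rw [hrel n]
  simp only [ModularForm.coeffHeckeT_apply, qCoeff_serFun hb0 hbsum]
  have h1 : b (n * p) * eichlerWeight 1 (n * p) ^ (w + 1) =
      a (n * p) * eichlerWeight 1 n ^ (w + 1) := by
    rw [← pow_mul_eichlerWeight_pow hp0 n (w + 1)]
    simp [hb]
    ring
  rw [h1, add_mul]
  congr 1
  split_ifs with hpn
  · obtain ⟨m, rfl⟩ := hpn
    rw [Nat.mul_div_cancel_left m hp.pos]
    have h2 : eichlerWeight 1 m ^ (w + 1) =
        (p : ℂ) ^ (w + 1) * eichlerWeight 1 (p * m) ^ (w + 1) := by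
      rw [mul_comm p m, pow_mul_eichlerWeight_pow hp0]
    have h3 : (p : ℂ) ^ (k - 1) = (p : ℂ) ^ (w + 1) := by
      rw [hk, show ((w : ℤ) + 2 - 1) = ((w + 1 : ℕ) : ℤ) by push_cast; ring, zpow_natCast]
    have h4 : (p : ℂ) ^ (-(w : ℤ) - 1) * (p : ℂ) ^ (w + 1) = 1 := by
      rw [show (-(w : ℤ) - 1) = -((w + 1 : ℕ) : ℤ) by push_cast; ring, zpow_neg, zpow_natCast,
        inv_mul_cancel₀ (pow_ne_zero _ hp')]
    rw [h2, h3]
    simp only [hb, Pi.smul_apply, smul_eq_mul]
    linear_combination (-(a m * (p : ℂ) ^ (w + 1) * eichlerWeight 1 (p * m) ^ (w + 1))) * h4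
  · simp

/-- The `heckeU` field. -/
lemma eichlerLin_heckeU {w : ℕ} {p : ℕ} (hp : p.Prime) (hpN : p ∣ N)
    (f : CuspForm (Gamma0 N) k) :
    eichlerLin N k w (CuspForm.heckeULin k hpN f) =
      (p : ℂ) ^ (w + 1) • ModularForm.heckeU (-(w : ℤ)) p (eichlerLin N k w f) := by
  have hp0 : p ≠ 0 := hp.ne_zero
  have hp' : (p : ℂ) ≠ 0 := by exact_mod_cast hp0
  set a := qCoeffSeq 1 f with ha
  set g := CuspForm.heckeULin k hpN f with hg
  set a' := qCoeffSeq 1 g with ha'
  have hΓ := one_mem_strictPeriods' N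
  haveI : Fact (IsCusp OnePoint.infty
      ((Gamma0 N : Subgroup SL(2, ℤ)) : Subgroup (GL (Fin 2) ℝ))) :=
    ⟨Subgroup.isCusp_of_mem_strictPeriods one_pos hΓ⟩
  have hrel : ∀ n, a' n = ModularForm.coeffHeckeU p a n := by
    intro n
    have := UpperHalfPlane.qCoeff_heckeU
      (SlashInvariantFormClass.periodic_comp_ofComplex f hΓ) (CuspFormClass.holo f)
      (ModularFormClass.bdd_at_infty f) k hp0 n
    exact this
  set b : ℕ → ℂ := (p : ℂ) ^ (w + 1) • a with hb
  have hb0 : b 0 = 0 := by simp [hb, ha, qCoeffSeq_zero' f]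
  have hbsum : ∀ z : ℂ, 0 < z.im → Summable fun n => b n * 𝕢 1 z ^ n := by
    intro z hz
    have := (summable_qCoeffSeq' f z hz).mul_left ((p : ℂ) ^ (w + 1))
    refine this.congr fun n => ?_
    simp [hb, ha, mul_assoc]
  have hsm : (p : ℂ) ^ (w + 1) • eichlerLin N k w f = serFun b (w + 1) := by
    funext τ
    simp only [Pi.smul_apply, smul_eq_mul, eichlerLin_apply, serFun_apply, hb]
    rw [eichlerSeries_smul]
  rw [← ModularForm.heckeU_smul, hsm, eichlerLin_apply]
  refine UpperHalfPlane.eq_of_forall_qCoeff_eq (periodic_serFun _ _)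
    (mdiff_serFun (qCoeffSeq_zero' g) (summable_qCoeffSeq' g) w)
    (isBoundedAtImInfty_serFun (summable_qCoeffSeq' g) _)
    (ModularForm.periodic_heckeU_comp_ofComplex (periodic_serFun _ _) _ _)
    (ModularForm.mdifferentiable_heckeU (mdiff_serFun hb0 hbsum w) _ _)
    (ModularForm.isBoundedAtImInfty_heckeU (isBoundedAtImInfty_serFun hbsum _) _ _) ?_
  intro n
  rw [qCoeff_serFun (qCoeffSeq_zero' g) (summable_qCoeffSeq' g),
    UpperHalfPlane.qCoeff_heckeU (periodic_serFun _ _) (mdiff_serFun hb0 hbsum w)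
      (isBoundedAtImInfty_serFun hbsum _) _ hp0 n]
  show a' n * _ = _
  rw [hrel n]
  simp only [ModularForm.coeffHeckeU_apply, qCoeff_serFun hb0 hbsum]
  rw [← pow_mul_eichlerWeight_pow hp0 n (w + 1)]
  simp [hb]
  ring

/-- helper262's `EichlerData`, given the separation property. -/
def eichlerData {w : ℕ} (hk : k = w + 2)
    (hsep : ∀ f : CuspForm (Gamma0 N) k,
      (∀ γ : SL(2, ℤ), γ ∈ Gamma0 N →
        eichlerLin N k w f ∣[(-(w : ℤ))] γ = eichlerLin N k w f) → f = 0) :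
    EichlerData N k w where
  E := eichlerLin N k w
  poly := eichlerLin_poly hk
  sep := hsep
  heckeT := fun hp hpN f => eichlerLin_heckeT hk hp hpN f
  heckeU := fun hp hpN f => eichlerLin_heckeU hp hpN f

/-- **Reduction of S22 (weight `k = w + 2`) to the separation property of the Eichler
integral.** -/
theorem finite_heckeAlgebra_of_sep {w : ℕ} (hk : k = w + 2)
    (hsep : ∀ f : CuspForm (Gamma0 N) k,
      (∀ γ : SL(2, ℤ), γ ∈ Gamma0 N →
        eichlerLin N k w f ∣[(-(w : ℤ))] γ = eichlerLin N k w f) → f = 0) (S : Set ℕ) :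
    Module.Finite ℤ (CuspForm.heckeAlgebra N k S) :=
  finite_heckeAlgebra_of_eichlerData (eichlerData hk hsep) S

end Gamma0

end

end Fermat.Agent.S22.helper661
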