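import Mathlib
import Fermat.Prelude.Def_CuspForm_HeckeAlgebra
import Fermat.Prelude.Thm_ModularForm_sturm_bound_Gamma0
import Fermat.Prelude.Thm_Subgroup_IsArithmetic_exists_nat_mem_strictPeriods_conj
import Fermat.Agent.S22.helper322_Bol
import Fermat.Agent.S22.helper1222_EichlerSeries

/-!
# Separation lemma for the Eichler integral (helper982)

If `F` is a holomorphic function on the upper half plane which is zero at `i∞`, invariant under
the weight `-w` slash action of `Γ₀(N)`, and whose `(w+1)`-st normalized derivative is a cusp form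
`f` of weight `w + 2` on `Γ₀(N)`, then `f = 0`.
-/

set_option autoImplicit false

open UpperHalfPlane hiding I
open Real Complex Filter Topology
open scoped Manifold MatrixGroups ModularForm Pointwise
open Derivative

namespace Fermat.Agent.S22.helper982

/-- The image of `Γ₀(N)` in `GL(2, ℝ)`. -/
local notation "Γ₀[" N "]" =>
  (Subgroup.map (Matrix.SpecialLinearGroup.mapGL ℝ) (CongruenceSubgroup.Gamma0 N))

noncomputable section

open Fermat.Agent.S22.helper322 Fermat.Agent.S22.helper1222

/-- From a chain of primitives on the upper half plane (as functions on `ℂ`) to an iterated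
normalized derivative. -/
theorem iterate_D_of_chain (E : ℕ → ℂ → ℂ)
    (hE : ∀ (j : ℕ) (z : ℂ), 0 < z.im → HasDerivAt (E (j + 1)) (E j z) z) (n : ℕ) :
    D^[n] (fun z : ℍ => (2 * π * I) ^ n * E n z) = fun z : ℍ => E 0 z := by
  induction n with
  | zero => simp
  | succ n ih =>
    rw [Function.iterate_succ_apply]
    have key : D (fun z : ℍ => (2 * π * I) ^ (n + 1) * E (n + 1) z) =
        fun z : ℍ => (2 * π * I) ^ n * E n z := by
      ext z
      simp only [normalizedDerivOfComplex]
      have h2 : ((fun z : ℍ => (2 * π * I) ^ (n + 1) * E (n + 1) z) ∘ ofComplex) =ᶠ[𝓝 (z : ℂ)]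
          fun w => (2 * π * I) ^ (n + 1) * E (n + 1) w := by
        filter_upwards [isOpen_upperHalfPlaneSet.mem_nhds z.im_pos] with w hw
        simp [Function.comp_apply, ofComplex_apply_of_im_pos hw]
      rw [h2.deriv_eq, ((hE n z z.im_pos).const_mul _).deriv]
      have hpi : (2 * π * I : ℂ) ≠ 0 := by simp [Real.pi_ne_zero, Complex.I_ne_zero]
      field_simp
      ring
    rw [key, ih]

/-- A function on `ℍ` that comes from a function on `ℂ` differentiable on the upper half plane is
`MDiff`. -/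
theorem mdiff_of_hasDerivAt (E E' : ℂ → ℂ) (c : ℂ)
    (hE : ∀ (z : ℂ), 0 < z.im → HasDerivAt E (E' z) z) :
    MDiff (fun z : ℍ => c * E z) := by
  rw [UpperHalfPlane.mdifferentiable_iff]
  have h : DifferentiableOn ℂ (fun w : ℂ => c * E w) {z | 0 < z.im} := fun w hw =>
    ((hE w hw).const_mul c).differentiableAt.differentiableWithinAt
  refine h.congr ?_
  intro w hw
  simp [Function.comp_apply, ofComplex_apply_of_im_pos hw]

/-- A polynomial which is periodic on the upper half plane is constant. -/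
theorem eq_C_of_periodic (P : Polynomial ℂ) (M : ℕ) (hM : 0 < M)
    (h : ∀ z : ℂ, 0 < z.im → P.eval (z + M) = P.eval z) : P = Polynomial.C (P.eval I) := by
  have hev : ∀ n : ℕ, P.eval (I + n * M) = P.eval I := by
    intro n
    induction n with
    | zero => simp
    | succ n ih =>
      have him : 0 < (I + (n : ℂ) * M).im := by
        have : ((n : ℂ) * (M : ℂ)).im = 0 := by
          rw [← Nat.cast_mul]; exact Complex.natCast_im _
        simp [Complex.add_im, this]
      have := h (I + n * M) him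
      rw [← ih, ← this]
      congr 1
      push_cast
      ring
  have hroot : (P - Polynomial.C (P.eval I)) = 0 := by
    refine Polynomial.eq_zero_of_infinite_isRoot _ ?_
    have hinf : (Set.range fun n : ℕ => (I + (n : ℂ) * M)).Infinite := by
      refine Set.infinite_range_of_injective fun a b hab => ?_
      have hM' : (M : ℂ) ≠ 0 := by exact_mod_cast hM.ne'
      have h1 : (a : ℂ) * M = b * M := add_left_cancel hab
      exact_mod_cast mul_right_cancel₀ hM' h1
    refine hinf.mono ?_
    rintro _ ⟨n, rfl⟩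
    simp [Polynomial.IsRoot, hev n]
  exact sub_eq_zero.mp hroot

/-- `F ∣[-w] g` is bounded at `i∞` for every `g ∈ SL(2, ℤ)`. -/
theorem isBoundedAtImInfty_slash {N : ℕ} [NeZero N] {k : ℤ} (w : ℕ) (hk : k = (w : ℤ) + 2)
    (f : CuspForm (CongruenceSubgroup.Gamma0 N) k) (F : ℍ → ℂ) (hF : MDiff F)
    (hD : D^[w + 1] F = ⇑f)
    (hinv : ∀ γ : SL(2, ℤ), γ ∈ CongruenceSubgroup.Gamma0 N → F ∣[(-(w : ℤ))] γ = F)
    (g : SL(2, ℤ)) : IsBoundedAtImInfty (F ∣[(-(w : ℤ))] g) := by
  have hinvGL : ∀ γ ∈ Γ₀[N], F ∣[(-(w : ℤ))] γ = F := by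
    rintro _ ⟨γ, hγ, rfl⟩
    exact hinv γ hγ
  let Fs : SlashInvariantForm Γ₀[N] (-(w : ℤ)) := { toFun := F, slash_action_eq' := hinvGL }
  obtain ⟨M, hM0, hM⟩ := Subgroup.IsArithmetic.exists_nat_mem_strictPeriods_conj Γ₀[N]
  have hMpos : (0 : ℝ) < (M : ℝ) := by exact_mod_cast hM0
  set gG : GL (Fin 2) ℝ := Matrix.SpecialLinearGroup.mapGL ℝ g with hgG
  have hper : (M : ℝ) ∈ (ConjAct.toConjAct gG⁻¹ • Γ₀[N]).strictPeriods := by
    have := hM g⁻¹
    rwa [map_inv] at this
  -- the translate of `f`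
  set fg : CuspForm (ConjAct.toConjAct gG⁻¹ • Γ₀[N]) k := CuspForm.translate f gG with hfg
  have hfg_coe : (⇑fg : ℍ → ℂ) = (⇑f) ∣[k] gG := rfl
  -- the chain of Eichler integrals of the translate
  set E : ℕ → ℂ → ℂ := fun j => eichlerOf (M : ℝ) (⇑fg) j with hE
  have hEchain : ∀ (j : ℕ) (z : ℂ), 0 < z.im → HasDerivAt (E (j + 1)) (E j z) z :=
    fun j z hz => hasDerivAt_eichlerOf fg hMpos hper j hz
  have hE0 : ∀ z : ℍ, E 0 z = fg z := fun z => eichlerOf_zero fg hMpos hper z.im_pos
  set G : ℍ → ℂ := fun z => (2 * π * I) ^ (w + 1) * E (w + 1) z with hG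
  have hGmd : MDiff G := mdiff_of_hasDerivAt (E (w + 1)) (E w) _ (hEchain w)
  have hDG : D^[w + 1] G = (⇑f) ∣[k] gG := by
    rw [hG, iterate_D_of_chain E hEchain (w + 1), ← hfg_coe]
    funext z
    exact hE0 z
  -- the slash of `F`
  set R : ℍ → ℂ := F ∣[(-(w : ℤ))] gG with hR
  have hRmd : MDiff R := hF.slash _ gG
  have hdet : gG.val.det = 1 := by
    rw [← Matrix.GeneralLinearGroup.val_det_apply, hgG, Matrix.SpecialLinearGroup.det_mapGL]
    rfl
  have hDR : D^[w + 1] R = (⇑f) ∣[k] gG := by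
    have e1 : (1 : ℤ) - ((w + 1 : ℕ) : ℤ) = -(w : ℤ) := by push_cast; ring
    have e2 : (((w + 1 : ℕ) : ℤ) + 1) = k := by rw [hk]; push_cast; ring
    have hb := bol_identity (g := gG) (by rw [hdet]; exact one_pos) (w + 1) hF
    rw [e1, e2, hD] at hb
    rw [hR, hb]
    funext z
    simp [hdet]
  -- the difference is a polynomial
  obtain ⟨P, -, hP⟩ := exists_polynomial_of_iterate_D_eq_zero (w + 1) (hRmd.sub hGmd)
    (by rw [iterate_D_sub hRmd hGmd, hDR, hDG, sub_self])
  -- periodicity
  have hRper : Function.Periodic (R ∘ ofComplex) (M : ℝ) :=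
    SlashInvariantFormClass.periodic_comp_ofComplex (SlashInvariantForm.translate Fs gG) hper
  have hEper : Function.Periodic (E (w + 1)) (M : ℝ) := eichlerOf_periodic _ _ _
  have hPper : ∀ z : ℂ, 0 < z.im → P.eval (z + M) = P.eval z := by
    intro z hz
    have hz' : 0 < (z + (M : ℂ)).im := by simpa using hz
    have h1 := congrFun hP ⟨z, hz⟩
    have h2 := congrFun hP ⟨z + M, hz'⟩
    simp only [Pi.sub_apply, polyFun, hG] at h1 h2
    have h3 : R ⟨z + M, hz'⟩ = R ⟨z, hz⟩ := by
      have := hRper z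
      simp only [Function.comp_apply] at this
      rw [ofComplex_apply_of_im_pos hz] at this
      rw [← this]
      have hz'' : 0 < (z + ((M : ℝ) : ℂ)).im := by simpa using hz
      rw [ofComplex_apply_of_im_pos hz'']
      congr 1
    have h4 : E (w + 1) (z + M) = E (w + 1) z := by
      have := hEper z
      simpa using this
    rw [← h2, ← h1, h3, h4]
  have hPC := eq_C_of_periodic P M hM0 hPper
  -- conclusion: `R = G + const`
  have hReq : R = fun z => G z + P.eval I := by
    funext z
    have h1 := congrFun hP z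
    simp only [Pi.sub_apply, polyFun] at h1
    rw [hPC, Polynomial.eval_C] at h1
    rw [← h1]
    ring
  have hGzero : IsZeroAtImInfty G := by
    have h1 : Tendsto (E (w + 1)) (comap Complex.im atTop) (𝓝 0) :=
      tendsto_eichlerOf_zero fg hMpos hper (w + 1)
    have h2 : Tendsto (fun z : ℍ => (z : ℂ)) atImInfty (comap Complex.im atTop) := by
      rw [tendsto_comap_iff]
      exact tendsto_comap
    have h3 := (h1.comp h2).const_mul ((2 * π * I) ^ (w + 1))
    rw [mul_zero] at h3
    exact h3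
  show IsBoundedAtImInfty R
  rw [hReq]
  exact hGzero.boundedAtFilter.add (Filter.const_boundedAtFilter _ _)

/-- **Separation**: a holomorphic function `F` on `ℍ`, zero at `i∞`, invariant under the weight
`-w` action of `Γ₀(N)`, whose `(w+1)`-st normalized derivative is a cusp form `f` of weight `w+2`
on `Γ₀(N)`, forces `f = 0`. -/
theorem eq_zero_of_iterate_D_eq {N : ℕ} [NeZero N] {k : ℤ} (w : ℕ) (hk : k = (w : ℤ) + 2)
    (f : CuspForm (CongruenceSubgroup.Gamma0 N) k) (F : ℍ → ℂ) (hF : MDiff F)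
    (hD : D^[w + 1] F = ⇑f) (h0 : IsZeroAtImInfty F)
    (hinv : ∀ γ : SL(2, ℤ), γ ∈ CongruenceSubgroup.Gamma0 N → F ∣[(-(w : ℤ))] γ = F) :
    f = 0 := by
  have hinvGL : ∀ γ ∈ Γ₀[N], F ∣[(-(w : ℤ))] γ = F := by
    rintro _ ⟨γ, hγ, rfl⟩
    exact hinv γ hγ
  let Fm : ModularForm Γ₀[N] (-(w : ℤ)) :=
    { toFun := F
      slash_action_eq' := hinvGL
      holo' := hF
      bdd_at_cusps' := fun {c} hc => by
        have hc' : IsCusp c 𝒮ℒ := (Subgroup.IsArithmetic.isCusp_iff_isCusp_SL2Z Γ₀[N]).mp hc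
        exact (OnePoint.isBoundedAt_iff_forall_SL2Z hc').mpr
          (fun γ _ => isBoundedAtImInfty_slash w hk f F hF hD hinv γ) }
  have hFm : Fm = 0 := by
    refine ModularForm.sturm_bound_Gamma0 N Fm fun n hn => ?_
    have hle : (-(w : ℤ)) * ((CongruenceSubgroup.Gamma0 N).index : ℤ) ≤ 0 :=
      mul_nonpos_of_nonpos_of_nonneg (by simp) (by positivity)
    have hn0 : n = 0 := by
      rw [Int.toNat_of_nonpos hle] at hn
      simpa using hn
    subst hn0
    have hcoe : (⇑Fm : ℍ → ℂ) = F := rfl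
    rw [hcoe]
    simp [UpperHalfPlane.qExpansion_coeff, h0.cuspFunction_apply_zero one_pos]
  have hF0 : F = 0 := by
    funext z
    exact DFunLike.congr_fun hFm z
  have hf0 : (⇑f : ℍ → ℂ) = 0 := by
    rw [← hD, hF0]
    exact iterate_D_zero (w + 1)
  exact DFunLike.coe_injective (by rw [hf0]; rfl)

end

end Fermat.Agent.S22.helper982
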